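import Mathlib

/-!
# CFT / Coh : explicit Shapiro isomorphism, restriction and corestriction (all degrees)

Mathlib-only, universe-polymorphic (`k G : Type u`, `Rep.{u} k G`), namespace
`Fermat.Agent.CFT.Coh.ResCores` (the universe-`0` names `coindEval`, `shapiroMap`, `rest` of
`Coh/Defs.lean` are bridged in `Coh/ResCoresPlan.lean`).  For a subgroup `S ≤ G` and `A : Rep k S` the explicit Shapiro map
`shapiroMap S A n := groupCohomology.map S.subtype (evaluation at 1) n :
  Hⁿ(G, coind_S^G A) ⟶ Hⁿ(S, A)` is bijective in every degree (dimension shifting).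
For `S` of finite index this gives the corestriction `cores` with `res ≫ cores = [G:S]`,
hence `res x = 0 → [G:S] • x = 0`, and the usual Sylow corollaries.
-/

set_option autoImplicit false

universe u

open CategoryTheory groupCohomology Rep

namespace Fermat.Agent.CFT.Coh.ResCores

variable {k G : Type u} [CommRing k] [Group G] (S : Subgroup G)

/-! ## Naturality of the connecting homomorphism for `groupCohomology.map f φ` -/

/-- Naturality of connecting homomorphisms for maps induced by a group homomorphism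
(`Mathlib` has the case `f = id`). -/
theorem δ_comp_map {H : Type u} [Group H] (f : H →* G) {X : ShortComplex (Rep.{u} k G)}
    {Y : ShortComplex (Rep.{u} k H)} (hX : X.ShortExact) (hY : Y.ShortExact)
    (φ₁ : res f X.X₁ ⟶ Y.X₁) (φ₂ : res f X.X₂ ⟶ Y.X₂) (φ₃ : res f X.X₃ ⟶ Y.X₃)
    (h₁₂ : (resFunctor f).map X.f ≫ φ₂ = φ₁ ≫ Y.f)
    (h₂₃ : (resFunctor f).map X.g ≫ φ₃ = φ₂ ≫ Y.g) (i j : ℕ) (hij : i + 1 = j) :
    groupCohomology.δ hX i j hij ≫ groupCohomology.map f φ₁ j =
      groupCohomology.map f φ₃ i ≫ groupCohomology.δ hY i j hij := by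
  let Φ : X.map (cochainsFunctor k G) ⟶ Y.map (cochainsFunctor k H) :=
    { τ₁ := cochainsMap f φ₁
      τ₂ := cochainsMap f φ₂
      τ₃ := cochainsMap f φ₃
      comm₁₂ := by
        have e1 : cochainsMap f φ₁ ≫ cochainsMap (MonoidHom.id H) Y.f =
            cochainsMap (f.comp (MonoidHom.id H)) ((resFunctor (MonoidHom.id H)).map φ₁ ≫ Y.f) :=
          (cochainsMap_comp ..).symm
        have e2 : cochainsMap (MonoidHom.id G) X.f ≫ cochainsMap f φ₂ =
            cochainsMap ((MonoidHom.id G).comp f) ((resFunctor f).map X.f ≫ φ₂) :=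
          (cochainsMap_comp ..).symm
        exact e1.trans ((cochainsMap_congr rfl (by rw [h₁₂]; rfl)).trans e2.symm)
      comm₂₃ := by
        have e1 : cochainsMap f φ₂ ≫ cochainsMap (MonoidHom.id H) Y.g =
            cochainsMap (f.comp (MonoidHom.id H)) ((resFunctor (MonoidHom.id H)).map φ₂ ≫ Y.g) :=
          (cochainsMap_comp ..).symm
        have e2 : cochainsMap (MonoidHom.id G) X.g ≫ cochainsMap f φ₃ =
            cochainsMap ((MonoidHom.id G).comp f) ((resFunctor f).map X.g ≫ φ₃) :=
          (cochainsMap_comp ..).symm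
        exact e1.trans ((cochainsMap_congr rfl (by rw [h₂₃]; rfl)).trans e2.symm) }
  exact HomologicalComplex.HomologySequence.δ_naturality Φ (map_cochainsFunctor_shortExact hX)
    (map_cochainsFunctor_shortExact hY) i j hij

/-! ## Elementwise long exact sequence -/

section LES

variable {X : ShortComplex (Rep.{u} k G)} (hX : X.ShortExact)

lemma δ_surjective_of_isZero (n : ℕ) (h : Limits.IsZero (groupCohomology X.X₂ (n + 1))) :
    Function.Surjective (groupCohomology.δ hX n (n + 1) rfl).hom :=
  (ModuleCat.epi_iff_surjective (groupCohomology.δ hX n (n + 1) rfl)).1 (epi_δ_of_isZero hX n h)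

lemma exists_of_δ_eq_zero (n : ℕ) (z : groupCohomology X.X₃ n)
    (hz : (groupCohomology.δ hX n (n + 1) rfl).hom z = 0) :
    ∃ y : groupCohomology X.X₂ n, (groupCohomology.map (MonoidHom.id G) X.g n).hom y = z :=
  (ShortComplex.moduleCat_exact_iff _).1 (mapShortComplex₃_exact hX (i := n) rfl) z hz

lemma δ_map_apply_eq_zero (n : ℕ) (y : groupCohomology X.X₂ n) :
    (groupCohomology.δ hX n (n + 1) rfl).hom
      ((groupCohomology.map (MonoidHom.id G) X.g n).hom y) = 0 := by
  have h := (mapShortComplex₃ hX (i := n) rfl).zero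
  exact congr($h y)

end LES

/-! ## Coinduction: counit, unit, exactness, effacement -/

/-- Evaluation at `1`: the counit `res (coind A) ⟶ A`. -/
noncomputable def coindEval (A : Rep.{u} k S) : res S.subtype (coind S.subtype A) ⟶ A :=
  Rep.ofHom ⟨LinearMap.proj 1 ∘ₗ (A.ρ.coindV S.subtype).subtype, fun g => by
    ext x
    have h := x.2 g 1
    rw [mul_one] at h
    change x.1 (1 * (g : G)) = _
    rw [one_mul]
    exact h⟩

@[simp] lemma coindEval_apply (A : Rep.{u} k S) (x : coind S.subtype A) :
    (coindEval S A).hom x = x.1 1 := rfl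

/-- The unit `B ⟶ coind (res B)`, `b ↦ (g ↦ g • b)`. -/
noncomputable def coindUnit (B : Rep.{u} k G) : B ⟶ coind S.subtype (res S.subtype B) :=
  resCoindToHom S.subtype B (res S.subtype B) (𝟙 _)

lemma coindUnit_apply_coe (B : Rep.{u} k G) (b : B) (g : G) :
    ((coindUnit S B).hom b).1 g = B.ρ g b := rfl

instance coindUnit_mono (B : Rep.{u} k G) : Mono (coindUnit S B) := by
  rw [Rep.mono_iff_injective]
  intro b b' h
  have h1 : ((coindUnit S B).hom b).1 1 = ((coindUnit S B).hom b').1 1 := by rw [h]
  rw [coindUnit_apply_coe, coindUnit_apply_coe, map_one] at h1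
  exact h1

lemma coindUnit_comp_coindEval (B : Rep.{u} k G) :
    (resFunctor S.subtype).map (coindUnit S B) ≫ coindEval S (res S.subtype B) = 𝟙 _ := by
  ext x
  simp [coindEval, coindUnit]

lemma coindEval_naturality {A A' : Rep.{u} k S} (f : A ⟶ A') :
    (resFunctor S.subtype).map ((coindFunctor.{u} k S.subtype).map f) ≫ coindEval S A' =
      coindEval S A ≫ f := by
  ext x
  rfl

instance coindFunctor_additive : (coindFunctor.{u} k S.subtype).Additive :=
  (resCoindAdjunction.{u} k S.subtype).right_adjoint_additive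

instance coindFunctor_preservesFiniteLimits :
    Limits.PreservesFiniteLimits (coindFunctor.{u} k S.subtype) := by
  have : Limits.PreservesLimitsOfSize.{0, 0} (coindFunctor.{u} k S.subtype) :=
    (resCoindAdjunction.{u} k S.subtype).rightAdjoint_preservesLimits
  infer_instance

instance coindFunctor_preservesFiniteColimits :
    Limits.PreservesFiniteColimits (coindFunctor.{u} k S.subtype) := by
  have h1 := ((coindFunctor.{u} k S.subtype).preservesFiniteLimits_tfae.out 3 0).mp
    (coindFunctor_preservesFiniteLimits S)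
  refine ((coindFunctor.{u} k S.subtype).preservesFiniteColimits_tfae.out 3 0).mpr fun X hX => ?_
  have := hX.epi_g
  exact ⟨(h1 X hX).1, inferInstance⟩

/-- Coinduction from a subgroup is exact. -/
lemma coind_shortExact {Y : ShortComplex (Rep.{u} k S)} (hY : Y.ShortExact) :
    (Y.map (coindFunctor.{u} k S.subtype)).ShortExact :=
  hY.map_of_exact _

/-- The effacing short complex `0 ⟶ A ⟶ coind_⊥ A ⟶ Q ⟶ 0`. -/
noncomputable def effSC (A : Rep.{u} k G) : ShortComplex (Rep.{u} k G) :=
  ShortComplex.mk (coindUnit (⊥ : Subgroup G) A) (Limits.cokernel.π (coindUnit (⊥ : Subgroup G) A))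
    (Limits.cokernel.condition _)

lemma effSC_shortExact (A : Rep.{u} k G) : (effSC A).ShortExact :=
  ShortComplex.ShortExact.mk' (ShortComplex.exact_cokernel _)
    (inferInstanceAs (Mono (coindUnit (⊥ : Subgroup G) A)))
    (inferInstanceAs (Epi (Limits.cokernel.π (coindUnit (⊥ : Subgroup G) A))))

lemma isZero_groupCohomology_coind_bot (A : Rep.{u} k (⊥ : Subgroup G)) (n : ℕ) :
    Limits.IsZero (groupCohomology (coind (⊥ : Subgroup G).subtype A) (n + 1)) :=
  (isZero_groupCohomology_succ_of_subsingleton A n).of_iso (groupCohomology.coindIso A (n + 1))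

lemma isZero_groupCohomology_effSC_X₂ (A : Rep.{u} k G) (n : ℕ) :
    Limits.IsZero (groupCohomology (effSC A).X₂ (n + 1)) :=
  isZero_groupCohomology_coind_bot _ n

lemma isZero_groupCohomology_coind_effSC_X₂ (A : Rep.{u} k S) (n : ℕ) :
    Limits.IsZero (groupCohomology (coind S.subtype (effSC A).X₂) (n + 1)) :=
  (isZero_groupCohomology_effSC_X₂ A n).of_iso (groupCohomology.coindIso _ (n + 1))

/-! ## The explicit Shapiro map -/

/-- The explicit Shapiro map `Hⁿ(G, coind_S^G A) ⟶ Hⁿ(S, A)`: restrict to `S`, evaluate at `1`. -/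
noncomputable def shapiroMap (A : Rep.{u} k S) (n : ℕ) :
    groupCohomology (coind S.subtype A) n ⟶ groupCohomology A n :=
  groupCohomology.map S.subtype (coindEval S A) n

lemma shapiroMap_naturality {A A' : Rep.{u} k S} (f : A ⟶ A') (n : ℕ) :
    groupCohomology.map (MonoidHom.id G) ((coindFunctor.{u} k S.subtype).map f) n ≫
        shapiroMap S A' n =
      shapiroMap S A n ≫ groupCohomology.map (MonoidHom.id S) f n := by
  rw [shapiroMap, shapiroMap, ← groupCohomology.map_comp, ← groupCohomology.map_comp]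
  exact groupCohomology.map_congr rfl (by rw [coindEval_naturality]; rfl) n

/-- The Shapiro map commutes with connecting homomorphisms. -/
lemma shapiroMap_δ {Y : ShortComplex (Rep.{u} k S)} (hY : Y.ShortExact) (i j : ℕ)
    (hij : i + 1 = j) :
    groupCohomology.δ (coind_shortExact S hY) i j hij ≫ shapiroMap S Y.X₁ j =
      shapiroMap S Y.X₃ i ≫ groupCohomology.δ hY i j hij :=
  δ_comp_map S.subtype (coind_shortExact S hY) hY (coindEval S Y.X₁) (coindEval S Y.X₂)
    (coindEval S Y.X₃) (coindEval_naturality S Y.f) (coindEval_naturality S Y.g) i j hij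

lemma shapiroMap_zero_key (A : Rep.{u} k S) (x : groupCohomology (coind S.subtype A) 0) :
    ((H0Iso A).hom ((shapiroMap S A 0).hom x)).1 = ((H0Iso (coind S.subtype A)).hom x).1.1 1 := by
  have := map_H0Iso_hom_f_apply S.subtype (coindEval S A) x
  exact this

lemma shapiroMap_zero_bijective (A : Rep.{u} k S) :
    Function.Bijective (shapiroMap S A 0).hom := by
  constructor
  · rw [injective_iff_map_eq_zero]
    intro x hx
    have h1 := shapiroMap_zero_key S A x
    rw [hx, map_zero] at h1
    have hinv := ((H0Iso (coind S.subtype A)).hom x).2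
    have h2 : ((H0Iso (coind S.subtype A)).hom x).1 = 0 := by
      apply Subtype.ext
      funext g
      have h3 := congrArg (fun F => F.1 1) (hinv g)
      change ((H0Iso (coind S.subtype A)).hom x).1.1 (1 * g) = _ at h3
      rw [one_mul] at h3
      rw [h3, ← h1]
      rfl
    have h4 : (H0Iso (coind S.subtype A)).hom x = 0 := Subtype.ext h2
    have h5 : Function.Injective (H0Iso (coind S.subtype A)).hom :=
      Function.LeftInverse.injective (g := (H0Iso (coind S.subtype A)).inv)
        (fun a => Iso.hom_inv_id_apply _ a)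
    exact h5 (by rw [h4, map_zero])
  · intro y
    let a := (H0Iso A).hom y
    let F : coind S.subtype A := ⟨fun _ => a.1, fun s _ => (a.2 s).symm⟩
    have hF : F ∈ (coind S.subtype A).ρ.invariants := fun g => Subtype.ext (funext fun h => rfl)
    refine ⟨(H0Iso (coind S.subtype A)).inv ⟨F, hF⟩, ?_⟩
    have h5 : Function.Injective (H0Iso A).hom :=
      Function.LeftInverse.injective (g := (H0Iso A).inv) (fun a => Iso.hom_inv_id_apply _ a)
    have h6 : (H0Iso A).hom ((shapiroMap S A 0).hom ((H0Iso (coind S.subtype A)).inv ⟨F, hF⟩)) =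
        (H0Iso A).hom y := by
      apply Subtype.ext
      rw [shapiroMap_zero_key]
      rw [Iso.inv_hom_id_apply]
    exact h5 h6

/-- **Explicit Shapiro lemma**, all degrees: restriction to `S` followed by evaluation at `1`
is an isomorphism `Hⁿ(G, coind_S^G A) ≅ Hⁿ(S, A)`. -/
theorem shapiroMap_bijective (A : Rep.{u} k S) (n : ℕ) :
    Function.Bijective (shapiroMap S A n).hom := by
  induction n generalizing A with
  | zero => exact shapiroMap_zero_bijective S A
  | succ n ih =>
    have hY : (effSC A).ShortExact := effSC_shortExact A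
    have hX := coind_shortExact S hY
    have hδ := shapiroMap_δ S hY n (n + 1) rfl
    have hδ' : ∀ y, (shapiroMap S A (n + 1)).hom ((groupCohomology.δ hX n (n + 1) rfl).hom y) =
        (groupCohomology.δ hY n (n + 1) rfl).hom ((shapiroMap S (effSC A).X₃ n).hom y) :=
      fun y => congr($hδ y)
    have hnat : ∀ j', (shapiroMap S (effSC A).X₃ n).hom
        ((groupCohomology.map (MonoidHom.id G)
          ((coindFunctor.{u} k S.subtype).map (effSC A).g) n).hom j') =
        (groupCohomology.map (MonoidHom.id S) (effSC A).g n).hom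
          ((shapiroMap S (effSC A).X₂ n).hom j') :=
      fun j' => congr($(shapiroMap_naturality S (effSC A).g n) j')
    have hJ := isZero_groupCohomology_effSC_X₂ A n
    have hcJ := isZero_groupCohomology_coind_effSC_X₂ S A n
    constructor
    · rw [injective_iff_map_eq_zero]
      intro x hx
      obtain ⟨y, rfl⟩ := δ_surjective_of_isZero hX n hcJ x
      rw [hδ'] at hx
      obtain ⟨j, hj⟩ := exists_of_δ_eq_zero hY n _ hx
      obtain ⟨j', rfl⟩ := (ih (effSC A).X₂).2 j
      rw [← hnat] at hj
      have h := (ih (effSC A).X₃).1 hj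
      rw [← h]
      exact δ_map_apply_eq_zero hX n j'
    · intro z
      obtain ⟨w, rfl⟩ := δ_surjective_of_isZero hY n hJ z
      obtain ⟨y, rfl⟩ := (ih (effSC A).X₃).2 w
      exact ⟨_, hδ' y⟩

instance shapiroMap_isIso (A : Rep.{u} k S) (n : ℕ) : IsIso (shapiroMap S A n) :=
  (ConcreteCategory.isIso_iff_bijective _).2 (shapiroMap_bijective S A n)

/-! ## The trace `coind (res B) ⟶ B` for a subgroup of finite index -/

lemma coind_apply_mul (B : Rep.{u} k G) (F : coind S.subtype (res S.subtype B)) (s : G)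
    (hs : s ∈ S) (h : G) : F.1 (s * h) = B.ρ s (F.1 h) :=
  F.2 ⟨s, hs⟩ h

/-- Summand of the trace at a coset `yS`: `F ↦ y • F(y⁻¹)`. -/
noncomputable def coindTraceAux (B : Rep.{u} k G) (c : G ⧸ S) :
    (coind S.subtype (res S.subtype B)) →ₗ[k] B :=
  Quotient.liftOn' c
    (fun y => (B.ρ y).comp ((LinearMap.proj y⁻¹).comp (Submodule.subtype _)))
    (by
      intro y y' h
      rw [QuotientGroup.leftRel_apply] at h
      ext F
      have hF := coind_apply_mul S B F _ (S.inv_mem h) y⁻¹
      have e : y'⁻¹ = (y⁻¹ * y')⁻¹ * y⁻¹ := by group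
      change B.ρ y (F.1 y⁻¹) = B.ρ y' (F.1 y'⁻¹)
      rw [e, hF, ← Module.End.mul_apply, ← map_mul]
      congr 2
      group)

lemma coindTraceAux_mk (B : Rep.{u} k G) (y : G) (F : coind S.subtype (res S.subtype B)) :
    coindTraceAux S B (QuotientGroup.mk y) F = B.ρ y (F.1 y⁻¹) := rfl

/-- The trace as a linear map. -/
noncomputable def coindTraceLin [S.FiniteIndex] (B : Rep.{u} k G) :
    (coind S.subtype (res S.subtype B)) →ₗ[k] B :=
  letI := Fintype.ofFinite (G ⧸ S)
  ∑ c : G ⧸ S, coindTraceAux S B c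

lemma coindTraceLin_apply [S.FiniteIndex] (B : Rep.{u} k G)
    (F : coind S.subtype (res S.subtype B)) :
    letI := Fintype.ofFinite (G ⧸ S)
    coindTraceLin S B F = ∑ c : G ⧸ S, coindTraceAux S B c F := by
  simp [coindTraceLin]

lemma coindTraceAux_smul (B : Rep.{u} k G) (g : G) (c : G ⧸ S)
    (F : coind S.subtype (res S.subtype B)) :
    coindTraceAux S B c ((coind S.subtype (res S.subtype B)).ρ g F) =
      B.ρ g (coindTraceAux S B (g⁻¹ • c) F) := by
  induction c using QuotientGroup.induction_on with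
  | H y =>
    have e : g⁻¹ • (QuotientGroup.mk y : G ⧸ S) = QuotientGroup.mk (g⁻¹ * y) := rfl
    rw [e, coindTraceAux_mk, coindTraceAux_mk, ← Module.End.mul_apply, ← map_mul]
    have e2 : g * (g⁻¹ * y) = y := by group
    have e3 : (g⁻¹ * y)⁻¹ = y⁻¹ * g := by group
    rw [e2, e3]
    rfl

/-- The trace `coind (res B) ⟶ B`, `F ↦ ∑_{yS ∈ G⧸S} y • F(y⁻¹)`. -/
noncomputable def coindTrace [S.FiniteIndex] (B : Rep.{u} k G) :
    coind S.subtype (res S.subtype B) ⟶ B :=
  Rep.ofHom ⟨coindTraceLin S B, fun g => by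
    letI := Fintype.ofFinite (G ⧸ S)
    ext F
    change coindTraceLin S B ((coind S.subtype (res S.subtype B)).ρ g F) =
      B.ρ g (coindTraceLin S B F)
    rw [coindTraceLin_apply, coindTraceLin_apply, map_sum]
    exact Fintype.sum_equiv (MulAction.toPerm g⁻¹) _ _ (fun c => coindTraceAux_smul S B g c F)⟩

lemma nsmul_id_hom_apply (B : Rep.{u} k G) (n : ℕ) (b : B) :
    (n • 𝟙 B : B ⟶ B).hom b = n • b := by
  induction n with
  | zero => simp [Rep.zero_hom]
  | succ n ih =>
    rw [add_smul, add_smul, one_smul, one_smul, Rep.add_hom]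
    change (n • 𝟙 B : B ⟶ B).hom b + b = _
    rw [ih]

theorem coindUnit_comp_coindTrace [S.FiniteIndex] (B : Rep.{u} k G) :
    coindUnit S B ≫ coindTrace S B = S.index • 𝟙 B := by
  letI := Fintype.ofFinite (G ⧸ S)
  ext b
  change coindTraceLin S B ((coindUnit S B).hom b) = (S.index • 𝟙 B : B ⟶ B).hom b
  rw [nsmul_id_hom_apply, coindTraceLin_apply]
  have h : ∀ c : G ⧸ S, coindTraceAux S B c ((coindUnit S B).hom b) = b := by
    intro c
    induction c using QuotientGroup.induction_on with
    | H y =>
      rw [coindTraceAux_mk, coindUnit_apply_coe, ← Module.End.mul_apply, ← map_mul]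
      simp
  simp only [h, Finset.sum_const, Finset.card_univ]
  rw [Subgroup.index_eq_card, Nat.card_eq_fintype_card]

/-! ## Restriction and corestriction -/

/-- Restriction to a subgroup. -/
noncomputable abbrev resMap (B : Rep.{u} k G) (n : ℕ) :
    groupCohomology B n ⟶ groupCohomology (res S.subtype B) n :=
  groupCohomology.map S.subtype (𝟙 (res S.subtype B)) n

lemma resMap_eq (B : Rep.{u} k G) (n : ℕ) :
    resMap S B n =
      groupCohomology.map (MonoidHom.id G) (coindUnit S B) n ≫ shapiroMap S _ n := by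
  rw [shapiroMap, ← groupCohomology.map_comp]
  exact groupCohomology.map_congr rfl
    (congrArg (fun t => t.hom.toLinearMap) (coindUnit_comp_coindEval S B).symm) n

lemma map_id_nsmul {A B : Rep.{u} k G} (φ : A ⟶ B) (m n : ℕ) :
    groupCohomology.map (MonoidHom.id G) (m • φ) n =
      m • groupCohomology.map (MonoidHom.id G) φ n := by
  change (HomologicalComplex.homologyFunctor _ _ n).map ((cochainsFunctor k G).map (m • φ)) =
    m • (HomologicalComplex.homologyFunctor _ _ n).map ((cochainsFunctor k G).map φ)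
  rw [Functor.map_nsmul, Functor.map_nsmul]

/-- Corestriction `Hⁿ(S, B) ⟶ Hⁿ(G, B)` for a subgroup of finite index. -/
noncomputable def cores [S.FiniteIndex] (B : Rep.{u} k G) (n : ℕ) :
    groupCohomology (res S.subtype B) n ⟶ groupCohomology B n :=
  inv (shapiroMap S (res S.subtype B) n) ≫
    groupCohomology.map (MonoidHom.id G) (coindTrace S B) n

/-- `cores ∘ res = [G : S]`. -/
theorem resMap_comp_cores [S.FiniteIndex] (B : Rep.{u} k G) (n : ℕ) :
    resMap S B n ≫ cores S B n = S.index • 𝟙 _ := by
  have e1 := groupCohomology.map_id_comp (coindUnit S B) (coindTrace S B) n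
  have e2 : groupCohomology.map (MonoidHom.id G) (coindUnit S B ≫ coindTrace S B) n =
      S.index • 𝟙 _ := by
    have e3 : groupCohomology.map (MonoidHom.id G) (coindUnit S B ≫ coindTrace S B) n =
        groupCohomology.map (MonoidHom.id G) (S.index • 𝟙 B) n :=
      groupCohomology.map_congr rfl
        (congrArg (fun t => t.hom.toLinearMap) (coindUnit_comp_coindTrace S B)) n
    rw [e3, map_id_nsmul, groupCohomology.map_id]
  rw [resMap_eq, cores, Category.assoc, IsIso.hom_inv_id_assoc, ← e1, e2]

lemma moduleCat_nsmul_id_apply {M : ModuleCat.{u} k} (m : ℕ) (x : M) :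
    (m • 𝟙 M : M ⟶ M).hom x = m • x := by
  simp

/-- If the restriction of `x` to a subgroup `S` of finite index vanishes then `[G : S] • x = 0`. -/
theorem index_nsmul_eq_zero_of_resMap_eq_zero [S.FiniteIndex] (B : Rep.{u} k G) (n : ℕ)
    (x : groupCohomology B n) (hx : (resMap S B n).hom x = 0) : S.index • x = 0 := by
  have h := resMap_comp_cores S B n
  have h2 : (cores S B n).hom ((resMap S B n).hom x) =
      (S.index • 𝟙 (groupCohomology B n) : groupCohomology B n ⟶ groupCohomology B n).hom x :=
    congr($h x)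
  rw [hx, map_zero, moduleCat_nsmul_id_apply] at h2
  exact h2.symm

/-! ## Finite groups: torsion and Sylow subgroups -/

/-- `Hⁿ⁺¹(G, B)` is killed by `|G|`. -/
theorem card_nsmul_groupCohomology_eq_zero [Finite G] (B : Rep.{u} k G) (n : ℕ)
    (x : groupCohomology B (n + 1)) : Nat.card G • x = 0 := by
  have h0 : Limits.IsZero (groupCohomology (res (⊥ : Subgroup G).subtype B) (n + 1)) :=
    isZero_groupCohomology_succ_of_subsingleton _ n
  have h1 : (resMap (⊥ : Subgroup G) B (n + 1)).hom x = 0 :=
    (ModuleCat.isZero_iff_subsingleton.1 h0).elim _ _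
  have h2 := index_nsmul_eq_zero_of_resMap_eq_zero (⊥ : Subgroup G) B (n + 1) x h1
  rwa [Subgroup.index_bot] at h2

/-- A class of `p`-power order whose restriction to a Sylow `p`-subgroup vanishes is zero. -/
theorem eq_zero_of_pow_nsmul_of_sylow [Finite G] (B : Rep.{u} k G) (n : ℕ)
    (x : groupCohomology B n) (p m : ℕ) (hp : p.Prime) (hx : p ^ m • x = 0)
    (P : Sylow p G) (hP : (resMap (P : Subgroup G) B n).hom x = 0) : x = 0 := by
  haveI : Fact p.Prime := ⟨hp⟩
  have h1 := index_nsmul_eq_zero_of_resMap_eq_zero (P : Subgroup G) B n x hP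
  have h2 : addOrderOf x ∣ p ^ m := addOrderOf_dvd_of_nsmul_eq_zero hx
  have h3 : addOrderOf x ∣ (P : Subgroup G).index := addOrderOf_dvd_of_nsmul_eq_zero h1
  have hcop : Nat.Coprime (p ^ m) (P : Subgroup G).index :=
    Nat.Coprime.pow_left m ((Nat.Prime.coprime_iff_not_dvd hp).2 P.not_dvd_index)
  have h4 : addOrderOf x = 1 := Nat.eq_one_of_dvd_coprimes hcop h2 h3
  exact AddMonoid.addOrderOf_eq_one_iff.1 h4

/-- A class whose restriction to some Sylow `p`-subgroup vanishes for every prime `p` is zero. -/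
theorem eq_zero_of_sylow_resMap_eq_zero [Finite G] (B : Rep.{u} k G) (n : ℕ)
    (x : groupCohomology B n)
    (h : ∀ p : ℕ, p.Prime → ∃ P : Sylow p G, (resMap (P : Subgroup G) B n).hom x = 0) :
    x = 0 := by
  by_contra hx
  have h1 : addOrderOf x ≠ 1 := fun h1 => hx (AddMonoid.addOrderOf_eq_one_iff.1 h1)
  obtain ⟨p, hp, hpd⟩ := Nat.exists_prime_and_dvd h1
  haveI : Fact p.Prime := ⟨hp⟩
  obtain ⟨P, hP⟩ := h p hp
  have h2 := index_nsmul_eq_zero_of_resMap_eq_zero (P : Subgroup G) B n x hP
  exact P.not_dvd_index (hpd.trans (addOrderOf_dvd_of_nsmul_eq_zero h2))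

/-- If `Hⁿ(P, B) = 0` for some Sylow `p`-subgroup `P`, for every prime `p`, then `Hⁿ(G, B) = 0`. -/
theorem isZero_of_sylow [Finite G] (B : Rep.{u} k G) (n : ℕ)
    (h : ∀ p : ℕ, p.Prime → ∃ P : Sylow p G,
      Limits.IsZero (groupCohomology (res (P : Subgroup G).subtype B) n)) :
    Limits.IsZero (groupCohomology B n) := by
  rw [ModuleCat.isZero_iff_subsingleton]
  refine ⟨fun x y => ?_⟩
  have key : ∀ z : groupCohomology B n, z = 0 := fun z =>
    eq_zero_of_sylow_resMap_eq_zero B n z fun p hp => by
      obtain ⟨P, hP⟩ := h p hp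
      exact ⟨P, (ModuleCat.isZero_iff_subsingleton.1 hP).elim _ _⟩
  rw [key x, key y]

end Fermat.Agent.CFT.Coh.ResCores
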