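import Mathlib

/-!
# CFT program, layer Coh (finite group cohomology): definitions

Base formalism: Mathlib's `Rep k G`, `groupCohomology`, `tateCohomology`, everything in
universe `0`.  This file only adds explicit low-degree objects on top of Mathlib:

* (the Herbrand quotient of a pair of endomorphisms lives in `Coh/Herbrand.lean`);
* `subOne A g`, `normAdd A` : the endomorphisms `ρ(g) - 1` and `N = ∑ ρ(g)` of a representation;
* `TateZero A`, `TateNegOne A` : the explicit groups `A^G / N A` and `ker N / I_G A`;
* `rest A S n`, `infl A S n` : restriction and inflation on `groupCohomology`;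
* `coindEval S B` : evaluation at `1` on a coinduced representation, and
  `shapiroMap S B n` : the induced map `Hⁿ(G, coind B) ⟶ Hⁿ(S, B)`;
* `cycIdx g x`, `cyc₁ g A a`, `cyc₂ g A a` : explicit cochains of a finite cyclic group.
-/

set_option autoImplicit false

namespace Fermat.Agent.CFT.Coh

open CategoryTheory groupCohomology

/-! ## The endomorphisms `ρ(g) - 1` and `N` of a representation; explicit Tate groups -/

section Rep

variable {k G : Type} [CommRing k] [Group G] (A : Rep.{0} k G)

/-- `ρ(g) - 1` as an additive endomorphism of the underlying group. -/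
def subOne (g : G) : A.V →+ A.V := (A.ρ g - LinearMap.id).toAddMonoidHom

@[simp] lemma subOne_apply (g : G) (a : A.V) : subOne A g a = A.ρ g a - a := rfl

/-- The norm `∑ ρ(g)` as an additive endomorphism of the underlying group. -/
def normAdd [Fintype G] : A.V →+ A.V := (A.ρ.norm : A.V →ₗ[k] A.V).toAddMonoidHom

@[simp] lemma normAdd_apply [Fintype G] (a : A.V) : normAdd A a = A.ρ.norm a := rfl

/-- The explicit Tate group `Ĥ⁰ = A^G / N A`. -/
abbrev TateZero [Fintype G] : Type :=
  A.ρ.invariants ⧸ (LinearMap.range (A.ρ.norm : A.V →ₗ[k] A.V)).submoduleOf A.ρ.invariants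

/-- The explicit Tate group `Ĥ⁻¹ = ker N / I_G A`. -/
abbrev TateNegOne [Fintype G] : Type :=
  LinearMap.ker (A.ρ.norm : A.V →ₗ[k] A.V) ⧸
    (Representation.Coinvariants.ker A.ρ).submoduleOf (LinearMap.ker (A.ρ.norm : A.V →ₗ[k] A.V))

/-- Restriction to a subgroup on group cohomology. -/
noncomputable abbrev rest (S : Subgroup G) (n : ℕ) :
    groupCohomology A n ⟶ groupCohomology (Rep.res S.subtype A) n :=
  groupCohomology.map S.subtype (𝟙 _) n

/-- Inflation from a quotient group on group cohomology. -/
noncomputable abbrev infl (S : Subgroup G) [S.Normal] (n : ℕ) :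
    groupCohomology (A.quotientToInvariants S) n ⟶ groupCohomology A n :=
  groupCohomology.map (QuotientGroup.mk' S) (Rep.ofHom <| A.ρ.quotientToInvariants_lift S) n

/-- Evaluation at `1` on a coinduced representation, as a morphism of `S`-representations. -/
noncomputable def coindEval (S : Subgroup G) (B : Rep.{0} k S) :
    Rep.res S.subtype (Rep.coind S.subtype B) ⟶ B :=
  (Rep.resCoindHomEquiv S.subtype (Rep.coind S.subtype B) B).symm (𝟙 _)

/-- The explicit Shapiro map `Hⁿ(G, coind B) ⟶ Hⁿ(S, B)`. -/
noncomputable abbrev shapiroMap (S : Subgroup G) (B : Rep.{0} k S) (n : ℕ) :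
    groupCohomology (Rep.coind S.subtype B) n ⟶ groupCohomology B n :=
  groupCohomology.map S.subtype (coindEval S B) n

end Rep

/-! ## Explicit cochains of a finite cyclic group -/

section Cyclic

variable {G : Type} [Group G] (g : G)

open Classical in
/-- The least `i : ℕ` with `g ^ i = x` (and `0` if there is none). -/
noncomputable def cycIdx (x : G) : ℕ := if h : ∃ i : ℕ, g ^ i = x then Nat.find h else 0

variable {k : Type} [CommRing k] (A : Rep.{0} k G)

/-- The explicit `1`-cochain `g ^ i ↦ a + g a + ⋯ + g ^ (i - 1) a`. -/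
noncomputable def cyc₁ (a : A.V) : G → A.V :=
  fun x => ∑ i ∈ Finset.range (cycIdx g x), A.ρ (g ^ i) a

/-- The explicit `2`-cochain `(g ^ i, g ^ j) ↦ a` if `i + j ≥ |G|` and `0` otherwise
(`0 ≤ i, j < |G|`). -/
noncomputable def cyc₂ [Fintype G] (a : A.V) : G × G → A.V :=
  fun p => if Fintype.card G ≤ cycIdx g p.1 + cycIdx g p.2 then a else 0

end Cyclic

end Fermat.Agent.CFT.Coh
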