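import Mathlib

/-!
# The abstract Herbrand quotient

For an abelian group `A` with two additive endomorphisms `f, g` such that `f ∘ g = 0 = g ∘ f`,
the Herbrand quotient is `q_{f,g}(A) = [ker f : im g] / [ker g : im f]`.

We prove: `q = 1` for finite `A`; two-out-of-three finiteness and multiplicativity along short
exact sequences; invariance under finite kernels / cokernels.  The proof is quotient free: six
relative indices `k₁, …, k₆` inside the middle term with
`|H_f(A)| = k₁k₂`, `|H_f(B)| = k₂k₃`, `|H_f(C)| = k₃k₄`,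
`|H_g(A)| = k₄k₅`, `|H_g(B)| = k₅k₆`, `|H_g(C)| = k₆k₁`.
-/

namespace Fermat.Agent.CFT.Herbrand

variable {A B C : Type*} [AddCommGroup A] [AddCommGroup B] [AddCommGroup C]

/-- `[ker f : im g ∩ ker f]` as a natural number (`0` when infinite). -/
noncomputable def idx (f g : A →+ A) : ℕ := g.range.relIndex f.ker

/-- Both indices `[ker f : im g]`, `[ker g : im f]` are finite. -/
def IsFin (f g : A →+ A) : Prop := idx f g ≠ 0 ∧ idx g f ≠ 0

/-- The Herbrand quotient `q_{f,g}(A) = [ker f : im g] / [ker g : im f]`. -/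
noncomputable def hq (f g : A →+ A) : ℚ := (idx f g : ℚ) / (idx g f : ℚ)

theorem IsFin.symm {f g : A →+ A} (h : IsFin f g) : IsFin g f := ⟨h.2, h.1⟩

theorem hq_symm (f g : A →+ A) : hq g f = (hq f g)⁻¹ := by
  simp [hq]

theorem hq_ne_zero_iff {f g : A →+ A} : hq f g ≠ 0 ↔ IsFin f g := by
  simp [hq, IsFin]

theorem hq_eq_zero_of_not_isFin {f g : A →+ A} (h : ¬ IsFin f g) : hq f g = 0 := by
  by_contra h'
  exact h (hq_ne_zero_iff.1 h')

theorem range_le_ker {f g : A →+ A} (hfg : f.comp g = 0) : g.range ≤ f.ker := by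
  rintro _ ⟨x, rfl⟩
  exact DFunLike.congr_fun hfg x

section Sub

variable (S : AddSubgroup B) (f g : B →+ B)

/-- `[S ∩ im g : g(S)]`. -/
noncomputable def kα : ℕ := (S.map g).relIndex (S ⊓ g.range)

/-- `[S ∩ ker f : S ∩ im g]`. -/
noncomputable def kβ : ℕ := g.range.relIndex (S ⊓ f.ker)

/-- `[ker f + S : im g + S]`. -/
noncomputable def kγ : ℕ := (g.range ⊔ S).relIndex f.ker

variable {S f g}

theorem idx_sub_left (hfg : f.comp g = 0) (hS : S.map g ≤ S) :
    (S.map g).relIndex (S ⊓ f.ker) = kα S g * kβ S f g := by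
  have h1 : S.map g ≤ S ⊓ g.range := le_inf hS (fun x hx => by
    obtain ⟨y, -, rfl⟩ := hx; exact ⟨y, rfl⟩)
  have h2 : S ⊓ g.range ≤ S ⊓ f.ker := inf_le_inf_left S (range_le_ker hfg)
  rw [← AddSubgroup.relIndex_mul_relIndex _ _ _ h1 h2]
  congr 1
  rw [kβ, ← AddSubgroup.inf_relIndex_right g.range (S ⊓ f.ker)]
  congr 1
  apply le_antisymm
  · exact le_inf inf_le_right h2
  · exact le_inf (inf_le_right.trans inf_le_left) inf_le_left

theorem idx_sub_mid (hfg : f.comp g = 0) :
    g.range.relIndex f.ker = kβ S f g * kγ S f g := by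
  have hgk := range_le_ker hfg
  have h1 : g.range ≤ (S ⊓ f.ker) ⊔ g.range := le_sup_right
  have h2 : (S ⊓ f.ker) ⊔ g.range ≤ f.ker := sup_le inf_le_right hgk
  rw [← AddSubgroup.relIndex_mul_relIndex _ _ _ h1 h2]
  congr 1
  · rw [kβ, AddSubgroup.relIndex_sup_right]
  · rw [kγ, ← AddSubgroup.inf_relIndex_right (g.range ⊔ S) f.ker]
    congr 1
    -- modular law
    apply le_antisymm
    · refine sup_le (le_inf (inf_le_left.trans le_sup_right) inf_le_right)
        (le_inf le_sup_left hgk)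
    · rintro x ⟨hx1, hx2⟩
      obtain ⟨y, hy, z, hz, rfl⟩ := AddSubgroup.mem_sup.1 hx1
      refine AddSubgroup.mem_sup.2 ⟨z, ⟨hz, ?_⟩, y, hy, add_comm _ _⟩
      have : z = (y + z) - y := by abel
      rw [this]
      exact f.ker.sub_mem hx2 (hgk hy)

theorem idx_sub_right (hfg : f.comp g = 0) (hS : S.map f ≤ S) :
    (g.range ⊔ S).relIndex (S.comap f) = kγ S f g * kα S f := by
  have hgk := range_le_ker hfg
  have hkc : f.ker ≤ S.comap f := fun x hx => by
    rw [AddSubgroup.mem_comap, AddMonoidHom.mem_ker.1 hx]; exact S.zero_mem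
  have hSc : S ≤ S.comap f := fun x hx => hS ⟨x, hx, rfl⟩
  have h1 : g.range ⊔ S ≤ f.ker ⊔ S := sup_le_sup_right hgk S
  have h2 : f.ker ⊔ S ≤ S.comap f := sup_le hkc hSc
  rw [← AddSubgroup.relIndex_mul_relIndex _ _ _ h1 h2]
  congr 1
  · rw [kγ, ← AddSubgroup.relIndex_sup_left f.ker (g.range ⊔ S)]
    congr 1
    apply le_antisymm
    · exact sup_le (le_sup_right) (le_sup_right.trans le_sup_left)
    · exact sup_le (sup_le (hgk.trans le_sup_left) le_sup_right) le_sup_left
  · have h := AddSubgroup.relIndex_comap (S.map f) f (S.comap f)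
    rw [AddSubgroup.comap_map_eq, AddSubgroup.map_comap_eq] at h
    rw [kα, sup_comm, h, inf_comm]

end Sub

/-- A short exact sequence `0 → A → B → C → 0` of abelian groups with compatible Herbrand
pairs `(fA, gA)`, `(fB, gB)`, `(fC, gC)`. -/
structure Exact3 (i : A →+ B) (p : B →+ C) (fA gA : A →+ A) (fB gB : B →+ B)
    (fC gC : C →+ C) : Prop where
  inj : Function.Injective i
  surj : Function.Surjective p
  exact : i.range = p.ker
  fgB : fB.comp gB = 0
  gfB : gB.comp fB = 0
  fi : ∀ a, fB (i a) = i (fA a)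
  gi : ∀ a, gB (i a) = i (gA a)
  fp : ∀ b, fC (p b) = p (fB b)
  gp : ∀ b, gC (p b) = p (gB b)

namespace Exact3

variable {i : A →+ B} {p : B →+ C} {fA gA : A →+ A} {fB gB : B →+ B} {fC gC : C →+ C}

theorem symm (h : Exact3 i p fA gA fB gB fC gC) : Exact3 i p gA fA gB fB gC fC :=
  ⟨h.inj, h.surj, h.exact, h.gfB, h.fgB, h.gi, h.fi, h.gp, h.fp⟩

theorem fgA (h : Exact3 i p fA gA fB gB fC gC) : fA.comp gA = 0 := by
  ext a
  apply h.inj
  have := DFunLike.congr_fun h.fgB (i a)
  simpa [h.fi, h.gi] using this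

theorem gfA (h : Exact3 i p fA gA fB gB fC gC) : gA.comp fA = 0 := h.symm.fgA

theorem fgC (h : Exact3 i p fA gA fB gB fC gC) : fC.comp gC = 0 := by
  ext c
  obtain ⟨b, rfl⟩ := h.surj c
  have := DFunLike.congr_fun h.fgB b
  simp only [AddMonoidHom.comp_apply, AddMonoidHom.zero_apply] at this ⊢
  rw [h.gp, h.fp, this, map_zero]

theorem gfC (h : Exact3 i p fA gA fB gB fC gC) : gC.comp fC = 0 := h.symm.fgC

theorem map_f_le (h : Exact3 i p fA gA fB gB fC gC) : i.range.map fB ≤ i.range := by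
  rintro _ ⟨_, ⟨a, rfl⟩, rfl⟩
  exact ⟨fA a, (h.fi a).symm⟩

theorem map_g_le (h : Exact3 i p fA gA fB gB fC gC) : i.range.map gB ≤ i.range :=
  h.symm.map_f_le

theorem idx_left_eq (h : Exact3 i p fA gA fB gB fC gC) :
    idx fA gA = (i.range.map gB).relIndex (i.range ⊓ fB.ker) := by
  rw [idx, ← AddSubgroup.relIndex_map_map_of_injective _ _ h.inj]
  congr 1
  · ext x
    constructor
    · rintro ⟨_, ⟨a, rfl⟩, rfl⟩
      exact ⟨i a, ⟨a, rfl⟩, h.gi a⟩
    · rintro ⟨_, ⟨a, rfl⟩, rfl⟩
      exact ⟨gA a, ⟨a, rfl⟩, (h.gi a).symm⟩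
  · ext x
    rw [AddSubgroup.mem_map, AddSubgroup.mem_inf]
    constructor
    · rintro ⟨a, ha, rfl⟩
      refine ⟨⟨a, rfl⟩, ?_⟩
      rw [AddMonoidHom.mem_ker] at ha ⊢
      rw [h.fi, ha, map_zero]
    · rintro ⟨⟨a, rfl⟩, hx⟩
      refine ⟨a, ?_, rfl⟩
      rw [AddMonoidHom.mem_ker] at hx ⊢
      rw [h.fi] at hx
      exact h.inj (by rw [hx, map_zero])

theorem idx_right_eq (h : Exact3 i p fA gA fB gB fC gC) :
    idx fC gC = (gB.range ⊔ i.range).relIndex (i.range.comap fB) := by
  have key := AddSubgroup.relIndex_comap gC.range p (fC.ker.comap p)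
  rw [AddSubgroup.map_comap_eq_self_of_surjective h.surj] at key
  rw [idx, ← key]
  congr 1
  · ext x
    rw [AddSubgroup.mem_comap]
    constructor
    · rintro ⟨c, hc⟩
      obtain ⟨b, rfl⟩ := h.surj c
      rw [h.gp] at hc
      have hx : x - gB b ∈ i.range := by
        rw [h.exact, AddMonoidHom.mem_ker, map_sub, hc, sub_self]
      exact AddSubgroup.mem_sup.2 ⟨gB b, ⟨b, rfl⟩, x - gB b, hx, by abel⟩
    · intro hx
      obtain ⟨y, ⟨b, rfl⟩, z, hz, rfl⟩ := AddSubgroup.mem_sup.1 hx
      rw [h.exact, AddMonoidHom.mem_ker] at hz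
      exact ⟨p b, by rw [h.gp, map_add, hz, add_zero]⟩
  · ext x
    rw [AddSubgroup.mem_comap, AddSubgroup.mem_comap, AddMonoidHom.mem_ker, h.fp, h.exact,
      AddMonoidHom.mem_ker]

theorem idx_left (h : Exact3 i p fA gA fB gB fC gC) :
    idx fA gA = kα i.range gB * kβ i.range fB gB := by
  rw [h.idx_left_eq, idx_sub_left h.fgB h.map_g_le]

theorem idx_mid (h : Exact3 i p fA gA fB gB fC gC) :
    idx fB gB = kβ i.range fB gB * kγ i.range fB gB :=
  idx_sub_mid h.fgB

theorem idx_right (h : Exact3 i p fA gA fB gB fC gC) :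
    idx fC gC = kγ i.range fB gB * kα i.range fB := by
  rw [h.idx_right_eq, idx_sub_right h.fgB h.map_f_le]

/-- If the outer terms have finite Herbrand indices then so does the middle term. -/
theorem isFin_mid (h : Exact3 i p fA gA fB gB fC gC) (hA : IsFin fA gA) (hC : IsFin fC gC) :
    IsFin fB gB := by
  have h1 := h.idx_left; have h2 := h.idx_mid; have h3 := h.idx_right
  have h4 := h.symm.idx_left; have h5 := h.symm.idx_mid; have h6 := h.symm.idx_right
  obtain ⟨a1, a2⟩ := hA
  obtain ⟨c1, c2⟩ := hC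
  rw [h1] at a1; rw [h4] at a2; rw [h3] at c1; rw [h6] at c2
  refine ⟨?_, ?_⟩
  · rw [h2]; exact mul_ne_zero (right_ne_zero_of_mul a1) (left_ne_zero_of_mul c1)
  · rw [h5]; exact mul_ne_zero (right_ne_zero_of_mul a2) (left_ne_zero_of_mul c2)

/-- If the middle and right terms have finite Herbrand indices then so does the left term. -/
theorem isFin_left (h : Exact3 i p fA gA fB gB fC gC) (hB : IsFin fB gB) (hC : IsFin fC gC) :
    IsFin fA gA := by
  have h1 := h.idx_left; have h2 := h.idx_mid; have h3 := h.idx_right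
  have h4 := h.symm.idx_left; have h5 := h.symm.idx_mid; have h6 := h.symm.idx_right
  obtain ⟨b1, b2⟩ := hB
  obtain ⟨c1, c2⟩ := hC
  rw [h2] at b1; rw [h5] at b2; rw [h3] at c1; rw [h6] at c2
  refine ⟨?_, ?_⟩
  · rw [h1]; exact mul_ne_zero (right_ne_zero_of_mul c2) (left_ne_zero_of_mul b1)
  · rw [h4]; exact mul_ne_zero (right_ne_zero_of_mul c1) (left_ne_zero_of_mul b2)

/-- If the left and middle terms have finite Herbrand indices then so does the right term. -/
theorem isFin_right (h : Exact3 i p fA gA fB gB fC gC) (hA : IsFin fA gA) (hB : IsFin fB gB) :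
    IsFin fC gC := by
  have h1 := h.idx_left; have h2 := h.idx_mid; have h3 := h.idx_right
  have h4 := h.symm.idx_left; have h5 := h.symm.idx_mid; have h6 := h.symm.idx_right
  obtain ⟨a1, a2⟩ := hA
  obtain ⟨b1, b2⟩ := hB
  rw [h1] at a1; rw [h4] at a2; rw [h2] at b1; rw [h5] at b2
  refine ⟨?_, ?_⟩
  · rw [h3]; exact mul_ne_zero (right_ne_zero_of_mul b1) (left_ne_zero_of_mul a2)
  · rw [h6]; exact mul_ne_zero (right_ne_zero_of_mul b2) (left_ne_zero_of_mul a1)

/-- Multiplicativity of the Herbrand quotient, assuming only that the left term has finite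
Herbrand indices. -/
theorem hq_mul_of_left (h : Exact3 i p fA gA fB gB fC gC) (hA : IsFin fA gA) :
    hq fB gB = hq fA gA * hq fC gC := by
  have h1 := h.idx_left; have h2 := h.idx_mid; have h3 := h.idx_right
  have h4 := h.symm.idx_left; have h5 := h.symm.idx_mid; have h6 := h.symm.idx_right
  obtain ⟨a1, a2⟩ := hA
  rw [h1] at a1; rw [h4] at a2
  have x1 : (kα i.range gB : ℚ) ≠ 0 := Nat.cast_ne_zero.2 (left_ne_zero_of_mul a1)
  have x2 : (kα i.range fB : ℚ) ≠ 0 := Nat.cast_ne_zero.2 (left_ne_zero_of_mul a2)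
  simp only [hq, h1, h2, h3, h4, h5, h6, Nat.cast_mul]
  by_cases y1 : (kβ i.range gB fB : ℚ) = 0
  · simp [y1]
  by_cases y2 : (kγ i.range gB fB : ℚ) = 0
  · simp [y2]
  field_simp

/-- Multiplicativity of the Herbrand quotient, assuming only that the right term has finite
Herbrand indices. -/
theorem hq_mul_of_right (h : Exact3 i p fA gA fB gB fC gC) (hC : IsFin fC gC) :
    hq fB gB = hq fA gA * hq fC gC := by
  have h1 := h.idx_left; have h2 := h.idx_mid; have h3 := h.idx_right
  have h4 := h.symm.idx_left; have h5 := h.symm.idx_mid; have h6 := h.symm.idx_right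
  obtain ⟨c1, c2⟩ := hC
  rw [h3] at c1; rw [h6] at c2
  have x1 : (kα i.range fB : ℚ) ≠ 0 := Nat.cast_ne_zero.2 (right_ne_zero_of_mul c1)
  have x2 : (kα i.range gB : ℚ) ≠ 0 := Nat.cast_ne_zero.2 (right_ne_zero_of_mul c2)
  simp only [hq, h1, h2, h3, h4, h5, h6, Nat.cast_mul]
  by_cases y1 : (kβ i.range gB fB : ℚ) = 0
  · simp [y1]
  by_cases y2 : (kγ i.range gB fB : ℚ) = 0
  · simp [y2]
  field_simp

/-- **Multiplicativity of the Herbrand quotient** along a short exact sequence. -/
theorem hq_mul (h : Exact3 i p fA gA fB gB fC gC) (hA : IsFin fA gA) (_hC : IsFin fC gC) :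
    hq fB gB = hq fA gA * hq fC gC :=
  h.hq_mul_of_left hA

end Exact3

/-- On a finite group both Herbrand indices are finite. -/
theorem isFin_of_finite [Finite A] (f g : A →+ A) : IsFin f g :=
  ⟨AddSubgroup.index_ne_zero_of_finite, AddSubgroup.index_ne_zero_of_finite⟩

theorem card_range_mul_idx {f g : A →+ A} (hfg : f.comp g = 0) :
    Nat.card g.range * idx f g = Nat.card f.ker := by
  have := AddSubgroup.relIndex_mul_relIndex ⊥ g.range f.ker bot_le (range_le_ker hfg)
  rwa [AddSubgroup.relIndex_bot_left, AddSubgroup.relIndex_bot_left] at this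

/-- The Herbrand quotient of a finite group is `1`. -/
theorem hq_of_finite [Finite A] (f g : A →+ A) (hfg : f.comp g = 0) (hgf : g.comp f = 0) :
    hq f g = 1 := by
  have h1 := card_range_mul_idx hfg
  have h2 := card_range_mul_idx hgf
  have h3 : Nat.card f.ker * Nat.card f.range = Nat.card A := by
    rw [← AddSubgroup.index_ker]; exact AddSubgroup.card_mul_index _
  have h4 : Nat.card g.ker * Nat.card g.range = Nat.card A := by
    rw [← AddSubgroup.index_ker]; exact AddSubgroup.card_mul_index _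
  have hpos1 : 0 < Nat.card g.range := Nat.card_pos
  have hpos2 : 0 < Nat.card f.range := Nat.card_pos
  have key : idx f g = idx g f := by
    have : Nat.card g.range * Nat.card f.range * idx f g
        = Nat.card g.range * Nat.card f.range * idx g f := by
      calc Nat.card g.range * Nat.card f.range * idx f g
          = (Nat.card g.range * idx f g) * Nat.card f.range := by ring
        _ = Nat.card A := by rw [h1, h3]
        _ = (Nat.card f.range * idx g f) * Nat.card g.range := by rw [h2, h4]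
        _ = Nat.card g.range * Nat.card f.range * idx g f := by ring
    exact Nat.eq_of_mul_eq_mul_left (Nat.mul_pos hpos1 hpos2) this
  have hne : (idx g f : ℚ) ≠ 0 := Nat.cast_ne_zero.2 (isFin_of_finite f g).2
  rw [hq, key, div_self hne]

variable {i : A →+ B} {p : B →+ C} {fA gA : A →+ A} {fB gB : B →+ B} {fC gC : C →+ C}

/-- Invariance of the Herbrand quotient under passing to a subgroup with finite quotient
(e.g. a sublattice of finite index). -/
theorem hq_eq_of_finite_coker (h : Exact3 i p fA gA fB gB fC gC) [Finite C] :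
    (IsFin fA gA ↔ IsFin fB gB) ∧ hq fA gA = hq fB gB := by
  have hC : IsFin fC gC := isFin_of_finite _ _
  have hiff : IsFin fA gA ↔ IsFin fB gB := ⟨fun hA => h.isFin_mid hA hC, fun hB => h.isFin_left hB hC⟩
  refine ⟨hiff, ?_⟩
  rw [h.hq_mul_of_right hC, hq_of_finite fC gC h.fgC h.gfC, mul_one]

/-- Invariance of the Herbrand quotient under passing to a quotient by a finite subgroup. -/
theorem hq_eq_of_finite_ker (h : Exact3 i p fA gA fB gB fC gC) [Finite A] :
    (IsFin fB gB ↔ IsFin fC gC) ∧ hq fB gB = hq fC gC := by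
  have hA : IsFin fA gA := isFin_of_finite _ _
  have hiff : IsFin fB gB ↔ IsFin fC gC := ⟨fun hB => h.isFin_right hA hB, fun hC => h.isFin_mid hA hC⟩
  refine ⟨hiff, ?_⟩
  rw [h.hq_mul_of_left hA, hq_of_finite fA gA h.fgA h.gfA, one_mul]

end Fermat.Agent.CFT.Herbrand
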