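import Mathlib
import Fermat.Agent.CFT.Coh.Herbrand

/-!
# Low-degree cohomology of a finite cyclic group, explicitly

`G` is a finite group with a generator `σ` (`hσ : ∀ x, x ∈ Subgroup.zpowers σ`), `n = orderOf σ`,
`A : Rep k G`, `N = A.ρ.norm`.

* `stdCochain₂ A σ a : (σ^i, σ^j) ↦ a` if `i + j ≥ n`, else `0` (`0 ≤ i, j < n`); it is a 2-cocycle
  for `a ∈ A^G`; `H2ofInv A σ hσ : A^G →ₗ H²(G, A)`.
* `H2π_eq`: every 2-cocycle `f` is cohomologous to `stdCochain₂ (ev₂ f)`,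
  `ev₂ f = ∑_{i<n} f (σ^i, σ)`; `H2ofInv_eq_zero_iff`: the kernel of `H2ofInv` is `N A`.
* `stdCochain₁ A σ a : σ^i ↦ a + σ a + ⋯ + σ^(i-1) a`; `H1ofKer A σ hσ : ker N →ₗ H¹(G, A)` is
  surjective with kernel `(σ - 1) A`.
* `card_H2`, `card_H1`: `|H²| = [A^G : N A]`, `|H¹| = [ker N : (σ-1)A]` in the vocabulary of the
  abstract Herbrand quotient.
* `map_H2ofInv`, `map_H1ofKer`: behaviour under an arbitrary homomorphism of finite cyclic groups
  (inflation, restriction, ...).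
-/

universe u

namespace Fermat.Agent.CFT.Cyclic

open groupCohomology CategoryTheory

section ind

variable {G : Type u} [Group G] [Finite G] (σ : G)

/-- The least exponent `i` with `σ ^ i = x` (`0` if there is none). -/
noncomputable def ind (σ x : G) : ℕ := sInf {i : ℕ | σ ^ i = x}

variable {σ}

theorem exists_pow_eq (hσ : ∀ x, x ∈ Subgroup.zpowers σ) (x : G) : ∃ i : ℕ, σ ^ i = x := by
  have := (mem_powers_iff_mem_zpowers (x := σ) (y := x)).2 (hσ x)
  exact this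

theorem pow_ind (hσ : ∀ x, x ∈ Subgroup.zpowers σ) (x : G) : σ ^ ind σ x = x :=
  Nat.sInf_mem (s := {i : ℕ | σ ^ i = x}) (exists_pow_eq hσ x)

theorem ind_pow_mod (m : ℕ) : ind σ (σ ^ m) = m % orderOf σ := by
  have hpos : 0 < orderOf σ := orderOf_pos σ
  have h1 : σ ^ ind σ (σ ^ m) = σ ^ m := Nat.sInf_mem (s := {i : ℕ | σ ^ i = σ ^ m}) ⟨m, rfl⟩
  have h2 : ind σ (σ ^ m) ≤ m % orderOf σ :=
    Nat.sInf_le (s := {i : ℕ | σ ^ i = σ ^ m}) (pow_mod_orderOf σ m)
  have h3 : ind σ (σ ^ m) % orderOf σ = m % orderOf σ := (pow_inj_mod.1 h1)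
  have h4 : ind σ (σ ^ m) < orderOf σ := lt_of_le_of_lt h2 (Nat.mod_lt _ hpos)
  rwa [Nat.mod_eq_of_lt h4] at h3

theorem ind_lt (hσ : ∀ x, x ∈ Subgroup.zpowers σ) (x : G) : ind σ x < orderOf σ := by
  obtain ⟨i, rfl⟩ := exists_pow_eq hσ x
  rw [ind_pow_mod]
  exact Nat.mod_lt _ (orderOf_pos σ)

theorem ind_pow_of_lt {i : ℕ} (hi : i < orderOf σ) : ind σ (σ ^ i) = i := by
  rw [ind_pow_mod, Nat.mod_eq_of_lt hi]

theorem ind_one : ind σ (1 : G) = 0 := by
  have := ind_pow_mod (σ := σ) 0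
  simpa using this

theorem one_lt_orderOf (h1 : σ ≠ 1) : 1 < orderOf σ := by
  have hpos : 0 < orderOf σ := orderOf_pos σ
  have : orderOf σ ≠ 1 := fun h => h1 (orderOf_eq_one_iff.1 h)
  omega

theorem ind_self (h1 : σ ≠ 1) : ind σ σ = 1 := by
  have := ind_pow_of_lt (σ := σ) (one_lt_orderOf h1)
  simpa using this

/-- The carry: `1` if `ind x + ind y ≥ n`, else `0`. -/
noncomputable def carry (σ x y : G) : ℕ := if orderOf σ ≤ ind σ x + ind σ y then 1 else 0

theorem ind_mul (hσ : ∀ x, x ∈ Subgroup.zpowers σ) (x y : G) :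
    ind σ (x * y) + orderOf σ * carry σ x y = ind σ x + ind σ y := by
  have hx := ind_lt hσ x
  have hy := ind_lt hσ y
  have hxy : x * y = σ ^ (ind σ x + ind σ y) := by rw [pow_add, pow_ind hσ, pow_ind hσ]
  rw [hxy, ind_pow_mod, carry]
  split_ifs with h
  · have : (ind σ x + ind σ y) % orderOf σ = ind σ x + ind σ y - orderOf σ := by
      rw [Nat.mod_eq_sub_mod h, Nat.mod_eq_of_lt (by omega)]
    omega
  · rw [Nat.mod_eq_of_lt (by omega)]; omega

theorem carry_assoc (hσ : ∀ x, x ∈ Subgroup.zpowers σ) (x y z : G) :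
    carry σ (x * y) z + carry σ x y = carry σ y z + carry σ x (y * z) := by
  have hpos : 0 < orderOf σ := orderOf_pos σ
  have h1 := ind_mul hσ (x * y) z
  have h2 := ind_mul hσ x y
  have h3 := ind_mul hσ x (y * z)
  have h4 := ind_mul hσ y z
  rw [mul_assoc] at h1
  apply Nat.eq_of_mul_eq_mul_left hpos
  rw [mul_add, mul_add]
  omega

end ind

section rep

set_option linter.unusedSectionVars false

variable {k G : Type u} [CommRing k] [Group G] [Fintype G] (A : Rep.{u, u, u} k G) (σ : G)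

/-- `σ - 1` as an additive endomorphism. -/
noncomputable def dHom : A.V →+ A.V := (A.ρ σ - 1 : A.V →ₗ[k] A.V).toAddMonoidHom

/-- The norm `∑ g, g` as an additive endomorphism. -/
noncomputable def nHom : A.V →+ A.V := (A.ρ.norm : A.V →ₗ[k] A.V).toAddMonoidHom

@[simp] theorem dHom_apply (a : A.V) : dHom A σ a = A.ρ σ a - a := rfl

@[simp] theorem nHom_apply (a : A.V) : nHom A a = A.ρ.norm a := rfl

/-- The partial norm `1 + σ + ⋯ + σ^(m-1)`. -/
noncomputable def pnorm (m : ℕ) : A.V →ₗ[k] A.V := ∑ l ∈ Finset.range m, A.ρ (σ ^ l)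

theorem pnorm_apply (m : ℕ) (a : A.V) :
    pnorm A σ m a = ∑ l ∈ Finset.range m, A.ρ (σ ^ l) a := by
  simp [pnorm]

@[simp] theorem pnorm_zero (a : A.V) : pnorm A σ 0 a = 0 := by simp [pnorm]

theorem pnorm_succ (m : ℕ) (a : A.V) : pnorm A σ (m + 1) a = pnorm A σ m a + A.ρ (σ ^ m) a := by
  simp [pnorm, Finset.sum_range_succ]

@[simp] theorem pnorm_one (a : A.V) : pnorm A σ 1 a = a := by simp [pnorm]

theorem pnorm_add (i j : ℕ) (a : A.V) :
    pnorm A σ (i + j) a = pnorm A σ i a + A.ρ (σ ^ i) (pnorm A σ j a) := by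
  rw [pnorm_apply, Finset.sum_range_add, pnorm_apply, pnorm_apply, map_sum]
  congr 1
  refine Finset.sum_congr rfl fun l _ => ?_
  rw [pow_add, map_mul, Module.End.mul_apply]

variable {σ}

theorem pnorm_orderOf (hσ : ∀ x, x ∈ Subgroup.zpowers σ) :
    pnorm A σ (orderOf σ) = A.ρ.norm := by
  rw [pnorm, Representation.norm]
  symm
  refine Finset.sum_nbij' (fun g => ind σ g) (fun i => σ ^ i) ?_ ?_ ?_ ?_ ?_
  · intro g _
    exact Finset.mem_range.2 (ind_lt hσ g)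
  · intro i _
    exact Finset.mem_univ _
  · intro g _
    exact pow_ind hσ g
  · intro i hi
    exact ind_pow_of_lt (Finset.mem_range.1 hi)
  · intro g _
    rw [pow_ind hσ g]

theorem pnorm_mod (hσ : ∀ x, x ∈ Subgroup.zpowers σ) (a : A.V) (ha : A.ρ.norm a = 0) (m : ℕ) :
    pnorm A σ (m % orderOf σ) a = pnorm A σ m a := by
  have key : ∀ q : ℕ, pnorm A σ (orderOf σ * q) a = 0 := by
    intro q
    induction q with
    | zero => simp
    | succ q ih =>
      rw [mul_add, mul_one, pnorm_add, ih, pnorm_orderOf A hσ, ha, map_zero, add_zero]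
  conv_rhs => rw [← Nat.mod_add_div m (orderOf σ)]
  rw [pnorm_add, key, map_zero, add_zero]

/-- The standard 1-cochain attached to `a`: `σ^i ↦ a + σ a + ⋯ + σ^(i-1) a` (`0 ≤ i < n`). -/
noncomputable def stdCochain₁ (σ : G) (a : A.V) : G → A.V :=
  fun x => ∑ l ∈ Finset.range (ind σ x), A.ρ (σ ^ l) a

theorem stdCochain₁_apply (a : A.V) (x : G) :
    stdCochain₁ A σ a x = pnorm A σ (ind σ x) a := (pnorm_apply A σ _ a).symm

theorem stdCochain₁_mem_cocycles₁ (hσ : ∀ x, x ∈ Subgroup.zpowers σ)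
    (a : LinearMap.ker A.ρ.norm) : stdCochain₁ A σ (a : A.V) ∈ cocycles₁ A := by
  rw [mem_cocycles₁_iff]
  intro g h
  have ha : A.ρ.norm (a : A.V) = 0 := a.2
  have hpos : 0 < orderOf σ := orderOf_pos σ
  rw [stdCochain₁_apply, stdCochain₁_apply, stdCochain₁_apply]
  have h1 := ind_mul hσ g h
  have h2 : pnorm A σ (ind σ (g * h)) (a : A.V) = pnorm A σ (ind σ g + ind σ h) (a : A.V) := by
    rw [← pnorm_mod A hσ _ ha (ind σ g + ind σ h), ← h1, Nat.add_mul_mod_self_left,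
      Nat.mod_eq_of_lt (ind_lt hσ _)]
  rw [h2, pnorm_add, pow_ind hσ, add_comm]

/-- `ker N → H¹(G, A)`, `a ↦ [stdCochain₁ a]`. -/
noncomputable def H1ofKer (σ : G) (hσ : ∀ x, x ∈ Subgroup.zpowers σ) :
    LinearMap.ker A.ρ.norm →ₗ[k] H1 A where
  toFun a := H1π A ⟨stdCochain₁ A σ a, stdCochain₁_mem_cocycles₁ A hσ a⟩
  map_add' a b := by
    rw [← map_add]
    congr 1
    apply Subtype.ext
    funext x
    simp [stdCochain₁_apply]
  map_smul' c a := by
    rw [← map_smul]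
    congr 1
    apply Subtype.ext
    funext x
    simp [stdCochain₁_apply]

theorem cocycle₁_pow (f : cocycles₁ A) (i : ℕ) : f (σ ^ i) = pnorm A σ i (f σ) := by
  induction i with
  | zero => simp
  | succ i ih =>
    rw [pow_succ, (mem_cocycles₁_iff f).1 f.2, ih, pnorm_succ, add_comm]

theorem norm_apply_gen (hσ : ∀ x, x ∈ Subgroup.zpowers σ) (f : cocycles₁ A) :
    A.ρ.norm (f σ) = 0 := by
  rw [← pnorm_orderOf A hσ, ← cocycle₁_pow, pow_orderOf_eq_one, cocycles₁_map_one]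

theorem cocycle₁_eq (hσ : ∀ x, x ∈ Subgroup.zpowers σ) (f : cocycles₁ A) (x : G) :
    f x = stdCochain₁ A σ (f σ) x := by
  rw [stdCochain₁_apply, ← cocycle₁_pow, pow_ind hσ]

theorem H1π_eq (hσ : ∀ x, x ∈ Subgroup.zpowers σ) (f : cocycles₁ A) :
    H1π A f = H1ofKer A σ hσ ⟨f σ, norm_apply_gen A hσ f⟩ := by
  show H1π A f = H1π A _
  congr 1
  apply Subtype.ext
  funext x
  exact cocycle₁_eq A hσ f x

theorem H1ofKer_surjective (hσ : ∀ x, x ∈ Subgroup.zpowers σ) :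
    Function.Surjective (H1ofKer A σ hσ) := by
  intro x
  induction x using H1_induction_on with
  | h f => exact ⟨_, (H1π_eq A hσ f).symm⟩

theorem stdCochain₁_gen (hσ : ∀ x, x ∈ Subgroup.zpowers σ) (a : LinearMap.ker A.ρ.norm) :
    stdCochain₁ A σ (a : A.V) σ = a := by
  have ha : A.ρ.norm (a : A.V) = 0 := a.2
  rw [stdCochain₁_apply]
  by_cases h1 : σ = 1
  · have h2 : orderOf σ = 1 := orderOf_eq_one_iff.2 h1
    have h3 := pnorm_orderOf A hσ
    rw [h2] at h3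
    have h4 : (a : A.V) = 0 := by
      have h5 : pnorm A σ 1 (a : A.V) = 0 := by rw [h3]; exact ha
      rwa [pnorm_one] at h5
    rw [h4, map_zero]
  · rw [ind_self h1, pnorm_one]

theorem H1ofKer_eq_zero_iff (hσ : ∀ x, x ∈ Subgroup.zpowers σ) (a : LinearMap.ker A.ρ.norm) :
    H1ofKer A σ hσ a = 0 ↔ ∃ b : A.V, A.ρ σ b - b = a := by
  show H1π A _ = 0 ↔ _
  rw [H1π_eq_zero_iff]
  constructor
  · rintro ⟨b, hb⟩
    refine ⟨b, ?_⟩
    have := congrFun hb σ
    rw [← stdCochain₁_gen A hσ a]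
    exact this
  · rintro ⟨b, hb⟩
    refine ⟨b, ?_⟩
    funext x
    have h1 := cocycle₁_eq A hσ ⟨_, d₀₁_apply_mem_cocycles₁ (A := A) b⟩ x
    have h2 : ((⟨_, d₀₁_apply_mem_cocycles₁ (A := A) b⟩ : cocycles₁ A) : G → A.V) σ = a := hb
    rw [h2] at h1
    exact h1

/-! ### Degree 2 -/

/-- The standard 2-cochain attached to `a`: `(σ^i, σ^j) ↦ a` if `i + j ≥ n`, else `0`
(`0 ≤ i, j < n = orderOf σ`). -/
noncomputable def stdCochain₂ (σ : G) (a : A.V) : G × G → A.V :=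
  fun x => if orderOf σ ≤ ind σ x.1 + ind σ x.2 then a else 0

theorem stdCochain₂_apply (a : A.V) (x y : G) :
    stdCochain₂ A σ a (x, y) = carry σ x y • a := by
  simp only [stdCochain₂, carry]
  split_ifs <;> simp

theorem stdCochain₂_mem_cocycles₂ (hσ : ∀ x, x ∈ Subgroup.zpowers σ) (a : A.ρ.invariants) :
    stdCochain₂ A σ (a : A.V) ∈ cocycles₂ A := by
  rw [mem_cocycles₂_iff]
  intro g h j
  have ha : A.ρ g (a : A.V) = a := a.2 g
  rw [stdCochain₂_apply, stdCochain₂_apply, stdCochain₂_apply, stdCochain₂_apply, map_nsmul, ha,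
    ← add_nsmul, ← add_nsmul, carry_assoc hσ g h j]

theorem stdCochain₂_add (a b : A.V) :
    stdCochain₂ A σ (a + b) = stdCochain₂ A σ a + stdCochain₂ A σ b := by
  funext x
  simp only [stdCochain₂, Pi.add_apply]
  split_ifs <;> simp

theorem stdCochain₂_smul (c : k) (a : A.V) :
    stdCochain₂ A σ (c • a) = c • stdCochain₂ A σ a := by
  funext x
  simp only [stdCochain₂, Pi.smul_apply]
  split_ifs <;> simp

/-- `Aᴳ → H²(G, A)`, `a ↦ [stdCochain₂ a]`. -/
noncomputable def H2ofInv (σ : G) (hσ : ∀ x, x ∈ Subgroup.zpowers σ) :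
    A.ρ.invariants →ₗ[k] H2 A where
  toFun a := H2π A ⟨stdCochain₂ A σ a, stdCochain₂_mem_cocycles₂ A hσ a⟩
  map_add' a b := by
    rw [← map_add]
    congr 1
    apply Subtype.ext
    exact stdCochain₂_add A (a : A.V) (b : A.V)
  map_smul' c a := by
    rw [← map_smul]
    congr 1
    apply Subtype.ext
    exact stdCochain₂_smul A c (a : A.V)

/-- `f ↦ ∑_{i < n} f (σ^i, σ)`. -/
noncomputable def ev₂ (σ : G) : (G × G → A.V) →ₗ[k] A.V where
  toFun f := ∑ i ∈ Finset.range (orderOf σ), f (σ ^ i, σ)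
  map_add' f g := by simp [Finset.sum_add_distrib]
  map_smul' c f := by simp [Finset.smul_sum]

theorem ev₂_apply (f : G × G → A.V) :
    ev₂ A σ f = ∑ i ∈ Finset.range (orderOf σ), f (σ ^ i, σ) := rfl

/-- partial sums `β(m) = ∑_{l < m} f (σ^l, σ)` -/
noncomputable def psum (σ : G) (f : G × G → A.V) (m : ℕ) : A.V :=
  ∑ l ∈ Finset.range m, f (σ ^ l, σ)

@[simp] theorem psum_zero (f : G × G → A.V) : psum A σ f 0 = 0 := by simp [psum]

theorem psum_succ (f : G × G → A.V) (m : ℕ) :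
    psum A σ f (m + 1) = psum A σ f m + f (σ ^ m, σ) := by
  simp [psum, Finset.sum_range_succ]

theorem psum_orderOf (f : G × G → A.V) : psum A σ f (orderOf σ) = ev₂ A σ f := rfl

theorem psum_orderOf_add (f : G × G → A.V) (m : ℕ) :
    psum A σ f (orderOf σ + m) = ev₂ A σ f + psum A σ f m := by
  rw [psum, Finset.sum_range_add, ← psum, psum_orderOf]
  congr 1
  refine Finset.sum_congr rfl fun l _ => ?_
  rw [pow_add, pow_orderOf_eq_one, one_mul]

theorem psum_ind_mul (hσ : ∀ x, x ∈ Subgroup.zpowers σ) (f : G × G → A.V) (x y : G) :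
    psum A σ f (ind σ x + ind σ y) = psum A σ f (ind σ (x * y)) + carry σ x y • ev₂ A σ f := by
  have h := ind_mul hσ x y
  rw [← h]
  unfold carry
  split_ifs
  · rw [mul_one, add_comm (ind σ (x * y)), psum_orderOf_add, one_smul, add_comm]
  · simp

theorem ρ_gen_ev₂ (f : cocycles₂ A) : A.ρ σ (ev₂ A σ f) = ev₂ A σ f := by
  have hc := (mem_cocycles₂_iff (f : G × G → A.V)).1 f.2
  have h1 : ∀ i : ℕ, A.ρ σ (f (σ ^ i, σ)) =
      f (σ ^ (i + 1), σ) + (f (σ, σ ^ i) - f (σ, σ ^ (i + 1))) := by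
    intro i
    have := hc σ (σ ^ i) σ
    rw [← pow_succ', ← pow_succ] at this
    rw [eq_sub_of_add_eq this.symm]
    abel
  rw [ev₂_apply, map_sum, Finset.sum_congr rfl (fun i _ => h1 i), Finset.sum_add_distrib,
    Finset.sum_range_sub', pow_zero, pow_orderOf_eq_one, sub_self, add_zero]
  have h2 := Finset.sum_range_succ (fun i => f (σ ^ i, σ)) (orderOf σ)
  have h3 := Finset.sum_range_succ' (fun i => f (σ ^ i, σ)) (orderOf σ)
  rw [h2] at h3
  simp only [pow_zero, pow_orderOf_eq_one] at h3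
  exact (add_right_cancel h3).symm

theorem ev₂_mem_invariants (hσ : ∀ x, x ∈ Subgroup.zpowers σ) (f : cocycles₂ A) :
    ev₂ A σ f ∈ A.ρ.invariants := by
  intro g
  obtain ⟨i, rfl⟩ := exists_pow_eq hσ g
  induction i with
  | zero => simp
  | succ i ih => rw [pow_succ, map_mul, Module.End.mul_apply, ρ_gen_ev₂, ih]

/-- the key identity for a 2-cocycle on powers of `σ` -/
theorem cocycle₂_pow (f : cocycles₂ A) (i j : ℕ) :
    f (σ ^ i, σ ^ j) = A.ρ (σ ^ i) (f (1, 1)) + psum A σ f (i + j) - psum A σ f i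
      - A.ρ (σ ^ i) (psum A σ f j) := by
  have hc := (mem_cocycles₂_iff (f : G × G → A.V)).1 f.2
  induction j with
  | zero =>
    rw [pow_zero, cocycles₂_map_one_snd, add_zero, psum_zero, map_zero]
    abel
  | succ j ih =>
    have := hc (σ ^ i) (σ ^ j) σ
    rw [← pow_add, ← pow_succ] at this
    have h5 : f (σ ^ i, σ ^ (j + 1)) =
        f (σ ^ (i + j), σ) + f (σ ^ i, σ ^ j) - A.ρ (σ ^ i) (f (σ ^ j, σ)) := by
      rw [this]; abel
    rw [← add_assoc, psum_succ, psum_succ, map_add, h5, ih]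
    abel

/-- **Every 2-cocycle of a finite cyclic group is cohomologous to a standard one**, with explicit
parameter `ev₂ f = ∑_{i<n} f (σ^i, σ)`. -/
theorem H2π_eq (hσ : ∀ x, x ∈ Subgroup.zpowers σ) (f : cocycles₂ A) :
    H2π A f = H2ofInv A σ hσ ⟨ev₂ A σ f, ev₂_mem_invariants A hσ f⟩ := by
  show H2π A f = H2π A _
  rw [H2π_eq_iff]
  refine ⟨fun x => f (1, 1) - psum A σ f (ind σ x), ?_⟩
  funext ⟨x, y⟩
  have h1 := cocycle₂_pow A (σ := σ) f (ind σ x) (ind σ y)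
  rw [pow_ind hσ, pow_ind hσ, psum_ind_mul A hσ] at h1
  show A.ρ x (f (1, 1) - psum A σ f (ind σ y)) - (f (1, 1) - psum A σ f (ind σ (x * y)))
    + (f (1, 1) - psum A σ f (ind σ x)) = f (x, y) - stdCochain₂ A σ (ev₂ A σ f) (x, y)
  rw [stdCochain₂_apply, h1, map_sub]
  abel

theorem H2ofInv_surjective (hσ : ∀ x, x ∈ Subgroup.zpowers σ) :
    Function.Surjective (H2ofInv A σ hσ) := by
  intro x
  induction x using H2_induction_on with
  | h f => exact ⟨_, (H2π_eq A hσ f).symm⟩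

theorem ev₂_d₁₂ (hσ : ∀ x, x ∈ Subgroup.zpowers σ) (b : G → A.V) :
    ev₂ A σ ((d₁₂ A).hom b) = A.ρ.norm (b σ) := by
  rw [ev₂_apply, ← pnorm_orderOf A hσ, pnorm_apply]
  simp only [d₁₂_hom_apply]
  rw [Finset.sum_add_distrib, Finset.sum_sub_distrib]
  have h2 := Finset.sum_range_succ (fun i => b (σ ^ i)) (orderOf σ)
  have h3 := Finset.sum_range_succ' (fun i => b (σ ^ i)) (orderOf σ)
  rw [h2] at h3
  simp only [pow_zero, pow_orderOf_eq_one] at h3
  have h4 := add_right_cancel h3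
  simp only [← pow_succ]
  rw [← h4]
  abel

theorem ev₂_stdCochain₂ (h1 : σ ≠ 1) (a : A.V) : ev₂ A σ (stdCochain₂ A σ a) = a := by
  have hn := one_lt_orderOf h1
  rw [ev₂_apply, Finset.sum_eq_single (orderOf σ - 1)]
  · rw [stdCochain₂_apply, carry, ind_pow_of_lt (by omega), ind_self h1, if_pos (by omega),
      one_smul]
  · intro i hi hne
    have hi' := Finset.mem_range.1 hi
    rw [stdCochain₂_apply, carry, ind_pow_of_lt hi', ind_self h1, if_neg (by omega), zero_smul]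
  · intro h
    exact absurd (Finset.mem_range.2 (by omega)) h

theorem H2ofInv_eq_zero_iff (hσ : ∀ x, x ∈ Subgroup.zpowers σ) (a : A.ρ.invariants) :
    H2ofInv A σ hσ a = 0 ↔ ∃ b : A.V, A.ρ.norm b = a := by
  show H2π A _ = 0 ↔ _
  rw [H2π_eq_zero_iff]
  constructor
  · rintro ⟨b, hb⟩
    by_cases h1 : σ = 1
    · refine ⟨a, ?_⟩
      have h2 : orderOf σ = 1 := orderOf_eq_one_iff.2 h1
      have h3 := pnorm_orderOf A hσ
      rw [h2] at h3
      rw [← h3, pnorm_one]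
    · refine ⟨b σ, ?_⟩
      rw [← ev₂_d₁₂ A hσ b, hb]
      exact ev₂_stdCochain₂ A h1 _
  · rintro ⟨m, hm⟩
    refine ⟨fun x => pnorm A σ (ind σ x) m, ?_⟩
    funext ⟨x, y⟩
    show A.ρ x (pnorm A σ (ind σ y) m) - pnorm A σ (ind σ (x * y)) m + pnorm A σ (ind σ x) m
      = stdCochain₂ A σ (a : A.V) (x, y)
    have h1 := pnorm_add A σ (ind σ x) (ind σ y) m
    rw [pow_ind hσ, ← ind_mul hσ x y, pnorm_add, pow_ind hσ] at h1
    have h2 : A.ρ (x * y) (pnorm A σ (orderOf σ * carry σ x y) m) = carry σ x y • (a : A.V) := by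
      unfold carry
      split_ifs
      · rw [mul_one, pnorm_orderOf A hσ, hm, one_smul]
        exact a.2 _
      · simp
    rw [h2] at h1
    rw [stdCochain₂_apply, ← sub_eq_iff_eq_add.2 h1]
    abel

/-! ### Cardinalities: the bridge to the Herbrand quotient -/

theorem mem_invariants_of_mem_ker_dHom (hσ : ∀ x, x ∈ Subgroup.zpowers σ) {a : A.V}
    (ha : a ∈ (dHom A σ).ker) : a ∈ A.ρ.invariants := by
  intro g
  obtain ⟨i, rfl⟩ := exists_pow_eq hσ g
  have h1 : A.ρ σ a = a := sub_eq_zero.1 ha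
  induction i with
  | zero => simp
  | succ i ih => rw [pow_succ, map_mul, Module.End.mul_apply, h1, ih]

theorem mem_ker_dHom_of_mem_invariants {a : A.V} (ha : a ∈ A.ρ.invariants) :
    a ∈ (dHom A σ).ker := by
  show A.ρ σ a - a = 0
  rw [ha σ, sub_self]

/-- `ker (σ - 1) → H²(G, A)` as an additive map. -/
noncomputable def kerToH2 (σ : G) (hσ : ∀ x, x ∈ Subgroup.zpowers σ) :
    (dHom A σ).ker →+ H2 A where
  toFun a := H2ofInv A σ hσ ⟨a.1, mem_invariants_of_mem_ker_dHom A hσ a.2⟩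
  map_zero' := by
    have : (⟨((0 : (dHom A σ).ker) : A.V), mem_invariants_of_mem_ker_dHom A hσ
      (0 : (dHom A σ).ker).2⟩ : A.ρ.invariants) = 0 := rfl
    rw [this, map_zero]
  map_add' a b := by
    rw [← map_add]
    rfl

/-- `ker N → H¹(G, A)` as an additive map. -/
noncomputable def kerToH1 (σ : G) (hσ : ∀ x, x ∈ Subgroup.zpowers σ) :
    (nHom A).ker →+ H1 A where
  toFun a := H1ofKer A σ hσ ⟨a.1, a.2⟩
  map_zero' := by
    have : (⟨((0 : (nHom A).ker) : A.V), (0 : (nHom A).ker).2⟩ : LinearMap.ker A.ρ.norm) = 0 := rfl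
    rw [this, map_zero]
  map_add' a b := by
    rw [← map_add]
    rfl

/-- `|H²(G, A)| = [A^G : N A]` for a finite cyclic group, in the vocabulary of the abstract
Herbrand quotient (`0` when infinite). -/
theorem card_H2 (hσ : ∀ x, x ∈ Subgroup.zpowers σ) :
    Nat.card (H2 A) = Herbrand.idx (dHom A σ) (nHom A) := by
  have hsurj : Function.Surjective (kerToH2 A σ hσ) := by
    intro x
    obtain ⟨a, rfl⟩ := H2ofInv_surjective A hσ x
    exact ⟨⟨a.1, mem_ker_dHom_of_mem_invariants A a.2⟩, rfl⟩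
  have hker : (kerToH2 A σ hσ).ker = (nHom A).range.addSubgroupOf (dHom A σ).ker := by
    ext a
    rw [AddMonoidHom.mem_ker, AddSubgroup.mem_addSubgroupOf, AddMonoidHom.mem_range]
    exact H2ofInv_eq_zero_iff A hσ _
  rw [Herbrand.idx, AddSubgroup.relIndex, ← hker, AddSubgroup.index_ker,
    AddMonoidHom.range_eq_top.2 hsurj, AddSubgroup.card_top]

/-- `|H¹(G, A)| = [ker N : (σ - 1) A]` for a finite cyclic group. -/
theorem card_H1 (hσ : ∀ x, x ∈ Subgroup.zpowers σ) :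
    Nat.card (H1 A) = Herbrand.idx (nHom A) (dHom A σ) := by
  have hsurj : Function.Surjective (kerToH1 A σ hσ) := by
    intro x
    obtain ⟨a, rfl⟩ := H1ofKer_surjective A hσ x
    exact ⟨⟨a.1, a.2⟩, rfl⟩
  have hker : (kerToH1 A σ hσ).ker = (dHom A σ).range.addSubgroupOf (nHom A).ker := by
    ext a
    rw [AddMonoidHom.mem_ker, AddSubgroup.mem_addSubgroupOf, AddMonoidHom.mem_range]
    exact H1ofKer_eq_zero_iff A hσ _
  rw [Herbrand.idx, AddSubgroup.relIndex, ← hker, AddSubgroup.index_ker,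
    AddMonoidHom.range_eq_top.2 hsurj, AddSubgroup.card_top]

end rep

/-! ### Functoriality -/

section functoriality

set_option linter.unusedSectionVars false

variable {k G G' : Type u} [CommRing k] [Group G] [Fintype G] [Group G'] [Fintype G']
  (A : Rep.{u, u, u} k G) (B : Rep.{u, u, u} k G') {σ : G} {σ' : G'}
  (φ : G' →* G) (ψ : Rep.res φ A ⟶ B)

theorem sum_carry_pow (σ : G) (d m : ℕ) :
    ∑ i ∈ Finset.range m, carry σ (σ ^ (d * i)) (σ ^ d) + m * (d / orderOf σ)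
      = d * m / orderOf σ := by
  have hpos : 0 < orderOf σ := orderOf_pos σ
  induction m with
  | zero => simp
  | succ m ih =>
    rw [Finset.sum_range_succ, mul_add, mul_one, Nat.add_div hpos, ← ih, carry, ind_pow_mod,
      ind_pow_mod]
    ring

theorem map_hom_mem_invariants (a : A.ρ.invariants) (m : ℕ) :
    m • ψ.hom (a : A.V) ∈ B.ρ.invariants := by
  intro g
  have h1 := Rep.hom_comm_apply ψ g (a : A.V)
  have h2 : (Rep.res φ A).ρ g (a : A.V) = a := a.2 (φ g)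
  rw [h2] at h1
  rw [map_nsmul, ← h1]

theorem map_H1π_stdCochain₁ (hσ : ∀ x, x ∈ Subgroup.zpowers σ) (d : ℕ) (hd : φ σ' = σ ^ d)
    (a : LinearMap.ker A.ρ.norm) :
    (mapCocycles₁ φ ψ ⟨stdCochain₁ A σ (a : A.V), stdCochain₁_mem_cocycles₁ A hσ a⟩ :
      cocycles₁ B) σ' = ψ.hom (∑ l ∈ Finset.range d, A.ρ (σ ^ l) (a : A.V)) := by
  show ψ.hom (stdCochain₁ A σ (a : A.V) (φ σ')) = _
  rw [hd, stdCochain₁_apply, ind_pow_mod, pnorm_mod A hσ _ a.2, pnorm_apply]

theorem map_H1ofKer_aux (hσ : ∀ x, x ∈ Subgroup.zpowers σ) (hσ' : ∀ x, x ∈ Subgroup.zpowers σ')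
    (d : ℕ) (hd : φ σ' = σ ^ d) (a : LinearMap.ker A.ρ.norm) :
    ψ.hom (∑ l ∈ Finset.range d, A.ρ (σ ^ l) (a : A.V)) ∈ LinearMap.ker B.ρ.norm := by
  rw [← map_H1π_stdCochain₁ A B φ ψ hσ d hd a]
  exact norm_apply_gen B hσ' _

/-- If `φ σ' = σ ^ d`, then `H¹(φ, ψ)` sends the class of `a ∈ ker N` to the class of
`ψ (a + σ a + ⋯ + σ^(d-1) a)`. -/
theorem map_H1ofKer (hσ : ∀ x, x ∈ Subgroup.zpowers σ) (hσ' : ∀ x, x ∈ Subgroup.zpowers σ')
    (d : ℕ) (hd : φ σ' = σ ^ d) (a : LinearMap.ker A.ρ.norm) :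
    map φ ψ 1 (H1ofKer A σ hσ a) =
      H1ofKer B σ' hσ' ⟨ψ.hom (∑ l ∈ Finset.range d, A.ρ (σ ^ l) (a : A.V)),
        map_H1ofKer_aux A B φ ψ hσ hσ' d hd a⟩ := by
  show map φ ψ 1 (H1π A _) = _
  rw [H1π_comp_map_apply, H1π_eq B hσ']
  congr 1
  apply Subtype.ext
  exact map_H1π_stdCochain₁ A B φ ψ hσ d hd a

theorem ev₂_mapCocycles₂_stdCochain₂ (hσ : ∀ x, x ∈ Subgroup.zpowers σ) (d : ℕ)
    (hd : φ σ' = σ ^ d) (a : A.ρ.invariants) :
    ev₂ B σ' (mapCocycles₂ φ ψ ⟨stdCochain₂ A σ (a : A.V), stdCochain₂_mem_cocycles₂ A hσ a⟩ :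
      cocycles₂ B) =
      (∑ i ∈ Finset.range (orderOf σ'), carry σ (σ ^ (d * i)) (σ ^ d)) • ψ.hom (a : A.V) := by
  rw [ev₂_apply, Finset.sum_smul]
  refine Finset.sum_congr rfl fun i _ => ?_
  show ψ.hom (stdCochain₂ A σ (a : A.V) (φ (σ' ^ i), φ σ')) = _
  rw [map_pow, hd, ← pow_mul, stdCochain₂_apply, map_nsmul]

/-- If `φ σ' = σ ^ d` then `H²(φ, ψ)` sends the class of `a ∈ A^G` to the class of
`(d * n' / n) • ψ a` (`n = orderOf σ`, `n' = orderOf σ'`). Inflation along a surjection with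
`φ σ' = σ`: factor `n' / n`. Restriction to the subgroup generated by `σ ^ d`, `d ∣ n`, with
generator `σ' = σ ^ d`: factor `1`. -/
theorem map_H2ofInv (hσ : ∀ x, x ∈ Subgroup.zpowers σ) (hσ' : ∀ x, x ∈ Subgroup.zpowers σ')
    (d : ℕ) (hd : φ σ' = σ ^ d) (a : A.ρ.invariants) :
    map φ ψ 2 (H2ofInv A σ hσ a) =
      H2ofInv B σ' hσ' ⟨(d * orderOf σ' / orderOf σ) • ψ.hom (a : A.V),
        map_hom_mem_invariants A B φ ψ a _⟩ := by
  show map φ ψ 2 (H2π A _) = _
  rw [H2π_comp_map_apply, H2π_eq B hσ']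
  set E := ∑ i ∈ Finset.range (orderOf σ'), carry σ (σ ^ (d * i)) (σ ^ d) with hE
  have hsum := sum_carry_pow σ d (orderOf σ')
  rw [← hE] at hsum
  set q := d / orderOf σ with hq
  have hx : ψ.hom (a : A.V) ∈ B.ρ.invariants := by
    have := map_hom_mem_invariants A B φ ψ a 1
    rwa [one_smul] at this
  have h1 : (⟨(d * orderOf σ' / orderOf σ) • ψ.hom (a : A.V),
      map_hom_mem_invariants A B φ ψ a _⟩ : B.ρ.invariants) =
      ⟨E • ψ.hom (a : A.V), map_hom_mem_invariants A B φ ψ a _⟩ +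
      ⟨(orderOf σ' * q) • ψ.hom (a : A.V), map_hom_mem_invariants A B φ ψ a _⟩ := by
    apply Subtype.ext
    show _ = E • ψ.hom (a : A.V) + (orderOf σ' * q) • ψ.hom (a : A.V)
    rw [← add_nsmul, hsum]
  have h2 : H2ofInv B σ' hσ' ⟨(orderOf σ' * q) • ψ.hom (a : A.V),
      map_hom_mem_invariants A B φ ψ a _⟩ = 0 := by
    rw [H2ofInv_eq_zero_iff]
    refine ⟨q • ψ.hom (a : A.V), ?_⟩
    show B.ρ.norm (q • ψ.hom (a : A.V)) = (orderOf σ' * q) • ψ.hom (a : A.V)
    rw [← pnorm_orderOf B hσ', pnorm_apply, Finset.sum_congr rfl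
      (fun l _ => (map_hom_mem_invariants A B φ ψ a q) (σ' ^ l)), Finset.sum_const,
      Finset.card_range, mul_nsmul']
  rw [h1, map_add, h2, add_zero]
  congr 1
  apply Subtype.ext
  exact ev₂_mapCocycles₂_stdCochain₂ A B φ ψ hσ d hd a

end functoriality

end Fermat.Agent.CFT.Cyclic

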