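import Fermat.Agent.CFT.Coh.Herbrand

/-!
# The Herbrand quotient of a module over a finite cyclic group

`G` a finite group acting on an abelian group `A` through `ρ : G →* AddMonoid.End A`.
`dEnd ρ σ = ρ σ - 1`, `nEnd ρ = ∑ g, ρ g`.  The orders of the Tate groups
`Ĥ⁰ = A^G / N A` and `Ĥ⁻¹ = ker N / I_G A` are `h0 ρ`, `hm1 ρ` (as natural numbers, `0` when
infinite), and for cyclic `G` the Herbrand quotient is `herbrand ρ = h0 ρ / hm1 ρ`.
-/

namespace Fermat.Agent.CFT.Herbrand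

open scoped BigOperators

set_option linter.unusedSectionVars false

section Basic

variable {G : Type*} [Group G] [Fintype G] {A : Type*} [AddCommGroup A]
  (ρ : G →* AddMonoid.End A)

/-- The endomorphism `σ - 1` of a `G`-module. -/
def dEnd (σ : G) : A →+ A := (ρ σ - 1 : AddMonoid.End A)

/-- The norm endomorphism `N = ∑ g` of a `G`-module. -/
def nEnd : A →+ A := (∑ g : G, ρ g : AddMonoid.End A)

@[simp] theorem dEnd_apply (σ : G) (a : A) : dEnd ρ σ a = ρ σ a - a := rfl

@[simp] theorem nEnd_apply (a : A) : nEnd ρ a = ∑ g : G, ρ g a := by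
  exact map_sum (AddMonoidHom.eval a : AddMonoid.End A →+ A) (fun g => ρ g) Finset.univ

theorem rho_nEnd (σ : G) (a : A) : ρ σ (nEnd ρ a) = nEnd ρ a := by
  rw [nEnd_apply, map_sum]
  have : ∀ g : G, ρ σ (ρ g a) = ρ (σ * g) a := fun g => by rw [map_mul]; rfl
  simp_rw [this]
  exact Fintype.sum_equiv (Equiv.mulLeft σ) _ _ (fun g => rfl)

theorem nEnd_rho (σ : G) (a : A) : nEnd ρ (ρ σ a) = nEnd ρ a := by
  rw [nEnd_apply, nEnd_apply]
  have : ∀ g : G, ρ g (ρ σ a) = ρ (g * σ) a := fun g => by rw [map_mul]; rfl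
  simp_rw [this]
  exact Fintype.sum_equiv (Equiv.mulRight σ) _ _ (fun g => rfl)

theorem dEnd_comp_nEnd (σ : G) : (dEnd ρ σ).comp (nEnd ρ) = 0 := by
  ext a
  simp only [AddMonoidHom.comp_apply, dEnd_apply, rho_nEnd, sub_self, AddMonoidHom.zero_apply]

theorem nEnd_comp_dEnd (σ : G) : (nEnd ρ).comp (dEnd ρ σ) = 0 := by
  ext a
  simp only [AddMonoidHom.comp_apply, dEnd_apply, map_sub, nEnd_rho, sub_self,
    AddMonoidHom.zero_apply]

/-- The subgroup of `G`-invariants. -/
def invariants : AddSubgroup A where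
  carrier := {a | ∀ g : G, ρ g a = a}
  zero_mem' := fun g => map_zero _
  add_mem' := fun ha hb g => by rw [map_add, ha g, hb g]
  neg_mem' := fun ha g => by rw [map_neg, ha g]

theorem mem_invariants {a : A} : a ∈ invariants ρ ↔ ∀ g : G, ρ g a = a := Iff.rfl

/-- The augmentation subgroup `I_G A`, generated by all `g a - a`. -/
def augRange : AddSubgroup A := ⨆ g : G, (dEnd ρ g).range

/-- Order of `Ĥ⁰(G, A) = A^G / N A` (`0` if infinite). -/
noncomputable def h0 : ℕ := (nEnd ρ).range.relIndex (invariants ρ)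

/-- Order of `Ĥ⁻¹(G, A) = ker N / I_G A` (`0` if infinite). -/
noncomputable def hm1 : ℕ := (augRange ρ).relIndex (nEnd ρ).ker

/-- The Herbrand quotient `|Ĥ⁰(G, A)| / |Ĥ⁻¹(G, A)|` (meaningful for cyclic `G`). -/
noncomputable def herbrand : ℚ := (h0 ρ : ℚ) / (hm1 ρ : ℚ)

theorem rho_pow (σ : G) (k : ℕ) (a : A) : ρ (σ ^ k) a = ((ρ σ) ^ k) a := by
  rw [map_pow]

theorem ker_dEnd {σ : G} (hσ : ∀ x, x ∈ Subgroup.zpowers σ) :
    (dEnd ρ σ).ker = invariants ρ := by
  ext a
  rw [AddMonoidHom.mem_ker, dEnd_apply, sub_eq_zero, mem_invariants]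
  constructor
  · intro h g
    obtain ⟨k, rfl⟩ := Subgroup.mem_zpowers_iff.1 (hσ g)
    have hfix : ∀ n : ℕ, ρ (σ ^ n) a = a := by
      intro n
      induction n with
      | zero => simp
      | succ n ih => rw [pow_succ, map_mul]; show ρ (σ ^ n) (ρ σ a) = a; rw [h, ih]
    obtain ⟨n, hn⟩ : ∃ n : ℕ, σ ^ k = σ ^ n := by
      have hfin : IsOfFinOrder σ := isOfFinOrder_of_finite σ
      refine ⟨(k % (orderOf σ : ℤ)).toNat, ?_⟩
      rw [← zpow_natCast, Int.toNat_of_nonneg
        (Int.emod_nonneg _ (Int.natCast_ne_zero.2 hfin.orderOf_pos.ne')), zpow_mod_orderOf]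
    rw [hn, hfix]
  · intro h
    exact h σ

theorem range_dEnd {σ : G} (hσ : ∀ x, x ∈ Subgroup.zpowers σ) :
    (dEnd ρ σ).range = augRange ρ := by
  apply le_antisymm
  · exact le_iSup (fun g : G => (dEnd ρ g).range) σ
  · refine iSup_le fun g => ?_
    rintro _ ⟨a, rfl⟩
    obtain ⟨k, rfl⟩ := Subgroup.mem_zpowers_iff.1 (hσ g)
    have hnat : ∀ n : ℕ, ρ (σ ^ n) a - a ∈ (dEnd ρ σ).range := by
      intro n
      induction n with
      | zero => simp
      | succ n ih =>
        have : ρ (σ ^ (n + 1)) a - a = dEnd ρ σ (ρ (σ ^ n) a) + (ρ (σ ^ n) a - a) := by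
          rw [pow_succ', map_mul, dEnd_apply]
          show ρ σ (ρ (σ ^ n) a) - a = _
          abel
        rw [this]
        exact add_mem ⟨_, rfl⟩ ih
    obtain ⟨n, hn⟩ : ∃ n : ℕ, σ ^ k = σ ^ n := by
      have hfin : IsOfFinOrder σ := isOfFinOrder_of_finite σ
      refine ⟨(k % (orderOf σ : ℤ)).toNat, ?_⟩
      rw [← zpow_natCast, Int.toNat_of_nonneg
        (Int.emod_nonneg _ (Int.natCast_ne_zero.2 hfin.orderOf_pos.ne')), zpow_mod_orderOf]
    rw [dEnd_apply, hn]
    exact hnat n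

theorem idx_dEnd_nEnd {σ : G} (hσ : ∀ x, x ∈ Subgroup.zpowers σ) :
    idx (dEnd ρ σ) (nEnd ρ) = h0 ρ := by
  rw [idx, h0, ker_dEnd ρ hσ]

theorem idx_nEnd_dEnd {σ : G} (hσ : ∀ x, x ∈ Subgroup.zpowers σ) :
    idx (nEnd ρ) (dEnd ρ σ) = hm1 ρ := by
  rw [idx, hm1, range_dEnd ρ hσ]

theorem herbrand_eq_hq {σ : G} (hσ : ∀ x, x ∈ Subgroup.zpowers σ) :
    herbrand ρ = hq (dEnd ρ σ) (nEnd ρ) := by
  rw [herbrand, hq, idx_dEnd_nEnd ρ hσ, idx_nEnd_dEnd ρ hσ]

end Basic

section Finiteness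

variable {G : Type*} [Group G] [Fintype G] {A : Type*} [AddCommGroup A]
  (ρ : G →* AddMonoid.End A)

/-- Both Tate groups `Ĥ⁰(G, A)` and `Ĥ⁻¹(G, A)` are finite. -/
def IsFinH : Prop := h0 ρ ≠ 0 ∧ hm1 ρ ≠ 0

theorem isFinH_iff {σ : G} (hσ : ∀ x, x ∈ Subgroup.zpowers σ) :
    IsFinH ρ ↔ IsFin (dEnd ρ σ) (nEnd ρ) := by
  rw [IsFinH, IsFin, idx_dEnd_nEnd ρ hσ, idx_nEnd_dEnd ρ hσ]

theorem herbrand_ne_zero_iff : herbrand ρ ≠ 0 ↔ IsFinH ρ := by
  simp [herbrand, IsFinH]

theorem isFinH_of_finite [Finite A] : IsFinH ρ :=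
  ⟨AddSubgroup.index_ne_zero_of_finite, AddSubgroup.index_ne_zero_of_finite⟩

/-- The Herbrand quotient of a finite module over a finite cyclic group is `1`. -/
theorem herbrand_of_finite [Finite A] [IsCyclic G] : herbrand ρ = 1 := by
  obtain ⟨σ, hσ⟩ := IsCyclic.exists_generator (α := G)
  rw [herbrand_eq_hq ρ hσ]
  exact hq_of_finite _ _ (dEnd_comp_nEnd ρ σ) (nEnd_comp_dEnd ρ σ)

/-- For a finite module over a finite cyclic group, `|Ĥ⁰| = |Ĥ⁻¹|`. -/
theorem h0_eq_hm1_of_finite [Finite A] [IsCyclic G] : h0 ρ = hm1 ρ := by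
  have h := herbrand_of_finite ρ
  have h2 := (isFinH_of_finite ρ).2
  rw [herbrand, div_eq_one_iff_eq (Nat.cast_ne_zero.2 h2)] at h
  exact_mod_cast h

end Finiteness

section Exact

variable {G : Type*} [Group G] [Fintype G] {A B C : Type*} [AddCommGroup A] [AddCommGroup B]
  [AddCommGroup C] (ρA : G →* AddMonoid.End A) (ρB : G →* AddMonoid.End B)
  (ρC : G →* AddMonoid.End C)

/-- A `G`-equivariant short exact sequence `0 → A → B → C → 0`. -/
structure EquivExact (i : A →+ B) (p : B →+ C) : Prop where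
  inj : Function.Injective i
  surj : Function.Surjective p
  exact : i.range = p.ker
  hi : ∀ (g : G) (a : A), i (ρA g a) = ρB g (i a)
  hp : ∀ (g : G) (b : B), p (ρB g b) = ρC g (p b)

variable {ρA ρB ρC} {i : A →+ B} {p : B →+ C}

theorem EquivExact.exact3 (h : EquivExact ρA ρB ρC i p) (σ : G) :
    Exact3 i p (dEnd ρA σ) (nEnd ρA) (dEnd ρB σ) (nEnd ρB) (dEnd ρC σ) (nEnd ρC) where
  inj := h.inj
  surj := h.surj
  exact := h.exact
  fgB := dEnd_comp_nEnd ρB σ
  gfB := nEnd_comp_dEnd ρB σ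
  fi a := by simp only [dEnd_apply, map_sub, h.hi]
  gi a := by simp only [nEnd_apply, map_sum, h.hi]
  fp b := by simp only [dEnd_apply, map_sub, h.hp]
  gp b := by simp only [nEnd_apply, map_sum, h.hp]

variable [IsCyclic G]

theorem EquivExact.isFinH_mid (h : EquivExact ρA ρB ρC i p) (hA : IsFinH ρA) (hC : IsFinH ρC) :
    IsFinH ρB := by
  obtain ⟨σ, hσ⟩ := IsCyclic.exists_generator (α := G)
  rw [isFinH_iff _ hσ] at hA hC ⊢
  exact (h.exact3 σ).isFin_mid hA hC

theorem EquivExact.isFinH_left (h : EquivExact ρA ρB ρC i p) (hB : IsFinH ρB) (hC : IsFinH ρC) :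
    IsFinH ρA := by
  obtain ⟨σ, hσ⟩ := IsCyclic.exists_generator (α := G)
  rw [isFinH_iff _ hσ] at hB hC ⊢
  exact (h.exact3 σ).isFin_left hB hC

theorem EquivExact.isFinH_right (h : EquivExact ρA ρB ρC i p) (hA : IsFinH ρA) (hB : IsFinH ρB) :
    IsFinH ρC := by
  obtain ⟨σ, hσ⟩ := IsCyclic.exists_generator (α := G)
  rw [isFinH_iff _ hσ] at hA hB ⊢
  exact (h.exact3 σ).isFin_right hA hB

theorem EquivExact.herbrand_mul_of_left (h : EquivExact ρA ρB ρC i p) (hA : IsFinH ρA) :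
    herbrand ρB = herbrand ρA * herbrand ρC := by
  obtain ⟨σ, hσ⟩ := IsCyclic.exists_generator (α := G)
  rw [isFinH_iff _ hσ] at hA
  rw [herbrand_eq_hq _ hσ, herbrand_eq_hq _ hσ, herbrand_eq_hq _ hσ]
  exact (h.exact3 σ).hq_mul_of_left hA

theorem EquivExact.herbrand_mul_of_right (h : EquivExact ρA ρB ρC i p) (hC : IsFinH ρC) :
    herbrand ρB = herbrand ρA * herbrand ρC := by
  obtain ⟨σ, hσ⟩ := IsCyclic.exists_generator (α := G)
  rw [isFinH_iff _ hσ] at hC
  rw [herbrand_eq_hq _ hσ, herbrand_eq_hq _ hσ, herbrand_eq_hq _ hσ]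
  exact (h.exact3 σ).hq_mul_of_right hC

/-- **Multiplicativity of the Herbrand quotient** of modules over a finite cyclic group. -/
theorem EquivExact.herbrand_mul (h : EquivExact ρA ρB ρC i p) (hA : IsFinH ρA)
    (_hC : IsFinH ρC) : herbrand ρB = herbrand ρA * herbrand ρC :=
  h.herbrand_mul_of_left hA

/-- A `G`-submodule with finite quotient has the same Herbrand quotient. -/
theorem EquivExact.herbrand_eq_of_finite_coker (h : EquivExact ρA ρB ρC i p) [Finite C] :
    (IsFinH ρA ↔ IsFinH ρB) ∧ herbrand ρA = herbrand ρB := by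
  obtain ⟨σ, hσ⟩ := IsCyclic.exists_generator (α := G)
  rw [isFinH_iff _ hσ, isFinH_iff _ hσ, herbrand_eq_hq _ hσ, herbrand_eq_hq _ hσ]
  exact hq_eq_of_finite_coker (h.exact3 σ)

/-- Dividing by a finite `G`-submodule does not change the Herbrand quotient. -/
theorem EquivExact.herbrand_eq_of_finite_ker (h : EquivExact ρA ρB ρC i p) [Finite A] :
    (IsFinH ρB ↔ IsFinH ρC) ∧ herbrand ρB = herbrand ρC := by
  obtain ⟨σ, hσ⟩ := IsCyclic.exists_generator (α := G)
  rw [isFinH_iff _ hσ, isFinH_iff _ hσ, herbrand_eq_hq _ hσ, herbrand_eq_hq _ hσ]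
  exact hq_eq_of_finite_ker (h.exact3 σ)

end Exact

section Congr

variable {G : Type*} [Group G] [Fintype G] {A B : Type*} [AddCommGroup A] [AddCommGroup B]
  {ρA : G →* AddMonoid.End A} {ρB : G →* AddMonoid.End B}

theorem map_invariants (e : A ≃+ B) (he : ∀ (g : G) (a : A), e (ρA g a) = ρB g (e a)) :
    (invariants ρA).map e.toAddMonoidHom = invariants ρB := by
  ext b
  constructor
  · rintro ⟨a, ha, rfl⟩ g
    show ρB g (e a) = e a
    rw [← he, ha g]
  · intro hb
    refine ⟨e.symm b, fun g => ?_, by simp⟩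
    apply e.injective
    rw [he, e.apply_symm_apply, hb g]

theorem map_nEnd_range (e : A ≃+ B) (he : ∀ (g : G) (a : A), e (ρA g a) = ρB g (e a)) :
    (nEnd ρA).range.map e.toAddMonoidHom = (nEnd ρB).range := by
  ext b
  constructor
  · rintro ⟨_, ⟨a, rfl⟩, rfl⟩
    refine ⟨e a, ?_⟩
    show nEnd ρB (e a) = e (nEnd ρA a)
    simp only [nEnd_apply, map_sum, he]
  · rintro ⟨b, rfl⟩
    refine ⟨nEnd ρA (e.symm b), ⟨_, rfl⟩, ?_⟩
    show e (nEnd ρA (e.symm b)) = nEnd ρB b
    simp only [nEnd_apply, map_sum, he, e.apply_symm_apply]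

theorem map_nEnd_ker (e : A ≃+ B) (he : ∀ (g : G) (a : A), e (ρA g a) = ρB g (e a)) :
    (nEnd ρA).ker.map e.toAddMonoidHom = (nEnd ρB).ker := by
  have key : ∀ a : A, nEnd ρB (e a) = e (nEnd ρA a) := fun a => by
    simp only [nEnd_apply, map_sum, he]
  ext b
  rw [AddSubgroup.mem_map, AddMonoidHom.mem_ker]
  constructor
  · rintro ⟨a, ha, rfl⟩
    rw [AddMonoidHom.mem_ker] at ha
    show nEnd ρB (e a) = 0
    rw [key, ha, map_zero]
  · intro hb
    refine ⟨e.symm b, ?_, by simp⟩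
    rw [AddMonoidHom.mem_ker]
    apply e.injective
    rw [← key, e.apply_symm_apply, hb, map_zero]

theorem map_augRange (e : A ≃+ B) (he : ∀ (g : G) (a : A), e (ρA g a) = ρB g (e a)) :
    (augRange ρA).map e.toAddMonoidHom = augRange ρB := by
  rw [augRange, augRange, AddSubgroup.map_iSup]
  congr 1
  funext g
  ext b
  constructor
  · rintro ⟨_, ⟨a, rfl⟩, rfl⟩
    refine ⟨e a, ?_⟩
    show dEnd ρB g (e a) = e (dEnd ρA g a)
    simp only [dEnd_apply, map_sub, he]
  · rintro ⟨b, rfl⟩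
    refine ⟨dEnd ρA g (e.symm b), ⟨_, rfl⟩, ?_⟩
    show e (dEnd ρA g (e.symm b)) = dEnd ρB g b
    simp only [dEnd_apply, map_sub, he, e.apply_symm_apply]

/-- `|Ĥ⁰|` is invariant under equivariant isomorphisms. -/
theorem h0_congr (e : A ≃+ B) (he : ∀ (g : G) (a : A), e (ρA g a) = ρB g (e a)) :
    h0 ρA = h0 ρB := by
  rw [h0, h0, ← map_invariants e he, ← map_nEnd_range e he,
    AddSubgroup.relIndex_map_map_of_injective _ _ e.injective]

/-- `|Ĥ⁻¹|` is invariant under equivariant isomorphisms. -/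
theorem hm1_congr (e : A ≃+ B) (he : ∀ (g : G) (a : A), e (ρA g a) = ρB g (e a)) :
    hm1 ρA = hm1 ρB := by
  rw [hm1, hm1, ← map_augRange e he, ← map_nEnd_ker e he,
    AddSubgroup.relIndex_map_map_of_injective _ _ e.injective]

theorem herbrand_congr (e : A ≃+ B) (he : ∀ (g : G) (a : A), e (ρA g a) = ρB g (e a)) :
    herbrand ρA = herbrand ρB := by
  rw [herbrand, herbrand, h0_congr e he, hm1_congr e he]

end Congr

section Trivial

variable (G : Type*) [Group G] [Fintype G]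

theorem nEnd_one_apply {A : Type*} [AddCommGroup A] (a : A) :
    nEnd (1 : G →* AddMonoid.End A) a = Fintype.card G • a := by
  rw [nEnd_apply]
  simp [Finset.sum_const, Finset.card_univ]

/-- `|Ĥ⁰(G, ℤ)| = |G|` for the trivial action. -/
theorem h0_int_trivial : h0 (1 : G →* AddMonoid.End ℤ) = Fintype.card G := by
  have hinv : invariants (1 : G →* AddMonoid.End ℤ) = ⊤ := by
    ext a; simp [mem_invariants]
  have hrange : (nEnd (1 : G →* AddMonoid.End ℤ)).range
      = AddSubgroup.zmultiples (Fintype.card G : ℤ) := by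
    ext a
    rw [AddMonoidHom.mem_range, Int.mem_zmultiples_iff]
    constructor
    · rintro ⟨b, rfl⟩
      exact ⟨b, by rw [nEnd_one_apply]; simp [mul_comm]⟩
    · rintro ⟨b, rfl⟩
      exact ⟨b, by rw [nEnd_one_apply]; simp [mul_comm]⟩
  rw [h0, hinv, hrange, AddSubgroup.relIndex_top_right, Int.index_zmultiples, Int.natAbs_natCast]

/-- `Ĥ⁻¹(G, ℤ) = 0` for the trivial action. -/
theorem hm1_int_trivial : hm1 (1 : G →* AddMonoid.End ℤ) = 1 := by
  have hker : (nEnd (1 : G →* AddMonoid.End ℤ)).ker = ⊥ := by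
    ext a
    rw [AddMonoidHom.mem_ker, nEnd_one_apply, AddSubgroup.mem_bot]
    simp [Fintype.card_ne_zero]
  rw [hm1, hker, AddSubgroup.relIndex_bot_right]

/-- The Herbrand quotient of `ℤ` with trivial action is `|G|`. -/
theorem herbrand_int_trivial : herbrand (1 : G →* AddMonoid.End ℤ) = Fintype.card G := by
  rw [herbrand, h0_int_trivial, hm1_int_trivial]; simp

end Trivial

section Bridges

/-- The `G`-module structure (in the sense of this file) of a `DistribMulAction`. -/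
abbrev ofSMul (G A : Type*) [Monoid G] [AddCommGroup A] [DistribMulAction G A] :
    G →* AddMonoid.End A :=
  DistribMulAction.toAddMonoidEnd G A

/-- The `G`-module structure (in the sense of this file) underlying a `Representation`
(for instance `A.ρ` for `A : Rep k G`). -/
def ofRepresentation {k G V : Type*} [CommSemiring k] [Monoid G] [AddCommGroup V] [Module k V]
    (ρ : Representation k G V) : G →* AddMonoid.End V where
  toFun g := (ρ g).toAddMonoidHom
  map_one' := by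
    ext v
    show (ρ 1) v = v
    rw [map_one]; rfl
  map_mul' g h := by
    ext v
    show (ρ (g * h)) v = ρ g (ρ h v)
    rw [map_mul]; rfl

@[simp] theorem ofRepresentation_apply {k G V : Type*} [CommSemiring k] [Monoid G]
    [AddCommGroup V] [Module k V] (ρ : Representation k G V) (g : G) (v : V) :
    ofRepresentation ρ g v = ρ g v := rfl

@[simp] theorem ofSMul_apply (G A : Type*) [Monoid G] [AddCommGroup A] [DistribMulAction G A]
    (g : G) (a : A) : ofSMul G A g a = g • a := rfl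

end Bridges

end Fermat.Agent.CFT.Herbrand
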