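import Fermat.Agent.CFT.Coh.Defs
import Fermat.Agent.CFT.Coh.HerbrandCyclic

/-!
# Bridge: Herbrand calculus for `Rep k G` in the vocabulary of `Coh/Defs`
-/

namespace Fermat.Agent.CFT.Herbrand

open Fermat.Agent.CFT.Coh

set_option linter.unusedSectionVars false

variable {k G : Type} [CommRing k] [Group G] [Fintype G] (A : Rep.{0} k G)

/-- The `G`-module (in the sense of `HerbrandCyclic`) underlying a representation. -/
abbrev repEnd : G →* AddMonoid.End A.V := ofRepresentation A.ρ

theorem dEnd_repEnd (g : G) : dEnd (repEnd A) g = subOne A g := by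
  ext a
  rfl

theorem nEnd_repEnd : nEnd (repEnd A) = normAdd A := by
  ext a
  rw [nEnd_apply, normAdd_apply]
  simp [Representation.norm]

theorem invariants_repEnd :
    invariants (repEnd A) = A.ρ.invariants.toAddSubgroup := by
  ext a
  simp [mem_invariants, Representation.mem_invariants]

theorem nEnd_range_repEnd :
    (nEnd (repEnd A)).range = (LinearMap.range (A.ρ.norm : A.V →ₗ[k] A.V)).toAddSubgroup := by
  rw [nEnd_repEnd]
  ext a
  simp [normAdd]

theorem nEnd_ker_repEnd :
    (nEnd (repEnd A)).ker = (LinearMap.ker (A.ρ.norm : A.V →ₗ[k] A.V)).toAddSubgroup := by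
  rw [nEnd_repEnd]
  ext a
  simp [normAdd]

theorem augRange_repEnd :
    augRange (repEnd A) = (Representation.Coinvariants.ker A.ρ).toAddSubgroup := by
  apply le_antisymm
  · refine iSup_le fun g => ?_
    rintro _ ⟨a, rfl⟩
    exact Representation.Coinvariants.sub_mem_ker g a
  · have key : ∀ x ∈ Representation.Coinvariants.ker A.ρ, x ∈ augRange (repEnd A) := by
      intro x hx
      rw [Representation.Coinvariants.ker] at hx
      induction hx using Submodule.span_induction with
      | mem y hy =>
        obtain ⟨⟨g, v⟩, rfl⟩ := hy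
        exact (le_iSup (fun g : G => (dEnd (repEnd A) g).range) g) ⟨v, rfl⟩
      | zero => exact zero_mem _
      | add y z _ _ hy hz => exact add_mem hy hz
      | smul c y _ hy =>
        refine AddSubgroup.iSup_induction (fun g : G => (dEnd (repEnd A) g).range)
          (C := fun y => c • y ∈ augRange (repEnd A)) hy ?_ ?_ ?_
        · rintro g z ⟨v, rfl⟩
          refine (le_iSup (fun g : G => (dEnd (repEnd A) g).range) g) ⟨c • v, ?_⟩
          simp [dEnd_apply, smul_sub]
        · simp
        · intro y z hy hz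
          rw [smul_add]; exact add_mem hy hz
    exact fun x hx => key x hx

/-- `|Ĥ⁰(G, A)|` for the explicit Tate group of `Coh/Defs`. -/
theorem card_tateZero : Nat.card (TateZero A) = h0 (repEnd A) := by
  rw [h0, invariants_repEnd, nEnd_range_repEnd]
  rfl

/-- `|Ĥ⁻¹(G, A)|` for the explicit Tate group of `Coh/Defs`. -/
theorem card_tateNegOne : Nat.card (TateNegOne A) = hm1 (repEnd A) := by
  rw [hm1, augRange_repEnd, nEnd_ker_repEnd]
  rfl

/-- The Herbrand quotient of a representation of a finite (cyclic) group. -/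
noncomputable def herbrandRep : ℚ := herbrand (repEnd A)

theorem herbrandRep_eq :
    herbrandRep A = (Nat.card (TateZero A) : ℚ) / (Nat.card (TateNegOne A) : ℚ) := by
  rw [herbrandRep, herbrand, card_tateZero, card_tateNegOne]

/-- Both explicit Tate groups are finite. -/
def IsFinRep : Prop := IsFinH (repEnd A)

theorem isFinRep_iff : IsFinRep A ↔ Finite (TateZero A) ∧ Finite (TateNegOne A) := by
  rw [IsFinRep, IsFinH, ← card_tateZero, ← card_tateNegOne]
  constructor
  · rintro ⟨h1, h2⟩
    exact ⟨Nat.finite_of_card_ne_zero h1, Nat.finite_of_card_ne_zero h2⟩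
  · rintro ⟨h1, h2⟩
    exact ⟨Nat.card_pos.ne', Nat.card_pos.ne'⟩

theorem herbrandRep_of_finite [Finite A.V] [IsCyclic G] : herbrandRep A = 1 :=
  herbrand_of_finite _

open CategoryTheory in
/-- A short exact sequence of representations is an equivariant exact sequence. -/
theorem equivExact_of_shortExact {S : ShortComplex (Rep.{0} k G)} (hS : S.ShortExact) :
    EquivExact (repEnd S.X₁) (repEnd S.X₂) (repEnd S.X₃)
      S.f.hom.toLinearMap.toAddMonoidHom S.g.hom.toLinearMap.toAddMonoidHom where
  inj := (Rep.mono_iff_injective S.f).1 hS.mono_f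
  surj := (Rep.epi_iff_surjective S.g).1 hS.epi_g
  exact := by
    have h1 : (S.map (forget₂ (Rep.{0} k G) (ModuleCat.{0} k))).Exact := by
      rw [ShortComplex.exact_map_iff_of_faithful]; exact hS.exact
    have h2 := h1.moduleCat_range_eq_ker
    ext x
    have h3 : x ∈ LinearMap.range (S.map (forget₂ (Rep.{0} k G) (ModuleCat.{0} k))).f.hom ↔
        x ∈ LinearMap.ker (S.map (forget₂ (Rep.{0} k G) (ModuleCat.{0} k))).g.hom := by
      rw [h2]
    exact h3
  hi g a := Rep.hom_comm_apply S.f g a
  hp g b := Rep.hom_comm_apply S.g g b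

open CategoryTheory in
/-- Multiplicativity of the Herbrand quotient along short exact sequences of representations of
a finite cyclic group. -/
theorem herbrandRep_mul [IsCyclic G] {S : ShortComplex (Rep.{0} k G)} (hS : S.ShortExact)
    (h₁ : IsFinRep S.X₁) (h₃ : IsFinRep S.X₃) :
    IsFinRep S.X₂ ∧ herbrandRep S.X₂ = herbrandRep S.X₁ * herbrandRep S.X₃ :=
  ⟨(equivExact_of_shortExact hS).isFinH_mid h₁ h₃,
    (equivExact_of_shortExact hS).herbrand_mul h₁ h₃⟩

open CategoryTheory in
theorem isFinRep_left [IsCyclic G] {S : ShortComplex (Rep.{0} k G)} (hS : S.ShortExact)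
    (h₂ : IsFinRep S.X₂) (h₃ : IsFinRep S.X₃) : IsFinRep S.X₁ :=
  (equivExact_of_shortExact hS).isFinH_left h₂ h₃

open CategoryTheory in
theorem isFinRep_right [IsCyclic G] {S : ShortComplex (Rep.{0} k G)} (hS : S.ShortExact)
    (h₁ : IsFinRep S.X₁) (h₂ : IsFinRep S.X₂) : IsFinRep S.X₃ :=
  (equivExact_of_shortExact hS).isFinH_right h₁ h₂

open CategoryTheory in
/-- A subrepresentation with finite quotient has the same Herbrand quotient. -/
theorem herbrandRep_eq_of_finite_coker [IsCyclic G] {S : ShortComplex (Rep.{0} k G)}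
    (hS : S.ShortExact) [Finite S.X₃.V] :
    (IsFinRep S.X₁ ↔ IsFinRep S.X₂) ∧ herbrandRep S.X₁ = herbrandRep S.X₂ :=
  (equivExact_of_shortExact hS).herbrand_eq_of_finite_coker

open CategoryTheory in
/-- Dividing by a finite subrepresentation does not change the Herbrand quotient. -/
theorem herbrandRep_eq_of_finite_ker [IsCyclic G] {S : ShortComplex (Rep.{0} k G)}
    (hS : S.ShortExact) [Finite S.X₁.V] :
    (IsFinRep S.X₂ ↔ IsFinRep S.X₃) ∧ herbrandRep S.X₂ = herbrandRep S.X₃ :=
  (equivExact_of_shortExact hS).herbrand_eq_of_finite_ker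

/-- The Herbrand quotient of `ℤ` with trivial action is `|G|`; in fact `|Ĥ⁰| = |G|` and
`Ĥ⁻¹ = 0` for every finite group. -/
theorem repEnd_trivial_int (G : Type) [Group G] [Fintype G] :
    repEnd (Rep.trivial ℤ G ℤ) = (1 : G →* AddMonoid.End ℤ) := by
  ext g v
  rfl

theorem card_tateZero_trivial_int (G : Type) [Group G] [Fintype G] :
    Nat.card (TateZero (Rep.trivial ℤ G ℤ)) = Fintype.card G := by
  rw [card_tateZero, repEnd_trivial_int, h0_int_trivial]

theorem card_tateNegOne_trivial_int (G : Type) [Group G] [Fintype G] :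
    Nat.card (TateNegOne (Rep.trivial ℤ G ℤ)) = 1 := by
  rw [card_tateNegOne, repEnd_trivial_int, hm1_int_trivial]

theorem herbrandRep_trivial_int (G : Type) [Group G] [Fintype G] :
    herbrandRep (Rep.trivial ℤ G ℤ) = Fintype.card G := by
  rw [herbrandRep, repEnd_trivial_int, herbrand_int_trivial]

theorem isFinRep_trivial_int (G : Type) [Group G] [Fintype G] :
    IsFinRep (Rep.trivial ℤ G ℤ) := by
  rw [IsFinRep, IsFinH, repEnd_trivial_int, h0_int_trivial, hm1_int_trivial]
  exact ⟨Fintype.card_ne_zero, one_ne_zero⟩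

end Fermat.Agent.CFT.Herbrand
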