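import Fermat.Agent.CFT.Coh.Defs
import Fermat.Agent.CFT.Coh.HerbrandRep
import Fermat.Agent.CFT.Coh.Cyclic

/-!
# [CyclicLow] in the vocabulary of `Coh/Defs`

Dictionary between `Coh/Cyclic.lean` (universe polymorphic, `ind`, `stdCochain₁`, `stdCochain₂`)
and the definitions `cycIdx`, `cyc₁`, `cyc₂` of `Coh/Defs.lean`; the statements `CyclicH1`,
`CyclicH2` of the Coh plan in unfolded form; and `|H²| = |Ĥ⁰|`, `|H¹| = |Ĥ⁻¹|` for a finite cyclic
group, with the explicit Tate groups of `Coh/Defs` and the indices of `Coh/HerbrandRep`.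
-/

set_option autoImplicit false

namespace Fermat.Agent.CFT.Cyclic

open groupCohomology CategoryTheory Fermat.Agent.CFT.Coh

set_option linter.unusedSectionVars false

variable {k G : Type} [CommRing k] [Group G] [Fintype G] (A : Rep.{0} k G) {g : G}

theorem cycIdx_eq_ind (g x : G) : cycIdx g x = ind g x := by
  unfold cycIdx ind
  split_ifs with h
  · exact (Nat.sInf_def h).symm
  · have : {i : ℕ | g ^ i = x} = ∅ := by
      ext i
      exact ⟨fun hi => h ⟨i, hi⟩, fun hi => hi.elim⟩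
    rw [this, Nat.sInf_empty]

theorem cyc₁_eq_stdCochain₁ (a : A.V) : cyc₁ g A a = stdCochain₁ A g a := by
  funext x
  simp only [cyc₁, stdCochain₁, cycIdx_eq_ind]

theorem cyc₂_eq_stdCochain₂ (hg : ∀ x, x ∈ Subgroup.zpowers g) (a : A.V) :
    cyc₂ g A a = stdCochain₂ A g a := by
  funext p
  have h : orderOf g = Fintype.card G := by
    rw [orderOf_eq_card_of_forall_mem_zpowers hg, Nat.card_eq_fintype_card]
  simp only [cyc₂, stdCochain₂, cycIdx_eq_ind, h]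

theorem dHom_eq_subOne (g : G) : dHom A g = subOne A g := rfl

theorem nHom_eq_normAdd : nHom A = normAdd A := rfl

/-- The body of `Coh.Plan.CyclicH1`. -/
theorem cyclicH1_holds :
    ∀ (k G : Type) [CommRing k] [Group G] [Fintype G] (g : G),
      (∀ x, x ∈ Subgroup.zpowers g) → ∀ A : Rep.{0} k G,
      (∀ c ∈ cocycles₁ A, A.ρ.norm (c g) = 0 ∧ c = cyc₁ g A (c g)) ∧
      (∀ a : A.V, A.ρ.norm a = 0 → cyc₁ g A a ∈ cocycles₁ A ∧ cyc₁ g A a g = a) ∧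
      (∀ c ∈ cocycles₁ A, c ∈ coboundaries₁ A ↔ ∃ b : A.V, A.ρ g b - b = c g) := by
  intro k G _ _ _ g hg A
  have key : ∀ c ∈ cocycles₁ A, c = cyc₁ g A (c g) := by
    intro c hc
    funext x
    rw [cyc₁_eq_stdCochain₁]
    exact cocycle₁_eq A hg ⟨c, hc⟩ x
  refine ⟨fun c hc => ⟨norm_apply_gen A hg ⟨c, hc⟩, key c hc⟩, fun a ha => ?_, fun c hc => ?_⟩
  · rw [cyc₁_eq_stdCochain₁]
    exact ⟨stdCochain₁_mem_cocycles₁ A hg ⟨a, ha⟩, stdCochain₁_gen A hg ⟨a, ha⟩⟩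
  · constructor
    · rintro ⟨b, rfl⟩
      exact ⟨b, rfl⟩
    · rintro ⟨b, hb⟩
      refine ⟨b, ?_⟩
      have h1 := key _ (d₀₁_apply_mem_cocycles₁ (A := A) b)
      have h2 : (d₀₁ A).hom b g = c g := hb
      rw [key c hc, ← h2]
      exact h1

/-- The body of `Coh.Plan.CyclicH2`. -/
theorem cyclicH2_holds :
    ∀ (k G : Type) [CommRing k] [Group G] [Fintype G] (g : G),
      (∀ x, x ∈ Subgroup.zpowers g) → ∀ A : Rep.{0} k G,
      (∀ a : A.V, A.ρ g a = a → cyc₂ g A a ∈ cocycles₂ A) ∧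
      (∀ c ∈ cocycles₂ A, ∃ a : A.V, A.ρ g a = a ∧ c - cyc₂ g A a ∈ coboundaries₂ A) ∧
      (∀ a : A.V, A.ρ g a = a → (cyc₂ g A a ∈ coboundaries₂ A ↔ ∃ b : A.V, A.ρ.norm b = a)) := by
  intro k G _ _ _ g hg A
  have hinv : ∀ a : A.V, A.ρ g a = a → a ∈ A.ρ.invariants := fun a ha =>
    mem_invariants_of_mem_ker_dHom A hg (show A.ρ g a - a = 0 by rw [ha, sub_self])
  refine ⟨fun a ha => ?_, fun c hc => ?_, fun a ha => ?_⟩
  · rw [cyc₂_eq_stdCochain₂ A hg]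
    exact stdCochain₂_mem_cocycles₂ A hg ⟨a, hinv a ha⟩
  · refine ⟨ev₂ A g c, ev₂_mem_invariants A hg ⟨c, hc⟩ g, ?_⟩
    rw [cyc₂_eq_stdCochain₂ A hg]
    have h := H2π_eq A hg ⟨c, hc⟩
    exact (H2π_eq_iff _ _).1 h
  · rw [cyc₂_eq_stdCochain₂ A hg]
    have h1 := H2ofInv_eq_zero_iff A hg ⟨a, hinv a ha⟩
    have h2 := H2π_eq_zero_iff (A := A) ⟨stdCochain₂ A g a, stdCochain₂_mem_cocycles₂ A hg ⟨a, hinv a ha⟩⟩
    exact h2.symm.trans h1

/-- For a finite cyclic group: `|H²(G, A)| = |Ĥ⁰(G, A)| = [A^G : N A]`. -/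
theorem card_H2_eq_h0 (hg : ∀ x, x ∈ Subgroup.zpowers g) :
    Nat.card (H2 A) = Herbrand.h0 (Herbrand.repEnd A) := by
  rw [card_H2 A hg, dHom_eq_subOne, nHom_eq_normAdd, ← Herbrand.dEnd_repEnd, ← Herbrand.nEnd_repEnd,
    Herbrand.idx_dEnd_nEnd _ hg]

/-- For a finite cyclic group: `|H¹(G, A)| = |Ĥ⁻¹(G, A)| = [ker N : I_G A]`. -/
theorem card_H1_eq_hm1 (hg : ∀ x, x ∈ Subgroup.zpowers g) :
    Nat.card (H1 A) = Herbrand.hm1 (Herbrand.repEnd A) := by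
  rw [card_H1 A hg, dHom_eq_subOne, nHom_eq_normAdd, ← Herbrand.dEnd_repEnd, ← Herbrand.nEnd_repEnd,
    Herbrand.idx_nEnd_dEnd _ hg]

theorem card_H2_eq_card_tateZero (hg : ∀ x, x ∈ Subgroup.zpowers g) :
    Nat.card (H2 A) = Nat.card (TateZero A) := by
  rw [card_H2_eq_h0 A hg, Herbrand.card_tateZero]

theorem card_H1_eq_card_tateNegOne (hg : ∀ x, x ∈ Subgroup.zpowers g) :
    Nat.card (H1 A) = Nat.card (TateNegOne A) := by
  rw [card_H1_eq_hm1 A hg, Herbrand.card_tateNegOne]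

/-- The Herbrand quotient of a representation of a finite cyclic group is `|H²| / |H¹|`. -/
theorem herbrandRep_eq_card_H2_div_card_H1 (hg : ∀ x, x ∈ Subgroup.zpowers g) :
    Herbrand.herbrandRep A = (Nat.card (H2 A) : ℚ) / (Nat.card (H1 A) : ℚ) := by
  rw [Herbrand.herbrandRep_eq, card_H2_eq_card_tateZero A hg, card_H1_eq_card_tateNegOne A hg]

/-- Both `H¹` and `H²` of a finite cyclic group are finite iff the explicit Tate groups are. -/
theorem isFinRep_iff_finite_H2_H1 (hg : ∀ x, x ∈ Subgroup.zpowers g) :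
    Herbrand.IsFinRep A ↔ Finite (H2 A) ∧ Finite (H1 A) := by
  rw [Herbrand.IsFinRep, Herbrand.IsFinH, ← card_H2_eq_h0 A hg, ← card_H1_eq_hm1 A hg]
  constructor
  · rintro ⟨h1, h2⟩
    exact ⟨Nat.finite_of_card_ne_zero h1, Nat.finite_of_card_ne_zero h2⟩
  · rintro ⟨h1, h2⟩
    exact ⟨Nat.card_pos.ne', Nat.card_pos.ne'⟩

end Fermat.Agent.CFT.Cyclic
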