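import Mathlib
import Fermat.Agent.CFT.Coh.ResCores

/-!
# CFT program, layer Coh: the semilocal Shapiro lemma (explicit maps, several orbits)

Let `B : Rep k G`, and for finitely many indices `i` let `H i ≤ G` be a subgroup,
`A i : Rep k (H i)` and `f i : res (H i) B ⟶ A i` an `H i`-equivariant map.  If

  `b ↦ (i ↦ (g ↦ f i (g • b)))`

is a bijection of `B` onto the product of the coinduced modules `coind_{H i}^G (A i)`
("`B` is the product of the translates of the components `A i`": e.g. `B = (L ⊗ K_v)ˣ`,
`A i = L_wˣ`), then for every `n` the explicit map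

  `x ↦ (i ↦ groupCohomology.map (H i).subtype (f i) n x) : Hⁿ(G, B) → ∏ i, Hⁿ(H i, A i)`

(restriction to `H i` followed by the projection `f i`) is bijective
(`map_family_bijective`, `map_family_bijective'`).  Special cases and corollaries:
one subgroup (`map_subtype_bijective`, `isoCoindOfBijective`), vanishing
(`isZero_of_family`, `subsingleton_of_family`) and detection (`eq_zero_of_family`).

Built on the explicit Shapiro isomorphism `ResCores.shapiroMap_bijective`.
-/

set_option autoImplicit false

universe u

namespace Fermat.Agent.CFT.Coh.Semilocal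

open CategoryTheory groupCohomology Rep

variable {k G : Type u} [CommRing k] [Group G]

/-- `groupCohomology.map (id) · n` commutes with finite sums. -/
lemma map_id_sum {A B : Rep.{u} k G} {ι : Type*} (s : Finset ι) (φ : ι → (A ⟶ B)) (n : ℕ) :
    groupCohomology.map (MonoidHom.id G) (∑ i ∈ s, φ i) n =
      ∑ i ∈ s, groupCohomology.map (MonoidHom.id G) (φ i) n := by
  change (HomologicalComplex.homologyFunctor _ _ n).map
      ((cochainsFunctor k G).map (∑ i ∈ s, φ i)) =
    ∑ i ∈ s, (HomologicalComplex.homologyFunctor _ _ n).map ((cochainsFunctor k G).map (φ i))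
  rw [Functor.map_sum, Functor.map_sum]

lemma map_id_zero {A B : Rep.{u} k G} (n : ℕ) :
    groupCohomology.map (MonoidHom.id G) (0 : A ⟶ B) n = 0 :=
  (functor k G n).map_zero A B

/-- The map induced by a subgroup `S` and `f : res B ⟶ A` factors through the explicit Shapiro
map. -/
lemma map_subtype_eq (S : Subgroup G) (B : Rep.{u} k G) (A : Rep.{u} k S)
    (f : res S.subtype B ⟶ A) (n : ℕ) :
    groupCohomology.map S.subtype f n =
      groupCohomology.map (MonoidHom.id G) (resCoindToHom.{u} S.subtype B A f) n ≫
        ResCores.shapiroMap S A n := by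
  rw [ResCores.shapiroMap, ← groupCohomology.map_comp]
  refine groupCohomology.map_congr rfl ?_ n
  ext x
  show f.hom x = ((resCoindToHom.{u} S.subtype B A f).hom x).1 1
  rw [resCoindToHom_hom_apply_coe, map_one]
  rfl


/-! ### A representation which is a finite product of coinduced representations -/

section family

variable {ι : Type*} (H : ι → Subgroup G) (B : Rep.{u} k G) (A : ∀ i, Rep.{u} k (H i))
  (f : ∀ i, res (H i).subtype B ⟶ A i)

/-- The map `b ↦ (i ↦ (g ↦ f i (g • b)))` from `B` to the product of the coinduced modules. -/
noncomputable def total : B.V →ₗ[k] (∀ i, (coind (H i).subtype (A i)).V) :=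
  LinearMap.pi fun i => (resCoindToHom.{u} (H i).subtype B (A i) (f i)).hom.toLinearMap

lemma total_apply (b : B.V) (i : ι) :
    total H B A f b i = (resCoindToHom.{u} (H i).subtype B (A i) (f i)).hom b := rfl

variable {H B A f}

/-- The linear equivalence of `B` with the product of the coinduced modules. -/
noncomputable def totalEquiv (hf : Function.Bijective (total H B A f)) :
    B.V ≃ₗ[k] (∀ i, (coind (H i).subtype (A i)).V) :=
  LinearEquiv.ofBijective (total H B A f) hf

lemma totalEquiv_apply (hf : Function.Bijective (total H B A f)) (b : B.V) (i : ι) :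
    totalEquiv hf b i = (resCoindToHom.{u} (H i).subtype B (A i) (f i)).hom b := rfl

/-- The section of the `i`-th component. -/
noncomputable def sec [DecidableEq ι] (hf : Function.Bijective (total H B A f)) (i : ι) :
    coind (H i).subtype (A i) ⟶ B :=
  Rep.ofHom ⟨(totalEquiv hf).symm.toLinearMap ∘ₗ
      LinearMap.single k (fun i => (coind (H i).subtype (A i)).V) i, fun g => by
    ext c
    apply (totalEquiv hf).injective
    funext j
    show totalEquiv hf ((totalEquiv hf).symm (Pi.single i ((coind (H i).subtype (A i)).ρ g c))) j =
      totalEquiv hf (B.ρ g ((totalEquiv hf).symm (Pi.single i c))) j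
    rw [LinearEquiv.apply_symm_apply, totalEquiv_apply, hom_comm_apply, ← totalEquiv_apply hf,
      LinearEquiv.apply_symm_apply]
    by_cases hj : j = i
    · subst hj
      simp
    · rw [Pi.single_eq_of_ne hj, Pi.single_eq_of_ne hj, map_zero]⟩

lemma sec_apply [DecidableEq ι] (hf : Function.Bijective (total H B A f)) (i : ι)
    (c : (coind (H i).subtype (A i)).V) :
    (sec hf i).hom c = (totalEquiv hf).symm (Pi.single i c) := rfl

lemma sec_comp_self [DecidableEq ι] (hf : Function.Bijective (total H B A f)) (i : ι) :
    sec hf i ≫ resCoindToHom.{u} (H i).subtype B (A i) (f i) = 𝟙 _ := by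
  refine Rep.hom_ext (Representation.IntertwiningMap.ext (LinearMap.ext fun c => ?_))
  show (resCoindToHom.{u} (H i).subtype B (A i) (f i)).hom ((sec hf i).hom c) = c
  rw [sec_apply, ← totalEquiv_apply hf, LinearEquiv.apply_symm_apply, Pi.single_eq_same]

lemma sec_comp_of_ne [DecidableEq ι] (hf : Function.Bijective (total H B A f)) {i j : ι} (hij : j ≠ i) :
    sec hf i ≫ resCoindToHom.{u} (H j).subtype B (A j) (f j) = 0 := by
  refine Rep.hom_ext (Representation.IntertwiningMap.ext (LinearMap.ext fun c => ?_))
  show (resCoindToHom.{u} (H j).subtype B (A j) (f j)).hom ((sec hf i).hom c) = 0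
  rw [sec_apply, ← totalEquiv_apply hf, LinearEquiv.apply_symm_apply, Pi.single_eq_of_ne hij]

lemma sum_comp_sec [DecidableEq ι] [Fintype ι] (hf : Function.Bijective (total H B A f)) :
    ∑ i : ι, resCoindToHom.{u} (H i).subtype B (A i) (f i) ≫ sec hf i = 𝟙 B := by
  refine Rep.hom_ext (Representation.IntertwiningMap.ext (LinearMap.ext fun b => ?_))
  rw [Rep.sum_hom]
  show (∑ i : ι, (resCoindToHom.{u} (H i).subtype B (A i) (f i) ≫ sec hf i).hom) b = b
  rw [Representation.IntertwiningMap.sum_apply]
  have h1 : ∀ i : ι, (resCoindToHom.{u} (H i).subtype B (A i) (f i) ≫ sec hf i).hom b =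
      (totalEquiv hf).symm (Pi.single i (totalEquiv hf b i)) := fun i => rfl
  simp only [h1]
  rw [← map_sum, Finset.univ_sum_single, LinearEquiv.symm_apply_apply]

/-- **Semilocal Shapiro lemma**: if `b ↦ (i ↦ (g ↦ f i (g • b)))` is a bijection from `B` onto
the product of the coinduced modules `coind_{H i}^G (A i)` (finitely many `i`), then
`x ↦ (i ↦ map (H i).subtype (f i) n x)` is a bijection `Hⁿ(G, B) → ∏ i, Hⁿ(H i, A i)`. -/
theorem map_family_bijective [Finite ι]
    (hf : Function.Bijective fun (b : B.V) (i : ι) =>
      (resCoindToHom.{u} (H i).subtype B (A i) (f i)).hom b) (n : ℕ) :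
    Function.Bijective fun (x : groupCohomology B n) (i : ι) =>
      (groupCohomology.map (H i).subtype (f i) n).hom x := by
  classical
  have := Fintype.ofFinite ι
  have hf' : Function.Bijective (total H B A f) := hf
  -- the components on cohomology and their sections
  have hPS : ∀ i (y : groupCohomology (coind (H i).subtype (A i)) n),
      (groupCohomology.map (MonoidHom.id G) (resCoindToHom.{u} (H i).subtype B (A i) (f i)) n).hom
        ((groupCohomology.map (MonoidHom.id G) (sec hf' i) n).hom y) = y := by
    intro i y
    have h := groupCohomology.map_id_comp (sec hf' i)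
      (resCoindToHom.{u} (H i).subtype B (A i) (f i)) n
    rw [sec_comp_self, groupCohomology.map_id] at h
    exact (congrArg (fun φ => φ.hom y) h).symm
  have hPS0 : ∀ i j, j ≠ i → ∀ y : groupCohomology (coind (H i).subtype (A i)) n,
      (groupCohomology.map (MonoidHom.id G) (resCoindToHom.{u} (H j).subtype B (A j) (f j)) n).hom
        ((groupCohomology.map (MonoidHom.id G) (sec hf' i) n).hom y) = 0 := by
    intro i j hij y
    have h := groupCohomology.map_id_comp (sec hf' i)
      (resCoindToHom.{u} (H j).subtype B (A j) (f j)) n
    rw [sec_comp_of_ne hf' hij, map_id_zero] at h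
    exact (congrArg (fun φ => φ.hom y) h).symm
  have hSP : ∀ x : groupCohomology B n,
      ∑ i : ι, (groupCohomology.map (MonoidHom.id G) (sec hf' i) n).hom
        ((groupCohomology.map (MonoidHom.id G)
          (resCoindToHom.{u} (H i).subtype B (A i) (f i)) n).hom x) = x := by
    intro x
    have h := map_id_sum (Finset.univ : Finset ι)
      (fun i => resCoindToHom.{u} (H i).subtype B (A i) (f i) ≫ sec hf' i) n
    rw [sum_comp_sec, groupCohomology.map_id] at h
    have h2 : x = (∑ i : ι, groupCohomology.map (MonoidHom.id G)
        (resCoindToHom.{u} (H i).subtype B (A i) (f i) ≫ sec hf' i) n).hom x :=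
      congrArg (fun φ => φ.hom x) h
    rw [ModuleCat.hom_sum, LinearMap.sum_apply] at h2
    refine (Finset.sum_congr rfl fun i _ => ?_).trans h2.symm
    rw [groupCohomology.map_id_comp]
    rfl
  -- the comparison with the product of the cohomology groups of the coinduced modules
  have hcomp : ∀ (x : groupCohomology B n) (i : ι),
      (groupCohomology.map (H i).subtype (f i) n).hom x =
        (ResCores.shapiroMap (H i) (A i) n).hom
          ((groupCohomology.map (MonoidHom.id G)
            (resCoindToHom.{u} (H i).subtype B (A i) (f i)) n).hom x) := by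
    intro x i
    rw [map_subtype_eq]
    rfl
  constructor
  · intro x y hxy
    have h1 : ∀ i, (groupCohomology.map (MonoidHom.id G)
        (resCoindToHom.{u} (H i).subtype B (A i) (f i)) n).hom x =
        (groupCohomology.map (MonoidHom.id G)
          (resCoindToHom.{u} (H i).subtype B (A i) (f i)) n).hom y := by
      intro i
      apply (ResCores.shapiroMap_bijective (H i) (A i) n).1
      rw [← hcomp, ← hcomp]
      exact congrFun hxy i
    rw [← hSP x, ← hSP y]
    exact Finset.sum_congr rfl fun i _ => by rw [h1 i]
  · intro z
    choose y hy using fun i => (ResCores.shapiroMap_bijective (H i) (A i) n).2 (z i)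
    refine ⟨∑ i : ι, (groupCohomology.map (MonoidHom.id G) (sec hf' i) n).hom (y i), ?_⟩
    funext j
    show (groupCohomology.map (H j).subtype (f j) n).hom _ = z j
    rw [hcomp, map_sum, Finset.sum_eq_single j, hPS, hy]
    · intro i _ hij
      exact hPS0 i j (Ne.symm hij) (y i)
    · intro h; exact absurd (Finset.mem_univ _) h

/-- The hypothesis of `map_family_bijective` in elementary form: `b` is determined by the
functions `g ↦ f i (g • b)`, and every family of equivariant functions occurs. -/
lemma total_bijective_of_forall
    (hinj : ∀ b : B.V, (∀ (i : ι) (g : G), (f i).hom (B.ρ g b) = 0) → b = 0)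
    (hsurj : ∀ F : ∀ i, G → (A i).V,
      (∀ (i : ι) (h : H i) (g : G), F i ((h : G) * g) = (A i).ρ h (F i g)) →
      ∃ b : B.V, ∀ (i : ι) (g : G), (f i).hom (B.ρ g b) = F i g) :
    Function.Bijective fun (b : B.V) (i : ι) =>
      (resCoindToHom.{u} (H i).subtype B (A i) (f i)).hom b := by
  constructor
  · intro b b' hbb
    have h0 : b - b' = 0 := by
      apply hinj
      intro i g
      have h1 : ((resCoindToHom.{u} (H i).subtype B (A i) (f i)).hom b).1 g =
          ((resCoindToHom.{u} (H i).subtype B (A i) (f i)).hom b').1 g :=
        congrArg (fun F => F.1 g) (congrFun hbb i)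
      rw [resCoindToHom_hom_apply_coe, resCoindToHom_hom_apply_coe] at h1
      rw [map_sub, map_sub, h1, sub_self]
    exact sub_eq_zero.1 h0
  · intro F
    obtain ⟨b, hb⟩ := hsurj (fun i => (F i).1) (fun i h g => (F i).2 h g)
    refine ⟨b, ?_⟩
    funext i
    apply Subtype.ext
    funext g
    rw [resCoindToHom_hom_apply_coe]
    exact hb i g

/-- **Semilocal Shapiro lemma**, with the hypothesis in elementary form. -/
theorem map_family_bijective' [Finite ι]
    (hinj : ∀ b : B.V, (∀ (i : ι) (g : G), (f i).hom (B.ρ g b) = 0) → b = 0)
    (hsurj : ∀ F : ∀ i, G → (A i).V,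
      (∀ (i : ι) (h : H i) (g : G), F i ((h : G) * g) = (A i).ρ h (F i g)) →
      ∃ b : B.V, ∀ (i : ι) (g : G), (f i).hom (B.ρ g b) = F i g) (n : ℕ) :
    Function.Bijective fun (x : groupCohomology B n) (i : ι) =>
      (groupCohomology.map (H i).subtype (f i) n).hom x :=
  map_family_bijective (total_bijective_of_forall hinj hsurj) n

/-- Detection: a class of `Hⁿ(G, B)` vanishes as soon as all its components vanish. -/
theorem eq_zero_of_family [Finite ι]
    (hf : Function.Bijective fun (b : B.V) (i : ι) =>
      (resCoindToHom.{u} (H i).subtype B (A i) (f i)).hom b) (n : ℕ)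
    (x : groupCohomology B n)
    (hx : ∀ i, (groupCohomology.map (H i).subtype (f i) n).hom x = 0) : x = 0 := by
  apply (map_family_bijective hf n).1
  funext i
  show (groupCohomology.map (H i).subtype (f i) n).hom x =
    (groupCohomology.map (H i).subtype (f i) n).hom 0
  rw [hx i, map_zero]

/-- Vanishing: if all `Hⁿ(H i, A i)` are trivial then so is `Hⁿ(G, B)`. -/
theorem subsingleton_of_family [Finite ι]
    (hf : Function.Bijective fun (b : B.V) (i : ι) =>
      (resCoindToHom.{u} (H i).subtype B (A i) (f i)).hom b) (n : ℕ)
    (h : ∀ i, Subsingleton (groupCohomology (A i) n)) : Subsingleton (groupCohomology B n) := by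
  refine ⟨fun x y => (map_family_bijective hf n).1 ?_⟩
  funext i
  exact Subsingleton.elim _ _

/-- Vanishing: if all `Hⁿ(H i, A i)` are zero then so is `Hⁿ(G, B)`. -/
theorem isZero_of_family [Finite ι]
    (hf : Function.Bijective fun (b : B.V) (i : ι) =>
      (resCoindToHom.{u} (H i).subtype B (A i) (f i)).hom b) (n : ℕ)
    (h : ∀ i, Limits.IsZero (groupCohomology (A i) n)) :
    Limits.IsZero (groupCohomology B n) := by
  rw [ModuleCat.isZero_iff_subsingleton]
  exact subsingleton_of_family hf n fun i => ModuleCat.isZero_iff_subsingleton.1 (h i)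

end family

/-! ### One subgroup: recognition of coinduced modules -/

section single

variable (S : Subgroup G) (B : Rep.{u} k G) (A : Rep.{u} k S) (f : res S.subtype B ⟶ A)

/-- **Recognition of coinduced modules**: if `b ↦ (g ↦ f (g • b))` is a bijection of `B` onto
the `S`-equivariant functions `G → A`, then `B ≅ coind_S^G A`. -/
noncomputable def isoCoindOfBijective
    (hf : Function.Bijective (resCoindToHom.{u} S.subtype B A f).hom) :
    B ≅ coind S.subtype A :=
  haveI : IsIso (resCoindToHom.{u} S.subtype B A f) :=
    (ConcreteCategory.isIso_iff_bijective _).2 hf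
  asIso (resCoindToHom.{u} S.subtype B A f)

lemma isoCoindOfBijective_hom
    (hf : Function.Bijective (resCoindToHom.{u} S.subtype B A f).hom) :
    (isoCoindOfBijective S B A f hf).hom = resCoindToHom.{u} S.subtype B A f := rfl

/-- **Shapiro's lemma for a recognised coinduced module**: restriction to `S` followed by `f`
is a bijection `Hⁿ(G, B) → Hⁿ(S, A)`. -/
theorem map_subtype_bijective
    (hf : Function.Bijective (resCoindToHom.{u} S.subtype B A f).hom) (n : ℕ) :
    Function.Bijective (groupCohomology.map S.subtype f n).hom := by
  have h1 : Function.Bijective (groupCohomology.map (MonoidHom.id G)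
      (resCoindToHom.{u} S.subtype B A f) n).hom :=
    (ConcreteCategory.isIso_iff_bijective _).1
      (inferInstanceAs (IsIso ((functor k G n).map (isoCoindOfBijective S B A f hf).hom)))
  have h2 : (groupCohomology.map S.subtype f n).hom =
      (ResCores.shapiroMap S A n).hom ∘ (groupCohomology.map (MonoidHom.id G)
        (resCoindToHom.{u} S.subtype B A f) n).hom := by
    rw [map_subtype_eq]
    rfl
  rw [h2]
  exact (ResCores.shapiroMap_bijective S A n).comp h1

/-- `map S.subtype f n` is an isomorphism for a recognised coinduced module. -/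
theorem isIso_map_subtype
    (hf : Function.Bijective (resCoindToHom.{u} S.subtype B A f).hom) (n : ℕ) :
    IsIso (groupCohomology.map S.subtype f n) :=
  (ConcreteCategory.isIso_iff_bijective _).2 (map_subtype_bijective S B A f hf n)

end single

end Fermat.Agent.CFT.Coh.Semilocal
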