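import Mathlib

/-!
# Inflation–restriction in degree 2

For a normal subgroup `S ≤ G` and a `G`-representation `A` with `H¹(S, A) = 0`, the sequence
`0 ⟶ H²(G ⧸ S, A^S) ⟶ H²(G, A) ⟶ H²(S, A)` is exact.

The proof is by explicit cochains (no dimension shifting).  The first part of the file
(`namespace InfRes2Core`) is pure algebra on functions `G × G → V` for a representation
`ρ : Representation k G V`; the second part translates it into Mathlib's `groupCohomology`.
-/

universe u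

namespace Fermat.Agent.CFT.Coh

namespace InfRes2Core

variable {k G V : Type*} [CommRing k] [Group G] [AddCommGroup V] [Module k V]
  (ρ : Representation k G V) (S : Subgroup G)

/-- The 2-cocycle identity, in the form of Mathlib's `mem_cocycles₂_iff`. -/
def IsCoc (F : G × G → V) : Prop :=
  ∀ g h j : G, F (g * h, j) + F (g, h) = ρ g (F (h, j)) + F (g, h * j)

/-- The 2-coboundary of a 1-cochain. -/
def dOne (x : G → V) : G × G → V := fun p => ρ p.1 (x p.2) - x (p.1 * p.2) + x p.1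

lemma dOne_apply (x : G → V) (g h : G) : dOne ρ x (g, h) = ρ g (x h) - x (g * h) + x g := rfl

lemma dOne_add (x y : G → V) : dOne ρ (x + y) = dOne ρ x + dOne ρ y := by
  funext p
  simp only [dOne, Pi.add_apply, map_add]
  abel

lemma isCoc_dOne (x : G → V) : IsCoc ρ (dOne ρ x) := by
  intro g h j
  simp only [dOne, map_add, map_sub, map_mul, Module.End.mul_apply, mul_assoc]
  abel

lemma IsCoc.add {F F' : G × G → V} (h : IsCoc ρ F) (h' : IsCoc ρ F') : IsCoc ρ (F + F') := by
  intro g a j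
  have e1 := h g a j
  have e2 := h' g a j
  simp only [Pi.add_apply, map_add]
  linear_combination (norm := abel) e1 + e2

lemma IsCoc.add_dOne {F : G × G → V} (h : IsCoc ρ F) (x : G → V) : IsCoc ρ (F + dOne ρ x) :=
  h.add ρ (isCoc_dOne ρ x)

/-- Elementwise vanishing of `H¹(S, V)`. -/
def H1Van : Prop :=
  ∀ c : S → V, (∀ n m : S, c (n * m) = ρ n (c m) + c n) → ∃ a : V, ∀ n : S, c n = ρ n a - a

/-- A chosen representative of the coset `g S`. -/
noncomputable def rp (g : G) : G := (QuotientGroup.mk g : G ⧸ S).out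

lemma rp_inv_mul_mem (g : G) : (rp S g)⁻¹ * g ∈ S := by
  have h : (QuotientGroup.mk (rp S g) : G ⧸ S) = QuotientGroup.mk g := QuotientGroup.out_eq' _
  exact QuotientGroup.eq.1 h

lemma rp_mul_right (g : G) {n : G} (hn : n ∈ S) : rp S (g * n) = rp S g := by
  unfold rp
  rw [QuotientGroup.mk_mul_of_mem g hn]

variable [S.Normal]

lemma rp_mul_left (g : G) {n : G} (hn : n ∈ S) : rp S (n * g) = rp S g := by
  unfold rp
  have h : (QuotientGroup.mk (n * g) : G ⧸ S) = QuotientGroup.mk g := by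
    rw [QuotientGroup.eq]
    have e : (n * g)⁻¹ * g = g⁻¹ * n⁻¹ * g := by group
    rw [e]
    exact Subgroup.Normal.conj_mem' ‹_› _ (S.inv_mem hn) _
  rw [h]

lemma mul_rp_inv_mem (g : G) : g * (rp S g)⁻¹ ∈ S := by
  have h := rp_inv_mul_mem S g
  have e : g * (rp S g)⁻¹ = rp S g * ((rp S g)⁻¹ * g) * (rp S g)⁻¹ := by group
  rw [e]
  exact Subgroup.Normal.conj_mem ‹_› _ h _

omit [S.Normal] in
lemma rp_mem {n : G} (hn : n ∈ S) : rp S n ∈ S := by
  have h := rp_inv_mul_mem S n
  have e : rp S n = n * ((rp S n)⁻¹ * n)⁻¹ := by group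
  rw [e]
  exact S.mul_mem hn (S.inv_mem h)

omit [S.Normal] in
/-- Step 1: kill the cocycle on `S × S`. -/
lemma step1 (F : G × G → V) (u : S → V)
    (hu : ∀ n m : S, F ((n : G), (m : G)) = ρ n (u m) - u (n * m) + u n) :
    ∃ x : G → V, ∀ n ∈ S, ∀ m ∈ S, (F + dOne ρ x) (n, m) = 0 := by
  classical
  refine ⟨fun g => if h : g ∈ S then - u ⟨g, h⟩ else 0, fun n hn m hm => ?_⟩
  have hnm : n * m ∈ S := S.mul_mem hn hm
  have e := hu ⟨n, hn⟩ ⟨m, hm⟩
  simp only [Pi.add_apply, dOne_apply, dif_pos hn, dif_pos hm, dif_pos hnm, map_neg]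
  have e' : u (⟨n, hn⟩ * ⟨m, hm⟩) = u ⟨n * m, hnm⟩ := rfl
  rw [e'] at e
  simp only at e
  linear_combination (norm := abel) e

/-- Step 2: kill the cocycle on `S × G`. -/
lemma step2 (F : G × G → V) (hF : IsCoc ρ F) (h0 : ∀ n ∈ S, ∀ m ∈ S, F (n, m) = 0) :
    ∃ x : G → V, ∀ n ∈ S, ∀ g, (F + dOne ρ x) (n, g) = 0 := by
  refine ⟨fun g => F (g * (rp S g)⁻¹, rp S g), fun n hn g => ?_⟩
  simp only [Pi.add_apply, dOne_apply]
  rw [rp_mul_left S g hn]
  have e1 : F (n * (rp S n)⁻¹, rp S n) = 0 :=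
    h0 _ (mul_rp_inv_mem S n) _ (rp_mem S hn)
  have e2 := hF n (g * (rp S g)⁻¹) (rp S g)
  rw [inv_mul_cancel_right, h0 n hn _ (mul_rp_inv_mem S g), ← mul_assoc] at e2
  rw [e1]
  linear_combination (norm := abel) -e2

/-- Step 3: use `H¹(S, V) = 0` to make the cocycle constant on `S × G` and `G × S`. -/
lemma step3 (h1 : H1Van ρ S) (F : G × G → V) (hF : IsCoc ρ F)
    (h0 : ∀ n ∈ S, ∀ g, F (n, g) = 0) :
    ∃ (x : G → V) (c₀ : V), (∀ n ∈ S, ρ n c₀ = c₀) ∧
      (∀ n ∈ S, ∀ g, (F + dOne ρ x) (n, g) = c₀) ∧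
      (∀ n ∈ S, ∀ g, (F + dOne ρ x) (g, n) = ρ g c₀) := by
  -- (a) and (b)
  have ha : ∀ n ∈ S, ∀ g h, F (n * g, h) = ρ n (F (g, h)) := by
    intro n hn g h
    have e := hF n g h
    rw [h0 n hn g, h0 n hn (g * h)] at e
    simpa using e
  have hb : ∀ n ∈ S, ∀ g h, F (g * n, h) + F (g, n) = F (g, n * h) := by
    intro n hn g h
    have e := hF g n h
    rw [h0 n hn h, map_zero, zero_add] at e
    exact e
  -- (c) the twisted cocycles
  have hc : ∀ g : G, ∃ b : V, ∀ n ∈ S, F (g, n) = ρ (g * n * g⁻¹) b - b := by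
    intro g
    obtain ⟨a, hcob⟩ := h1 (fun n => ρ g⁻¹ (F (g, (n : G)))) (by
      intro n m
      have e1 := hb n n.2 g m
      have e2 := ha (g * n * g⁻¹) (Subgroup.Normal.conj_mem ‹_› _ n.2 g) g m
      rw [inv_mul_cancel_right] at e2
      have e3 : ρ g⁻¹ (ρ (g * n * g⁻¹) (F (g, (m : G)))) = ρ n (ρ g⁻¹ (F (g, (m : G)))) := by
        rw [← Module.End.mul_apply, ← map_mul, ← Module.End.mul_apply, ← map_mul]
        congr 2
        group
      show ρ g⁻¹ (F (g, ((n * m : S) : G))) = ρ n (ρ g⁻¹ (F (g, (m : G)))) + ρ g⁻¹ (F (g, (n : G)))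
      rw [Subgroup.coe_mul, ← e1, e2, map_add, e3])
    refine ⟨ρ g a, fun n hn => ?_⟩
    have e := hcob ⟨n, hn⟩
    simp only at e
    have e' := congrArg (ρ g) e
    rw [← Module.End.mul_apply, ← map_mul, mul_inv_cancel, map_one, Module.End.one_apply,
      map_sub] at e'
    rw [e']
    congr 1
    rw [← Module.End.mul_apply, ← map_mul, ← Module.End.mul_apply, ← map_mul]
    congr 2
    group
  choose b hb' using hc
  set w : G → V := fun g => b (rp S g) + F (rp S g, (rp S g)⁻¹ * g) with hw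
  -- Claim 1
  have hw1 : ∀ g, ∀ n ∈ S, w (g * n) = w g + F (g, n) := by
    intro g n hn
    simp only [hw]
    rw [rp_mul_right S g hn]
    have e := hb ((rp S g)⁻¹ * g) (rp_inv_mul_mem S g) (rp S g) n
    rw [mul_inv_cancel_left] at e
    rw [← mul_assoc, ← e]
    abel
  -- Claim 2
  have hw2 : ∀ g, ∀ n ∈ S, w (n * g) = ρ n (w g) := by
    intro g n hn
    simp only [hw]
    rw [rp_mul_left S g hn]
    set s := rp S g with hs
    have hmem : s⁻¹ * n * s ∈ S := Subgroup.Normal.conj_mem' ‹_› _ hn _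
    have e := hb (s⁻¹ * n * s) hmem s (s⁻¹ * g)
    have e1 : s * (s⁻¹ * n * s) = n * s := by group
    have e2 : s⁻¹ * n * s * (s⁻¹ * g) = s⁻¹ * (n * g) := by group
    rw [e1, e2, ha n hn] at e
    have e3 := hb' s (s⁻¹ * n * s) hmem
    have e4 : s * (s⁻¹ * n * s) * s⁻¹ = n := by group
    rw [e4] at e3
    rw [← e, e3, map_add]
    abel
  -- Claim 3
  have hw3 : ∀ n ∈ S, w n = w 1 := by
    intro n hn
    have e := hw1 1 n hn
    rw [one_mul, h0 1 S.one_mem n, add_zero] at e
    exact e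
  have hw4 : ∀ n ∈ S, ρ n (w 1) = w 1 := by
    intro n hn
    have e := hw2 1 n hn
    rw [mul_one] at e
    rw [← e, hw3 n hn]
  refine ⟨w, w 1, hw4, fun n hn g => ?_, fun n hn g => ?_⟩
  · simp only [Pi.add_apply, dOne_apply]
    rw [h0 n hn g, hw2 g n hn, hw3 n hn]
    abel
  · simp only [Pi.add_apply, dOne_apply]
    rw [hw1 g n hn, hw3 n hn]
    abel

/-- Step 4: a cocycle which is constant on `S × G` and `G × S` is inflated. -/
lemma step4 (F : G × G → V) (hF : IsCoc ρ F) (c₀ : V)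
    (hl : ∀ n ∈ S, ∀ g, F (n, g) = c₀) (hr : ∀ n ∈ S, ∀ g, F (g, n) = ρ g c₀) :
    (∀ g h, ∀ n ∈ S, F (g * n, h) = F (g, h)) ∧ (∀ g h, ∀ n ∈ S, F (g, h * n) = F (g, h)) ∧
      (∀ g h, ∀ n ∈ S, ρ n (F (g, h)) = F (g, h)) := by
  have h3 : ∀ g h, ∀ n ∈ S, F (g, h * n) = F (g, h) := by
    intro g h n hn
    have e := hF g h n
    rw [hr n hn (g * h), hr n hn h, map_mul, Module.End.mul_apply] at e
    linear_combination (norm := abel) -e
  have h2 : ∀ g h, ∀ n ∈ S, F (g * n, h) = F (g, n * h) := by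
    intro g h n hn
    have e := hF g n h
    rw [hr n hn g, hl n hn h] at e
    linear_combination (norm := abel) e
  have h1 : ∀ g h, ∀ n ∈ S, F (n * g, h) = ρ n (F (g, h)) := by
    intro g h n hn
    have e := hF n g h
    rw [hl n hn g, hl n hn (g * h)] at e
    linear_combination (norm := abel) e
  refine ⟨fun g h n hn => ?_, h3, fun g h n hn => ?_⟩
  · rw [h2 g h n hn]
    have e : n * h = h * (h⁻¹ * n * h) := by group
    rw [e]
    exact h3 g h _ (Subgroup.Normal.conj_mem' ‹_› _ hn _)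
  · rw [← h1 g h n hn]
    have e : n * g = g * (g⁻¹ * n * g) := by group
    rw [e, h2 g h _ (Subgroup.Normal.conj_mem' ‹_› _ hn _)]
    have e' : g⁻¹ * n * g * h = h * (h⁻¹ * (g⁻¹ * n * g) * h) := by group
    rw [e']
    exact h3 g h _ (Subgroup.Normal.conj_mem' ‹_› _
      (Subgroup.Normal.conj_mem' ‹_› _ hn _) _)

/-- **Exactness core.** A 2-cocycle of `G` whose restriction to `S × S` is a coboundary is
cohomologous to a 2-cocycle which factors through `G ⧸ S` and takes values in `V^S`. -/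
theorem exists_inflated (h1 : H1Van ρ S) (F : G × G → V) (hF : IsCoc ρ F) (u : S → V)
    (hu : ∀ n m : S, F ((n : G), (m : G)) = ρ n (u m) - u (n * m) + u n) :
    ∃ x : G → V, IsCoc ρ (F + dOne ρ x) ∧
      (∀ g h, ∀ n ∈ S, (F + dOne ρ x) (g * n, h) = (F + dOne ρ x) (g, h)) ∧
      (∀ g h, ∀ n ∈ S, (F + dOne ρ x) (g, h * n) = (F + dOne ρ x) (g, h)) ∧
      (∀ g h, ∀ n ∈ S, ρ n ((F + dOne ρ x) (g, h)) = (F + dOne ρ x) (g, h)) := by
  obtain ⟨x₁, hx₁⟩ := step1 ρ S F u hu
  have hF₁ : IsCoc ρ (F + dOne ρ x₁) := hF.add_dOne ρ x₁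
  obtain ⟨x₂, hx₂⟩ := step2 ρ S _ hF₁ hx₁
  have hF₂ : IsCoc ρ (F + dOne ρ x₁ + dOne ρ x₂) := hF₁.add_dOne ρ x₂
  obtain ⟨x₃, c₀, -, hl, hr⟩ := step3 ρ S h1 _ hF₂ hx₂
  have hF₃ : IsCoc ρ (F + dOne ρ x₁ + dOne ρ x₂ + dOne ρ x₃) := hF₂.add_dOne ρ x₃
  have key : F + dOne ρ (x₁ + x₂ + x₃) = F + dOne ρ x₁ + dOne ρ x₂ + dOne ρ x₃ := by
    rw [dOne_add, dOne_add]
    abel
  refine ⟨x₁ + x₂ + x₃, ?_⟩
  rw [key]
  exact ⟨hF₃, step4 ρ S _ hF₃ c₀ hl hr⟩

/-- **Injectivity core.** If `Φ = d x` is a coboundary on `G` which is "inflated-like"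
(constant `c` on `S × G`, equal to `g • c` on `G × S`, with `c ∈ V^S`), then `Φ = d y` for a
cochain `y` which factors through `G ⧸ S` and takes values in `V^S`. -/
theorem exists_descended (h1 : H1Van ρ S) (Φ : G × G → V) (x : G → V)
    (hΦ : ∀ g h, Φ (g, h) = ρ g (x h) - x (g * h) + x g)
    (c : V) (hc : ∀ n ∈ S, ρ n c = c)
    (hl : ∀ n ∈ S, ∀ g, Φ (n, g) = c) (hr : ∀ n ∈ S, ∀ g, Φ (g, n) = ρ g c) :
    ∃ y : G → V, (∀ g h, Φ (g, h) = ρ g (y h) - y (g * h) + y g) ∧
      (∀ g, ∀ n ∈ S, y (g * n) = y g) ∧ (∀ g, ∀ n ∈ S, ρ n (y g) = y g) := by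
  obtain ⟨a, ha⟩ := h1 (fun n => x n - c) (by
    intro n m
    have e := hΦ n m
    rw [hl n n.2 m] at e
    have e' := hc n n.2
    show x ((n * m : S) : G) - c = ρ n (x m - c) + (x n - c)
    rw [Subgroup.coe_mul, map_sub, e']
    linear_combination (norm := abel) e)
  set y : G → V := fun g => x g - (ρ g a - a) with hy
  have hyS : ∀ n ∈ S, y n = c := by
    intro n hn
    have e := ha ⟨n, hn⟩
    simp only at e
    simp only [hy]
    linear_combination (norm := abel) e
  have hdy : ∀ g h, Φ (g, h) = ρ g (y h) - y (g * h) + y g := by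
    intro g h
    rw [hΦ g h]
    simp only [hy, map_sub, map_mul, Module.End.mul_apply]
    abel
  have h2 : ∀ g, ∀ n ∈ S, y (g * n) = y g := by
    intro g n hn
    have e := hdy g n
    rw [hr n hn g, hyS n hn] at e
    linear_combination (norm := abel) e
  have h3 : ∀ g, ∀ n ∈ S, y (n * g) = ρ n (y g) := by
    intro g n hn
    have e := hdy n g
    rw [hl n hn g, hyS n hn] at e
    linear_combination (norm := abel) e
  refine ⟨y, hdy, h2, fun g n hn => ?_⟩
  rw [← h3 g n hn]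
  have e : n * g = g * (g⁻¹ * n * g) := by group
  rw [e]
  exact h2 g _ (Subgroup.Normal.conj_mem' ‹_› _ hn _)

end InfRes2Core

open groupCohomology Rep CategoryTheory Representation

variable {k G : Type u} [CommRing k] [Group G] (A : Rep k G) (S : Subgroup G) [S.Normal]

omit [S.Normal] in
/-- The cocycle form of `H¹(S, A) = 0` gives the elementwise form used by the core. -/
lemma h1Van_of_cocycles
    (h1 : ∀ c : cocycles₁ (res S.subtype A), ⇑c ∈ coboundaries₁ (res S.subtype A)) :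
    InfRes2Core.H1Van A.ρ S := by
  intro c hc
  obtain ⟨a, ha⟩ := h1 ⟨c, (mem_cocycles₁_iff (A := res S.subtype A) c).2 hc⟩
  exact ⟨a, fun n => (congrFun ha n).symm⟩

omit [S.Normal] in
lemma cocycles_of_subsingleton (h1 : Subsingleton (groupCohomology (res S.subtype A) 1)) :
    ∀ c : cocycles₁ (res S.subtype A), ⇑c ∈ coboundaries₁ (res S.subtype A) := by
  intro c
  rw [← H1π_eq_zero_iff]
  exact Subsingleton.elim _ _

/-- Inflation `H²(G ⧸ S, A^S) ⟶ H²(G, A)`. -/
noncomputable abbrev infTwo : groupCohomology (A.quotientToInvariants S) 2 ⟶ groupCohomology A 2 :=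
  map (QuotientGroup.mk' S) (ofHom <| A.ρ.quotientToInvariants_lift S) 2

/-- Restriction `H²(G, A) ⟶ H²(S, A)`. -/
noncomputable abbrev resTwo : groupCohomology A 2 ⟶ groupCohomology (res S.subtype A) 2 :=
  map S.subtype (𝟙 (res S.subtype A)) 2

/-- **Cocycle-level exactness.** A 2-cocycle `F` of `G` whose restriction to `S × S` is the
coboundary of `u : S → A` is cohomologous (via some `x : G → A`) to the inflation of an
`A^S`-valued 2-cocycle `Fb` of `G ⧸ S`. -/
theorem exists_cocycle_inflated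
    (h1 : ∀ c : cocycles₁ (res S.subtype A), ⇑c ∈ coboundaries₁ (res S.subtype A))
    (F : cocycles₂ A) (u : S → A)
    (hu : ∀ n m : S, F ((n : G), (m : G)) = A.ρ n (u m) - u (n * m) + u n) :
    ∃ (Fb : cocycles₂ (A.quotientToInvariants S)) (x : G → A), ∀ g h : G,
      ((Fb ((g : G ⧸ S), (h : G ⧸ S)) : A.quotientToInvariants S) : A) =
        F (g, h) + (A.ρ g (x h) - x (g * h) + x g) := by
  obtain ⟨x, hcoc, hinv1, hinv2, hinv3⟩ := InfRes2Core.exists_inflated A.ρ S
    (h1Van_of_cocycles A S h1) F ((mem_cocycles₂_iff F).1 F.2) u hu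
  let Fbar : (G ⧸ S) × (G ⧸ S) → A.quotientToInvariants S := fun p =>
    ⟨(⇑F + InfRes2Core.dOne A.ρ x) (p.1.out, p.2.out), fun n => hinv3 _ _ n n.2⟩
  have hFbar : ∀ g h : G, ((Fbar ((g : G ⧸ S), (h : G ⧸ S)) : A.quotientToInvariants S) : A) =
      (⇑F + InfRes2Core.dOne A.ρ x) (g, h) := by
    intro g h
    obtain ⟨n, hn⟩ := QuotientGroup.mk_out_eq_mul S g
    obtain ⟨m, hm⟩ := QuotientGroup.mk_out_eq_mul S h
    show (⇑F + InfRes2Core.dOne A.ρ x) ((g : G ⧸ S).out, (h : G ⧸ S).out) = _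
    rw [hn, hm, hinv1 _ _ n n.2, hinv2 _ _ m m.2]
  have hFbar_coc : Fbar ∈ cocycles₂ (A.quotientToInvariants S) := by
    rw [mem_cocycles₂_iff]
    intro a b c
    induction a using QuotientGroup.induction_on with | H g =>
    induction b using QuotientGroup.induction_on with | H h =>
    induction c using QuotientGroup.induction_on with | H j =>
    apply Subtype.ext
    have e := hcoc g h j
    rw [← QuotientGroup.mk_mul, ← QuotientGroup.mk_mul]
    show (Fbar (((g * h : G) : G ⧸ S), (j : G ⧸ S)) : A) + (Fbar ((g : G ⧸ S), (h : G ⧸ S)) : A) =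
      A.ρ g (Fbar ((h : G ⧸ S), (j : G ⧸ S)) : A) + (Fbar ((g : G ⧸ S), ((h * j : G) : G ⧸ S)) : A)
    rw [hFbar, hFbar, hFbar, hFbar]
    exact e
  exact ⟨⟨Fbar, hFbar_coc⟩, x, fun g h => hFbar g h⟩

/-- **Cocycle-level injectivity.** If the inflation of an `A^S`-valued 2-cocycle `Fb` of `G ⧸ S`
is the coboundary of `x : G → A`, then `Fb` is the coboundary of an `A^S`-valued 1-cochain of
`G ⧸ S`. -/
theorem exists_cochain_descended
    (h1 : ∀ c : cocycles₁ (res S.subtype A), ⇑c ∈ coboundaries₁ (res S.subtype A))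
    (Fb : cocycles₂ (A.quotientToInvariants S)) (x : G → A)
    (hx : ∀ g h : G, ((Fb ((g : G ⧸ S), (h : G ⧸ S)) : A.quotientToInvariants S) : A) =
      A.ρ g (x h) - x (g * h) + x g) :
    ∃ yb : G ⧸ S → A.quotientToInvariants S,
      (d₁₂ (A.quotientToInvariants S)).hom yb = ⇑Fb := by
  have hone : ∀ n ∈ S, ((n : G) : G ⧸ S) = 1 := fun n hn => (QuotientGroup.eq_one_iff n).2 hn
  obtain ⟨y, hdy, hy1, hy2⟩ := InfRes2Core.exists_descended A.ρ S (h1Van_of_cocycles A S h1)
    (fun p => ((Fb ((p.1 : G ⧸ S), (p.2 : G ⧸ S)) : A.quotientToInvariants S) : A)) x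
    hx
    ((Fb (1, 1) : A.quotientToInvariants S) : A)
    (fun n hn => (Fb (1, 1)).2 ⟨n, hn⟩)
    (fun n hn g => by
      show ((Fb (((n : G) : G ⧸ S), (g : G ⧸ S)) : A.quotientToInvariants S) : A) = _
      rw [hone n hn, cocycles₂_map_one_fst])
    (fun n hn g => by
      show ((Fb ((g : G ⧸ S), ((n : G) : G ⧸ S)) : A.quotientToInvariants S) : A) = _
      rw [hone n hn, cocycles₂_map_one_snd]
      rfl)
  let ybar : G ⧸ S → A.quotientToInvariants S := fun a => ⟨y a.out, fun n => hy2 _ n n.2⟩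
  have hybar : ∀ g : G, ((ybar (g : G ⧸ S) : A.quotientToInvariants S) : A) = y g := by
    intro g
    obtain ⟨n, hn⟩ := QuotientGroup.mk_out_eq_mul S g
    show y (g : G ⧸ S).out = y g
    rw [hn, hy1 _ n n.2]
  refine ⟨ybar, ?_⟩
  funext p
  obtain ⟨a, b⟩ := p
  induction a using QuotientGroup.induction_on with | H g =>
  induction b using QuotientGroup.induction_on with | H h =>
  apply Subtype.ext
  rw [d₁₂_hom_apply]
  have e := hdy g h
  show A.ρ g (ybar (h : G ⧸ S) : A) - (ybar ((g : G ⧸ S) * (h : G ⧸ S)) : A) + (ybar (g : G ⧸ S) : A) =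
    ((Fb ((g : G ⧸ S), (h : G ⧸ S)) : A.quotientToInvariants S) : A)
  rw [← QuotientGroup.mk_mul, hybar, hybar, hybar]
  exact e.symm

/-- **Inflation–restriction in degree 2, exactness** (cocycle form of the hypothesis). -/
theorem exists_inf_eq_of_res_eq_zero_of_cocycles
    (h1 : ∀ c : cocycles₁ (res S.subtype A), ⇑c ∈ coboundaries₁ (res S.subtype A))
    (x : groupCohomology A 2) (hx : resTwo A S x = 0) :
    ∃ y : groupCohomology (A.quotientToInvariants S) 2, infTwo A S y = x := by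
  induction x using H2_induction_on with | @h F =>
  rw [H2π_comp_map_apply, H2π_eq_zero_iff] at hx
  obtain ⟨u, hu⟩ := hx
  obtain ⟨Fb, x, hFb⟩ := exists_cocycle_inflated A S h1 F u
    (fun n m => (congrFun hu (n, m)).symm)
  refine ⟨H2π _ Fb, ?_⟩
  rw [H2π_comp_map_apply, H2π_eq_iff]
  refine ⟨x, ?_⟩
  funext p
  obtain ⟨g, h⟩ := p
  have e := hFb g h
  show (d₁₂ A).hom x (g, h) = (Fb ((g : G ⧸ S), (h : G ⧸ S)) : A) - F (g, h)
  rw [e, d₁₂_hom_apply]
  abel

/-- **Inflation–restriction in degree 2, injectivity of inflation** (cocycle form of the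
hypothesis). -/
theorem infTwo_injective_of_cocycles
    (h1 : ∀ c : cocycles₁ (res S.subtype A), ⇑c ∈ coboundaries₁ (res S.subtype A)) :
    Function.Injective (infTwo A S) := by
  rw [injective_iff_map_eq_zero]
  intro y hy
  induction y using H2_induction_on with | @h Fb =>
  rw [H2π_comp_map_apply, H2π_eq_zero_iff] at hy
  obtain ⟨x, hx⟩ := hy
  rw [H2π_eq_zero_iff]
  exact exists_cochain_descended A S h1 Fb x (fun g h => (congrFun hx (g, h)).symm)

/-- Restriction after inflation is zero in degree 2. -/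
theorem resTwo_infTwo_apply (y : groupCohomology (A.quotientToInvariants S) 2) :
    resTwo A S (infTwo A S y) = 0 := by
  induction y using H2_induction_on with | @h Fb =>
  rw [H2π_comp_map_apply, H2π_comp_map_apply, H2π_eq_zero_iff]
  refine ⟨fun _ => ((Fb (1, 1) : A.quotientToInvariants S) : A), ?_⟩
  funext p
  obtain ⟨n, m⟩ := p
  rw [d₁₂_hom_apply]
  have hn : (((n : G) : G ⧸ S)) = 1 := (QuotientGroup.eq_one_iff (n : G)).2 n.2
  show A.ρ n ((Fb (1, 1) : A.quotientToInvariants S) : A) - (Fb (1, 1) : A.quotientToInvariants S)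
      + (Fb (1, 1) : A.quotientToInvariants S) =
    ((Fb ((((n : G) : G ⧸ S)), (((m : G) : G ⧸ S))) : A.quotientToInvariants S) : A)
  have e : A.ρ n ((Fb (1, 1) : A.quotientToInvariants S) : A) = (Fb (1, 1) : A.quotientToInvariants S) :=
    (Fb (1, 1)).2 n
  rw [hn, cocycles₂_map_one_fst Fb (((m : G) : G ⧸ S)), e]
  abel

theorem infTwo_comp_resTwo : infTwo A S ≫ resTwo A S = 0 :=
  ModuleCat.hom_ext (LinearMap.ext fun y => resTwo_infTwo_apply A S y)

/-- The short complex `H²(G ⧸ S, A^S) ⟶ H²(G, A) ⟶ H²(S, A)` (inflation, then restriction). -/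
@[simps X₁ X₂ X₃ f g]
noncomputable def H2InfRes : ShortComplex (ModuleCat k) where
  X₁ := groupCohomology (A.quotientToInvariants S) 2
  X₂ := groupCohomology A 2
  X₃ := groupCohomology (res S.subtype A) 2
  f := infTwo A S
  g := resTwo A S
  zero := infTwo_comp_resTwo A S

theorem H2InfRes_f_injective_of_cocycles
    (h1 : ∀ c : cocycles₁ (res S.subtype A), ⇑c ∈ coboundaries₁ (res S.subtype A)) :
    Function.Injective (H2InfRes A S).f :=
  infTwo_injective_of_cocycles A S h1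

theorem H2InfRes_mono_of_cocycles
    (h1 : ∀ c : cocycles₁ (res S.subtype A), ⇑c ∈ coboundaries₁ (res S.subtype A)) :
    Mono (H2InfRes A S).f :=
  (ModuleCat.mono_iff_injective _).2 (infTwo_injective_of_cocycles A S h1)

theorem H2InfRes_exact_of_cocycles
    (h1 : ∀ c : cocycles₁ (res S.subtype A), ⇑c ∈ coboundaries₁ (res S.subtype A)) :
    (H2InfRes A S).Exact := by
  rw [ShortComplex.moduleCat_exact_iff_ker_sub_range]
  intro x hx
  exact exists_inf_eq_of_res_eq_zero_of_cocycles A S h1 x hx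

/-! ### `Subsingleton` form of the hypothesis -/

theorem H2InfRes_f_injective (h1 : Subsingleton (groupCohomology (res S.subtype A) 1)) :
    Function.Injective (H2InfRes A S).f :=
  infTwo_injective_of_cocycles A S (cocycles_of_subsingleton A S h1)

theorem H2InfRes_mono (h1 : Subsingleton (groupCohomology (res S.subtype A) 1)) :
    Mono (H2InfRes A S).f :=
  H2InfRes_mono_of_cocycles A S (cocycles_of_subsingleton A S h1)

theorem H2InfRes_exact (h1 : Subsingleton (groupCohomology (res S.subtype A) 1)) :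
    (H2InfRes A S).Exact :=
  H2InfRes_exact_of_cocycles A S (cocycles_of_subsingleton A S h1)

/-- Elementwise form of exactness. -/
theorem exists_inf_eq_of_res_eq_zero (h1 : Subsingleton (groupCohomology (res S.subtype A) 1))
    (x : groupCohomology A 2) (hx : map S.subtype (𝟙 (res S.subtype A)) 2 x = 0) :
    ∃ y : groupCohomology (A.quotientToInvariants S) 2,
      map (QuotientGroup.mk' S) (ofHom <| A.ρ.quotientToInvariants_lift S) 2 y = x :=
  exists_inf_eq_of_res_eq_zero_of_cocycles A S (cocycles_of_subsingleton A S h1) x hx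

/-! ### `IsZero` form of the hypothesis -/

theorem H2InfRes_f_injective_of_isZero
    (h1 : Limits.IsZero (groupCohomology (res S.subtype A) 1)) :
    Function.Injective (H2InfRes A S).f :=
  H2InfRes_f_injective A S (ModuleCat.subsingleton_of_isZero h1)

theorem H2InfRes_mono_of_isZero (h1 : Limits.IsZero (groupCohomology (res S.subtype A) 1)) :
    Mono (H2InfRes A S).f :=
  H2InfRes_mono A S (ModuleCat.subsingleton_of_isZero h1)

theorem H2InfRes_exact_of_isZero (h1 : Limits.IsZero (groupCohomology (res S.subtype A) 1)) :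
    (H2InfRes A S).Exact :=
  H2InfRes_exact A S (ModuleCat.subsingleton_of_isZero h1)

theorem exists_inf_eq_of_res_eq_zero_of_isZero
    (h1 : Limits.IsZero (groupCohomology (res S.subtype A) 1))
    (x : groupCohomology A 2) (hx : map S.subtype (𝟙 (res S.subtype A)) 2 x = 0) :
    ∃ y : groupCohomology (A.quotientToInvariants S) 2,
      map (QuotientGroup.mk' S) (ofHom <| A.ρ.quotientToInvariants_lift S) 2 y = x :=
  exists_inf_eq_of_res_eq_zero A S (ModuleCat.subsingleton_of_isZero h1) x hx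

end Fermat.Agent.CFT.Coh
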