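import Fermat.Agent.CFT.Coh.Defs
import Fermat.Agent.CFT.Coh.ResCores

/-!
# CFT / Coh : `ShapiroExplicit` and `ResKer` in the vocabulary of `Coh/Defs.lean` (universe `0`)

Bridge from the universe-polymorphic development `Coh/ResCores.lean` to the definitions
`Coh.coindEval`, `Coh.shapiroMap`, `Coh.rest` of `Coh/Defs.lean`.  The theorems
`shapiroExplicit_holds` and `resKer_holds` have, verbatim, the bodies of the props
`Plan.ShapiroExplicit` and `Plan.ResKer` of `Coh/Plan.lean`.  Everything lives in the namespace
`Fermat.Agent.CFT.Coh.ResCores`.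
-/

set_option autoImplicit false

namespace Fermat.Agent.CFT.Coh.ResCores

open CategoryTheory groupCohomology

section

variable {k G : Type} [CommRing k] [Group G]

/-- The evaluation map of `Coh/Defs.lean` is the one of `Coh/ResCores.lean`. -/
lemma defs_coindEval_eq (S : Subgroup G) (B : Rep.{0} k S) :
    Coh.coindEval S B = coindEval S B := by
  ext x
  rfl

lemma defs_coindEval_hom_apply (S : Subgroup G) (B : Rep.{0} k S)
    (x : Rep.coind S.subtype B) : (Coh.coindEval S B).hom x = x.1 1 := rfl

/-- The Shapiro map of `Coh/Defs.lean` is the one of `Coh/ResCores.lean`. -/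
lemma defs_shapiroMap_eq (S : Subgroup G) (B : Rep.{0} k S) (n : ℕ) :
    Coh.shapiroMap S B n = shapiroMap S B n := by
  rw [Coh.shapiroMap, shapiroMap, defs_coindEval_eq]

lemma defs_shapiroMap_bijective (S : Subgroup G) (B : Rep.{0} k S) (n : ℕ) :
    Function.Bijective (Coh.shapiroMap S B n).hom := by
  rw [defs_shapiroMap_eq]
  exact shapiroMap_bijective S B n

/-- `Coh.rest` is `ResCores.resMap` (by definition). -/
lemma defs_rest_eq (A : Rep.{0} k G) (S : Subgroup G) (n : ℕ) :
    Coh.rest A S n = resMap S A n := rfl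

end

/-- Verbatim body of `Plan.ShapiroExplicit`. -/
theorem shapiroExplicit_holds :
    ∀ (k G : Type) [CommRing k] [Group G] (S : Subgroup G) (B : Rep.{0} k S) (n : ℕ),
      IsIso (Coh.shapiroMap S B n) := by
  intro k G _ _ S B n
  rw [defs_shapiroMap_eq]
  infer_instance

/-- Verbatim body of `Plan.ResKer`. -/
theorem resKer_holds :
    ∀ (k G : Type) [CommRing k] [Group G] (A : Rep.{0} k G) (S : Subgroup G) [S.FiniteIndex]
      (n : ℕ) (x : groupCohomology A n), (Coh.rest A S n).hom x = 0 → S.index • x = 0 := by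
  intro k G _ _ A S _ n x hx
  exact index_nsmul_eq_zero_of_resMap_eq_zero S A n x hx

end Fermat.Agent.CFT.Coh.ResCores
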