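import Fermat.Agent.CFT.Coh.Defs

/-!
# CFT program, layer Coh: interface statements (Prop-defs)

Every statement of the finite-group-cohomology layer is a `def Name : Prop`.  Providers prove
`theorem name : Plan.Name` in their own file; consumers take `(h : Plan.Name)` as a hypothesis.
-/

set_option autoImplicit false

namespace Fermat.Agent.CFT.Coh.Plan

open CategoryTheory groupCohomology Fermat.Agent.CFT.Coh

/-! ## [CyclicLow] -/

/-- `H¹` of a finite cyclic group `G = ⟨g⟩`: a cocycle `c` is determined by `c g`, which is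
killed by the norm; every element killed by the norm occurs; `c` is a coboundary iff
`c g ∈ (ρ(g) - 1) A`. -/
def CyclicH1 : Prop :=
  ∀ (k G : Type) [CommRing k] [Group G] [Fintype G] (g : G),
    (∀ x, x ∈ Subgroup.zpowers g) → ∀ A : Rep.{0} k G,
    (∀ c ∈ cocycles₁ A, A.ρ.norm (c g) = 0 ∧ c = cyc₁ g A (c g)) ∧
    (∀ a : A.V, A.ρ.norm a = 0 → cyc₁ g A a ∈ cocycles₁ A ∧ cyc₁ g A a g = a) ∧
    (∀ c ∈ cocycles₁ A, c ∈ coboundaries₁ A ↔ ∃ b : A.V, A.ρ g b - b = c g)

/-- `H²` of a finite cyclic group `G = ⟨g⟩`: `a ↦ [cyc₂ a]` is a surjection from the invariants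
onto `H²` with kernel the norms. -/
def CyclicH2 : Prop :=
  ∀ (k G : Type) [CommRing k] [Group G] [Fintype G] (g : G),
    (∀ x, x ∈ Subgroup.zpowers g) → ∀ A : Rep.{0} k G,
    (∀ a : A.V, A.ρ g a = a → cyc₂ g A a ∈ cocycles₂ A) ∧
    (∀ c ∈ cocycles₂ A, ∃ a : A.V, A.ρ g a = a ∧ c - cyc₂ g A a ∈ coboundaries₂ A) ∧
    (∀ a : A.V, A.ρ g a = a → (cyc₂ g A a ∈ coboundaries₂ A ↔ ∃ b : A.V, A.ρ.norm b = a))

/-! ## [InfRes2] -/

/-- Inflation-restriction in degree `2`: if `H¹(S, A) = 0` then
`0 → H²(G ⧸ S, A^S) → H²(G, A) → H²(S, A)` is exact. -/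
def InfRes2 : Prop :=
  ∀ (k G : Type) [CommRing k] [Group G] (A : Rep.{0} k G) (S : Subgroup G) [S.Normal],
    Limits.IsZero (groupCohomology (Rep.res S.subtype A) 1) →
    Function.Injective (infl A S 2).hom ∧
    (∀ y, (rest A S 2).hom ((infl A S 2).hom y) = 0) ∧
    (∀ x, (rest A S 2).hom x = 0 → ∃ y, (infl A S 2).hom y = x)

/-! ## [ResKer] and [ShapiroExplicit] -/

/-- The kernel of restriction to a subgroup of finite index is killed by the index. -/
def ResKer : Prop :=
  ∀ (k G : Type) [CommRing k] [Group G] (A : Rep.{0} k G) (S : Subgroup G) [S.FiniteIndex] (n : ℕ)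
    (x : groupCohomology A n), (rest A S n).hom x = 0 → S.index • x = 0

/-- Shapiro's lemma with the explicit map: evaluation at `1` induces an isomorphism
`Hⁿ(G, coind B) ≅ Hⁿ(S, B)`. -/
def ShapiroExplicit : Prop :=
  ∀ (k G : Type) [CommRing k] [Group G] (S : Subgroup G) (B : Rep.{0} k S) (n : ℕ),
    IsIso (shapiroMap S B n)

/-! ## [H2Order] -/

/-- The counting induction of class field theory: if `H¹ = 0` and `|H²| ≤ p` for all
subquotients of prime order `p` (with the invariants as coefficients), then `H¹(H, A) = 0` and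
`|H²(H, A)|` divides `|H|` for all subgroups `H`. -/
def H2Order : Prop :=
  ∀ (G : Type) [Group G] [Fintype G] (A : Rep.{0} ℤ G),
    (∀ (H : Subgroup G) (N : Subgroup H) [N.Normal], (Nat.card (H ⧸ N)).Prime →
      Limits.IsZero (groupCohomology ((Rep.res H.subtype A).quotientToInvariants N) 1) ∧
      Finite (groupCohomology ((Rep.res H.subtype A).quotientToInvariants N) 2) ∧
      Nat.card (groupCohomology ((Rep.res H.subtype A).quotientToInvariants N) 2) ≤
        Nat.card (H ⧸ N)) →
    ∀ H : Subgroup G,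
      Limits.IsZero (groupCohomology (Rep.res H.subtype A) 1) ∧
      Finite (groupCohomology (Rep.res H.subtype A) 2) ∧
      Nat.card (groupCohomology (Rep.res H.subtype A) 2) ∣ Nat.card H

end Fermat.Agent.CFT.Coh.Plan
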