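import Mathlib
import Fermat.Agent.CFT.Coh.Defs
import Fermat.Agent.CFT.Coh.Plan

/-!
# CFT program, layer Coh: the counting induction `[H2Order]`

`h2Order : Plan.InfRes2 → Plan.ResKer → Plan.H2Order` (hypothesis form): if `H¹ = 0` and
`|H²| ≤ p` for all subquotients of prime order `p` of a finite group `G` (with the invariants as
coefficients), then `H¹(H, A) = 0` and `|H²(H, A)|` divides `|H|` for all subgroups `H ≤ G`.

The proof is a strong induction on `|H|`.  The reusable steps are stated for an arbitrary
coefficient ring `k` and an arbitrary finite group: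

* `Concl B` : the conclusion `H¹(H, B) = 0 ∧ H²(H, B) finite ∧ |H²(H, B)| ∣ |H|`;
* `card_smul_eq_zero` : `Hⁿ⁺¹(H, B)` is killed by `|H|` (from `Plan.ResKer`);
* `concl_of_prime_index` : the step along a normal subgroup of prime index
  (from `Plan.InfRes2`, `Plan.ResKer` and Mathlib's inflation-restriction sequence in degree `1`);
* `eq_zero_of_rest_sylow_eq_zero` : a class restricting to `0` on a Sylow `p`-subgroup for every
  prime `p` is `0` (from `Plan.ResKer`);
* `concl_of_sylow` : assembly of `Concl` from the Sylow subgroups;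
* `Concl.of_equiv`, `Concl.of_map` : transport along isomorphisms.

The abstract counting lemmas for abelian groups are `finite_and_card_dvd_of_exact`,
`card_dvd_prime_of_smul_eq_zero` and `finite_and_card_dvd_of_pi_injective`.
-/

set_option autoImplicit false

namespace Fermat.Agent.CFT.Coh.H2Order

open CategoryTheory groupCohomology Fermat.Agent.CFT.Coh

/-! ## Abstract counting lemmas for abelian groups -/

/-- Counting in a left exact sequence `0 → I → M → R` of abelian groups. -/
theorem finite_and_card_dvd_of_exact {I M R : Type} [AddCommGroup I] [AddCommGroup M]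
    [AddCommGroup R] [Finite I] [Finite R] (f : I →+ M) (g : M →+ R)
    (hf : Function.Injective f) (hfg : ∀ y, g (f y) = 0)
    (hex : ∀ x, g x = 0 → ∃ y, f y = x) :
    Finite M ∧ Nat.card M ∣ Nat.card I * Nat.card R := by
  have e1 : I ≃ g.ker :=
    Equiv.ofBijective (fun y => ⟨f y, by simp [AddMonoidHom.mem_ker, hfg]⟩)
      ⟨fun a b h => hf (by simpa using congrArg Subtype.val h),
        fun ⟨x, hx⟩ => by
          obtain ⟨y, hy⟩ := hex x (by simpa [AddMonoidHom.mem_ker] using hx)
          exact ⟨y, Subtype.ext hy⟩⟩
  have h1 : Nat.card g.ker = Nat.card I := (Nat.card_congr e1).symm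
  have h2 : Nat.card (M ⧸ g.ker) = Nat.card g.range :=
    Nat.card_congr (QuotientAddGroup.quotientKerEquivRange g).toEquiv
  have h3 : Nat.card g.range ∣ Nat.card R := AddSubgroup.card_addSubgroup_dvd_card _
  have h4 : Nat.card M = Nat.card (M ⧸ g.ker) * Nat.card g.ker :=
    AddSubgroup.card_eq_card_quotient_mul_card_addSubgroup _
  have h5 : Nat.card M = Nat.card g.range * Nat.card I := by rw [h4, h2, h1]
  refine ⟨?_, ?_⟩
  · apply Nat.finite_of_card_ne_zero
    rw [h5]
    exact Nat.mul_ne_zero Nat.card_pos.ne' Nat.card_pos.ne'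
  · rw [h5, mul_comm]
    exact Nat.mul_dvd_mul_left _ h3

/-- A finite abelian group killed by a prime `p` and of order at most `p` has order dividing
`p`. -/
theorem card_dvd_prime_of_smul_eq_zero {I : Type} [AddCommGroup I] [Finite I] {p : ℕ}
    (hp : p.Prime) (hkill : ∀ x : I, p • x = 0) (hle : Nat.card I ≤ p) : Nat.card I ∣ p := by
  have : Fact p.Prime := ⟨hp⟩
  have hpg : IsPGroup p (Multiplicative I) := by
    intro g
    refine ⟨1, ?_⟩
    rw [pow_one]
    exact congrArg Multiplicative.ofAdd (hkill g.toAdd)
  obtain ⟨n, hn⟩ := (IsPGroup.iff_card (p := p) (G := Multiplicative I)).1 hpg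
  have hn' : Nat.card I = p ^ n := by
    rw [← hn]; rfl
  rw [hn'] at hle ⊢
  rcases n with _ | _ | n
  · simp
  · simp
  · exfalso
    have : p ^ 1 < p ^ (n + 1 + 1) := Nat.pow_lt_pow_right hp.one_lt (by omega)
    simp at this
    omega

/-- If a finite family of maps to finite abelian groups is jointly injective, the source is
finite of order dividing the product of the orders. -/
theorem finite_and_card_dvd_of_pi_injective {M : Type} [AddCommGroup M] {ι : Type} [Fintype ι]
    (R : ι → Type) [∀ i, AddCommGroup (R i)] [∀ i, Finite (R i)] (r : ∀ i, M →+ R i)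
    (hinj : ∀ x : M, (∀ i, r i x = 0) → x = 0) :
    Finite M ∧ Nat.card M ∣ ∏ i, Nat.card (R i) := by
  let φ : M →+ (∀ i, R i) := AddMonoidHom.pi r
  have hφ : Function.Injective φ := by
    rw [injective_iff_map_eq_zero]
    intro x hx
    exact hinj x (fun i => congrFun hx i)
  refine ⟨Finite.of_injective φ hφ, ?_⟩
  have := AddSubgroup.card_dvd_of_injective φ hφ
  rwa [Nat.card_pi] at this

/-! ## The conclusion for one group, and its transport -/

section General

variable {k : Type} [CommRing k]

/-- The conclusion of the counting induction for one group: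
`H¹(H, B) = 0`, `H²(H, B)` is finite and `|H²(H, B)|` divides `|H|`. -/
def Concl {H : Type} [Group H] (B : Rep.{0} k H) : Prop :=
  Limits.IsZero (groupCohomology B 1) ∧ Finite (groupCohomology B 2) ∧
    Nat.card (groupCohomology B 2) ∣ Nat.card H

/-- Transport of the conclusion along an isomorphism of groups with a compatible isomorphism of
representations. -/
theorem Concl.of_equiv {H H' : Type} [Group H] [Group H'] {B : Rep.{0} k H} {B' : Rep.{0} k H'}
    (e : H ≃* H') (e' : B.V ≃ₗ[k] B'.V)
    (he : ∀ g, e'.toLinearMap ∘ₗ B.ρ g = B'.ρ (e g) ∘ₗ e'.toLinearMap)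
    (h : Concl B') : Concl B := by
  obtain ⟨h1, h2, h3⟩ := h
  have i1 := groupCohomology.mapIso e e' he 1
  have i2 := groupCohomology.mapIso e e' he 2
  refine ⟨h1.of_iso i1, ?_, ?_⟩
  · exact Finite.of_equiv _ i2.toLinearEquiv.symm.toEquiv
  · rw [Nat.card_congr i2.toLinearEquiv.toEquiv, Nat.card_congr e.toEquiv]
    exact h3

/-- The conclusion for a subgroup of a subgroup, from the conclusion for its image. -/
theorem Concl.of_map {G : Type} [Group G] (A : Rep.{0} k G) (H : Subgroup G) (N : Subgroup H)
    (h : Concl (Rep.res (N.map H.subtype).subtype A)) :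
    Concl (Rep.res N.subtype (Rep.res H.subtype A)) := by
  refine Concl.of_equiv (N.equivMapOfInjective H.subtype H.subtype_injective)
    (LinearEquiv.refl k A.V) ?_ h
  intro g
  rfl

/-- The conclusion holds for the trivial group. -/
theorem concl_of_subsingleton {H : Type} [Group H] [Subsingleton H] (B : Rep.{0} k H) :
    Concl B := by
  have hz1 : Limits.IsZero (groupCohomology B 1) := isZero_groupCohomology_succ_of_subsingleton _ 0
  have hz2 : Limits.IsZero (groupCohomology B 2) := isZero_groupCohomology_succ_of_subsingleton _ 1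
  have := ModuleCat.subsingleton_of_isZero hz2
  refine ⟨hz1, inferInstance, ?_⟩
  rw [Nat.card_unique]
  simp

/-! ## The steps of the induction -/

/-- Positive-degree cohomology of a finite group is killed by the group order. -/
theorem card_smul_eq_zero (h2 : Plan.ResKer) {H : Type} [Group H] [Finite H] (B : Rep.{0} k H)
    (n : ℕ) (x : groupCohomology B (n + 1)) : Nat.card H • x = 0 := by
  have hz : Limits.IsZero (groupCohomology (Rep.res (⊥ : Subgroup H).subtype B) (n + 1)) :=
    isZero_groupCohomology_succ_of_subsingleton _ n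
  have := ModuleCat.subsingleton_of_isZero hz
  have := h2 k H B ⊥ (n + 1) x (Subsingleton.elim _ _)
  rwa [Subgroup.index_bot] at this

/-- The step of the counting induction along a normal subgroup of prime index. -/
theorem concl_of_prime_index (h1 : Plan.InfRes2) (h2 : Plan.ResKer) {H : Type} [Group H]
    [Finite H] (B : Rep.{0} k H) (N : Subgroup H) [N.Normal]
    (hp : (Nat.card (H ⧸ N)).Prime)
    (ha1 : Limits.IsZero (groupCohomology (B.quotientToInvariants N) 1))
    (ha2 : Finite (groupCohomology (B.quotientToInvariants N) 2))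
    (ha3 : Nat.card (groupCohomology (B.quotientToInvariants N) 2) ≤ Nat.card (H ⧸ N))
    (hb : Concl (Rep.res N.subtype B)) : Concl B := by
  obtain ⟨hb1, hb2, hb3⟩ := hb
  refine ⟨?_, ?_⟩
  · exact (H1InfRes_exact B N).isZero_of_both_isZero ha1 hb1
  · obtain ⟨hinj, hzero, hex⟩ := h1 k H B N hb1
    have hkill : ∀ y : groupCohomology (B.quotientToInvariants N) 2,
        Nat.card (H ⧸ N) • y = 0 := fun y => card_smul_eq_zero h2 _ 1 y
    have hdvd := card_dvd_prime_of_smul_eq_zero hp hkill ha3
    obtain ⟨hfin, hcard⟩ := finite_and_card_dvd_of_exact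
      (infl B N 2).hom.toAddMonoidHom (rest B N 2).hom.toAddMonoidHom hinj hzero hex
    refine ⟨hfin, hcard.trans ?_⟩
    rw [Subgroup.card_eq_card_quotient_mul_card_subgroup N]
    exact Nat.mul_dvd_mul hdvd hb3

/-- A cohomology class of a finite group that restricts to zero on a Sylow `p`-subgroup for
every prime `p` is zero. -/
theorem eq_zero_of_rest_sylow_eq_zero (h2 : Plan.ResKer) {H : Type} [Group H] [Finite H]
    (B : Rep.{0} k H) (n : ℕ) (x : groupCohomology B n)
    (hx : ∀ (p : ℕ) [Fact p.Prime], ∃ P : Sylow p H, (rest B (P : Subgroup H) n).hom x = 0) :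
    x = 0 := by
  by_contra hne
  have hfin : ∀ (p : ℕ) [Fact p.Prime],
      ∃ P : Sylow p H, addOrderOf x ∣ (P : Subgroup H).index := by
    intro p _
    obtain ⟨P, hP⟩ := hx p
    exact ⟨P, addOrderOf_dvd_of_nsmul_eq_zero (h2 k H B P n x hP)⟩
  have h1 : addOrderOf x ≠ 1 := by
    rw [Ne, AddMonoid.addOrderOf_eq_one_iff]
    exact hne
  have : Fact (addOrderOf x).minFac.Prime := ⟨Nat.minFac_prime h1⟩
  obtain ⟨P, hP⟩ := hfin (addOrderOf x).minFac
  exact P.not_dvd_index ((Nat.minFac_dvd _).trans hP)

/-- Assembly of the conclusion from the Sylow subgroups. -/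
theorem concl_of_sylow (h2 : Plan.ResKer) {H : Type} [Group H] [Finite H] (B : Rep.{0} k H)
    (hS : ∀ (p : ℕ) [Fact p.Prime] (P : Sylow p H), Concl (Rep.res (P : Subgroup H).subtype B)) :
    Concl B := by
  classical
  refine ⟨?_, ?_⟩
  · rw [ModuleCat.isZero_iff_subsingleton]
    refine ⟨fun x y => ?_⟩
    have hz : ∀ z : groupCohomology B 1, z = 0 := by
      intro z
      refine eq_zero_of_rest_sylow_eq_zero h2 B 1 z (fun p _ => ⟨default, ?_⟩)
      have := ModuleCat.subsingleton_of_isZero (hS p default).1
      exact Subsingleton.elim _ _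
    rw [hz x, hz y]
  · -- the primes dividing the order
    have hT : ∀ p : (Nat.card H).primeFactors, Fact (p : ℕ).Prime :=
      fun p => ⟨Nat.prime_of_mem_primeFactors p.2⟩
    have hRfin : ∀ p : (Nat.card H).primeFactors, Finite (groupCohomology
        (Rep.res ((default : Sylow (p : ℕ) H) : Subgroup H).subtype B) 2) := fun p => by
      have := hT p
      exact (hS p default).2.1
    have hinj : ∀ x : groupCohomology B 2, (∀ p : (Nat.card H).primeFactors,
        (rest B ((default : Sylow (p : ℕ) H) : Subgroup H) 2).hom.toAddMonoidHom x = 0) →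
        x = 0 := by
      intro x hx
      refine eq_zero_of_rest_sylow_eq_zero h2 B 2 x (fun p _ => ⟨default, ?_⟩)
      by_cases hp : p ∈ (Nat.card H).primeFactors
      · exact hx ⟨p, hp⟩
      · have hc := (hS p default).2.2
        have hcard : Nat.card ((default : Sylow p H) : Subgroup H) = 1 := by
          rw [Sylow.card_eq_multiplicity]
          have : (Nat.card H).factorization p = 0 := by
            rw [← Finsupp.notMem_support_iff, Nat.support_factorization]
            exact hp
          rw [this, pow_zero]
        rw [hcard, Nat.dvd_one] at hc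
        have := (hS p default).2.1
        have : Subsingleton
            (groupCohomology (Rep.res ((default : Sylow p H) : Subgroup H).subtype B) 2) :=
          (Nat.card_eq_one_iff_unique.1 hc).1
        exact Subsingleton.elim _ _
    obtain ⟨hfin, hcard⟩ := finite_and_card_dvd_of_pi_injective
      (fun p : (Nat.card H).primeFactors => groupCohomology
        (Rep.res ((default : Sylow (p : ℕ) H) : Subgroup H).subtype B) 2)
      (fun p => (rest B ((default : Sylow (p : ℕ) H) : Subgroup H) 2).hom.toAddMonoidHom) hinj
    refine ⟨hfin, hcard.trans ?_⟩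
    have hprod : ∏ p : (Nat.card H).primeFactors, Nat.card (groupCohomology
        (Rep.res ((default : Sylow (p : ℕ) H) : Subgroup H).subtype B) 2) ∣
        ∏ p : (Nat.card H).primeFactors, (p : ℕ) ^ (Nat.card H).factorization p := by
      refine Finset.prod_dvd_prod_of_dvd _ _ (fun p _ => ?_)
      have := hT p
      have := (hS p default).2.2
      rwa [Sylow.card_eq_multiplicity] at this
    refine hprod.trans ?_
    have hfact := Nat.prod_factorization_pow_eq_self (n := Nat.card H) Nat.card_pos.ne'
    rw [Finsupp.prod, Nat.support_factorization] at hfact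
    rw [Finset.prod_coe_sort (Nat.card H).primeFactors
      (fun p => p ^ (Nat.card H).factorization p), hfact]

end General

/-! ## The counting induction -/

/-- **[H2Order]**, hypothesis form: the counting induction of class field theory. -/
theorem h2Order (h1 : Plan.InfRes2) (h2 : Plan.ResKer) : Plan.H2Order := by
  intro G _ _ A hA
  suffices key : ∀ (m : ℕ) (H : Subgroup G), Nat.card H = m → Concl (Rep.res H.subtype A) from
    fun H => key _ H rfl
  intro m
  induction m using Nat.strong_induction_on with
  | _ m ih =>
  intro H hm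
  have ih' : ∀ H' : Subgroup G, Nat.card H' < Nat.card H → Concl (Rep.res H'.subtype A) :=
    fun H' hlt => ih _ (hm ▸ hlt) H' rfl
  by_cases hone : Nat.card H = 1
  · have : Subsingleton H := (Nat.card_eq_one_iff_unique.1 hone).1
    exact concl_of_subsingleton _
  by_cases hpg : ∃ p : ℕ, p.Prime ∧ ∃ j : ℕ, Nat.card H = p ^ j
  · obtain ⟨p, hp, j, hj⟩ := hpg
    have : Fact p.Prime := ⟨hp⟩
    obtain ⟨j, rfl⟩ : ∃ j', j = j' + 1 := by
      rcases j with _ | j
      · exact absurd (by simpa using hj) hone
      · exact ⟨j, rfl⟩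
    obtain ⟨N, hN⟩ := Sylow.exists_subgroup_card_pow_prime (G := H) p (n := j)
      (by rw [hj]; exact pow_dvd_pow p (Nat.le_succ j))
    have hidx : N.index = p := by
      have := N.card_mul_index
      rw [hN, hj, pow_succ] at this
      exact Nat.eq_of_mul_eq_mul_left (pow_pos hp.pos j) this
    have : N.Normal := Subgroup.normal_of_index_eq_minFac_card
      (by rw [hidx, hj, Nat.Prime.pow_minFac hp (Nat.succ_ne_zero j)])
    have hq : Nat.card (H ⧸ N) = p := by rw [← Subgroup.index_eq_card]; exact hidx
    obtain ⟨ha1, ha2, ha3⟩ := hA H N (hq ▸ hp)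
    refine concl_of_prime_index h1 h2 (Rep.res H.subtype A) N (hq ▸ hp) ha1 ha2 ha3 ?_
    apply Concl.of_map
    apply ih'
    rw [Subgroup.card_map_of_injective H.subtype_injective, hN, hj]
    exact Nat.pow_lt_pow_right hp.one_lt (Nat.lt_succ_self j)
  · refine concl_of_sylow h2 _ (fun p _ P => ?_)
    apply Concl.of_map
    apply ih'
    rw [Subgroup.card_map_of_injective H.subtype_injective]
    have hle : Nat.card (P : Subgroup H) ≤ Nat.card H := Subgroup.card_le_card_group _
    have hne : Nat.card (P : Subgroup H) ≠ Nat.card H := by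
      intro heq
      exact hpg ⟨p, Fact.out, _, heq ▸ P.card_eq_multiplicity⟩
    omega

end Fermat.Agent.CFT.Coh.H2Order
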