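import Fermat.Agent.CFT.Coh.Plan
import Fermat.Agent.CFT.Coh.CyclicPlan
import Fermat.Agent.CFT.Coh.ResCoresPlan
import Fermat.Agent.CFT.Coh.InfRes2
import Fermat.Agent.CFT.Coh.H2Order

/-!
# CFT program, layer Coh: the contracts of `Coh/Plan.lean`, proved

One import for consumers: every `Plan.X` of the Coh layer that is proved on main, under the
name `Provide.x`.

* `cyclicH1`, `cyclicH2`       (helper90, `Coh/Cyclic.lean`, `Coh/CyclicPlan.lean`)
* `infRes2`                    (helper13, `Coh/InfRes2.lean`)
* `resKer`, `shapiroExplicit`  (helper86, `Coh/ResCores.lean`, `Coh/ResCoresPlan.lean`)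
* `h2Order`                    (helper63, `Coh/H2Order.lean`)
-/

set_option autoImplicit false

namespace Fermat.Agent.CFT.Coh.Provide

open CategoryTheory groupCohomology Fermat.Agent.CFT.Coh

theorem cyclicH1 : Plan.CyclicH1 := Fermat.Agent.CFT.Cyclic.cyclicH1_holds

theorem cyclicH2 : Plan.CyclicH2 := Fermat.Agent.CFT.Cyclic.cyclicH2_holds

theorem resKer : Plan.ResKer := ResCores.resKer_holds

theorem shapiroExplicit : Plan.ShapiroExplicit := ResCores.shapiroExplicit_holds

theorem infRes2 : Plan.InfRes2 := fun _ _ _ _ A S _ h1 =>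
  ⟨H2InfRes_f_injective_of_isZero A S h1, resTwo_infTwo_apply A S,
    exists_inf_eq_of_res_eq_zero_of_isZero A S h1⟩

theorem h2Order : Plan.H2Order := H2Order.h2Order infRes2 resKer

end Fermat.Agent.CFT.Coh.Provide
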