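import Mathlib

/-!
# P3 / CFT: dictionary between Mathlib's `H¹`, `H²` and pointwise cocycles

Consumers of Plan props stated with `groupCohomology A n` / `(groupCohomology.functor k G n).map f`
usually need the statement for raw cochains (the form of `Triv.IsClassAt`, `Formation.FinDuality`,
`Glob.LGAbstract`).  This file is that translation, for any `A : Rep k G`:

* `mk₁`, `mk₂` : a pointwise cocycle as an element of `cocycles₁ A`, `cocycles₂ A`;
* `H1π_eq_zero_iff_exists`, `H2π_eq_zero_iff_exists` : a class vanishes iff the cocycle is a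
  pointwise coboundary;
* `isZero_H1_iff`, `isZero_H2_iff` : `Hⁿ(G, A) = 0` in cocycle form;
* `exists_cobound_of_map_injective` (`n = 2`), `exists_cobound_one_of_map_injective` (`n = 1`) :
  injectivity of `Hⁿ(G, A) → Hⁿ(G, B)` in cocycle form, and the converses
  `map_injective_of_forall`, `map_one_injective_of_forall`;
* `exists_zsmul_add_cobound` : "`[σ]` generates `H²`" in cocycle form;
* `zsmul_H2π_eq_zero_iff` : `k • [σ] = 0` in cocycle form;
* `cobound_transport` : transport of `H²`-injectivity (cocycle form) along an equivariant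
  additive bijection.
-/

set_option autoImplicit false

open CategoryTheory groupCohomology

universe u

namespace Fermat.Agent.CFT.H2Dict

variable {k G : Type u} [CommRing k] [Group G]

/-- A pointwise `1`-cocycle as an element of `cocycles₁`. -/
def mk₁ (A : Rep.{u} k G) (c : G → A) (hc : ∀ g h : G, c (g * h) = A.ρ g (c h) + c g) :
    cocycles₁ A :=
  ⟨c, (mem_cocycles₁_iff c).2 hc⟩

@[simp] theorem mk₁_apply (A : Rep.{u} k G) (c : G → A)
    (hc : ∀ g h : G, c (g * h) = A.ρ g (c h) + c g) (g : G) : mk₁ A c hc g = c g := rfl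

/-- A pointwise `2`-cocycle as an element of `cocycles₂`. -/
def mk₂ (A : Rep.{u} k G) (τ : G × G → A)
    (hτ : ∀ g h j : G, τ (g * h, j) + τ (g, h) = A.ρ g (τ (h, j)) + τ (g, h * j)) : cocycles₂ A :=
  ⟨τ, (mem_cocycles₂_iff τ).2 hτ⟩

@[simp] theorem mk₂_apply (A : Rep.{u} k G) (τ : G × G → A)
    (hτ : ∀ g h j : G, τ (g * h, j) + τ (g, h) = A.ρ g (τ (h, j)) + τ (g, h * j)) (x : G × G) :
    mk₂ A τ hτ x = τ x := rfl

theorem cocycle₁_apply (A : Rep.{u} k G) (x : cocycles₁ A) (g h : G) :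
    x (g * h) = A.ρ g (x h) + x g :=
  (mem_cocycles₁_iff (x : G → A)).1 x.2 g h

theorem cocycle₂_apply (A : Rep.{u} k G) (x : cocycles₂ A) (g h j : G) :
    x (g * h, j) + x (g, h) = A.ρ g (x (h, j)) + x (g, h * j) :=
  (mem_cocycles₂_iff (x : G × G → A)).1 x.2 g h j

/-- The class of a `1`-cocycle vanishes iff it is a coboundary, pointwise. -/
theorem H1π_eq_zero_iff_exists (A : Rep.{u} k G) (x : cocycles₁ A) :
    (H1π A).hom x = 0 ↔ ∃ a : A, ∀ g : G, x g = A.ρ g a - a := by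
  rw [H1π_eq_zero_iff]
  constructor
  · rintro ⟨a, ha⟩
    refine ⟨a, fun g => ?_⟩
    have h1 := congrFun ha g
    rw [d₀₁_hom_apply] at h1
    exact h1.symm
  · rintro ⟨a, ha⟩
    refine ⟨a, funext fun g => ?_⟩
    rw [d₀₁_hom_apply]
    exact (ha g).symm

/-- The class of a `2`-cocycle vanishes iff it is a coboundary, pointwise. -/
theorem H2π_eq_zero_iff_exists (A : Rep.{u} k G) (x : cocycles₂ A) :
    (H2π A).hom x = 0 ↔ ∃ b : G → A, ∀ g h : G, x (g, h) = A.ρ g (b h) - b (g * h) + b g := by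
  rw [H2π_eq_zero_iff]
  constructor
  · rintro ⟨b, hb⟩
    refine ⟨b, fun g h => ?_⟩
    have h1 := congrFun hb (g, h)
    rw [d₁₂_hom_apply] at h1
    exact h1.symm
  · rintro ⟨b, hb⟩
    refine ⟨b, funext fun x => ?_⟩
    obtain ⟨g, h⟩ := x
    rw [d₁₂_hom_apply]
    exact (hb g h).symm

/-- `H¹(G, A) = 0` in cocycle form. -/
theorem isZero_H1_iff (A : Rep.{u} k G) :
    Limits.IsZero (groupCohomology A 1) ↔
      ∀ c : G → A, (∀ g h : G, c (g * h) = A.ρ g (c h) + c g) →
        ∃ a : A, ∀ g : G, c g = A.ρ g a - a := by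
  rw [ModuleCat.isZero_iff_subsingleton]
  constructor
  · intro h c hc
    exact (H1π_eq_zero_iff_exists A (mk₁ A c hc)).1 (Subsingleton.elim _ _)
  · intro h
    have h0 : ∀ x : groupCohomology.H1 A, x = 0 := fun x =>
      H1_induction_on (C := fun x => x = 0) x fun c =>
        (H1π_eq_zero_iff_exists A c).2 (h c (cocycle₁_apply A c))
    exact ⟨fun x y => (h0 x).trans (h0 y).symm⟩

/-- `H²(G, A) = 0` in cocycle form. -/
theorem isZero_H2_iff (A : Rep.{u} k G) :
    Limits.IsZero (groupCohomology A 2) ↔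
      ∀ τ : G × G → A,
        (∀ g h j : G, τ (g * h, j) + τ (g, h) = A.ρ g (τ (h, j)) + τ (g, h * j)) →
        ∃ b : G → A, ∀ g h : G, τ (g, h) = A.ρ g (b h) - b (g * h) + b g := by
  rw [ModuleCat.isZero_iff_subsingleton]
  constructor
  · intro h τ hτ
    exact (H2π_eq_zero_iff_exists A (mk₂ A τ hτ)).1 (Subsingleton.elim _ _)
  · intro h
    have h0 : ∀ x : groupCohomology.H2 A, x = 0 := fun x =>
      H2_induction_on (C := fun x => x = 0) x fun c =>
        (H2π_eq_zero_iff_exists A c).2 (h c (cocycle₂_apply A c))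
    exact ⟨fun x y => (h0 x).trans (h0 y).symm⟩

/-- **Injectivity on `H²`, cocycle form.** If `H²(G, A) → H²(G, B)` is injective, a `2`-cocycle of
`A` whose image in `B` is a coboundary is a coboundary. -/
theorem exists_cobound_of_map_injective {A B : Rep.{u} k G} (f : A ⟶ B)
    (hf : Function.Injective ((groupCohomology.functor k G 2).map f).hom)
    (τ : G × G → A)
    (hτ : ∀ g h j : G, τ (g * h, j) + τ (g, h) = A.ρ g (τ (h, j)) + τ (g, h * j))
    (b : G → B) (hb : ∀ g h : G, f.hom (τ (g, h)) = B.ρ g (b h) - b (g * h) + b g) :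
    ∃ a : G → A, ∀ g h : G, τ (g, h) = A.ρ g (a h) - a (g * h) + a g := by
  have h1 : ((groupCohomology.functor k G 2).map f).hom ((H2π A).hom (mk₂ A τ hτ)) = 0 := by
    show (groupCohomology.map (MonoidHom.id G) f 2).hom ((H2π A).hom (mk₂ A τ hτ)) = 0
    rw [H2π_comp_map_apply, H2π_eq_zero_iff_exists]
    exact ⟨b, fun g h => hb g h⟩
  have h2 : (H2π A).hom (mk₂ A τ hτ) = 0 :=
    hf (h1.trans (map_zero ((groupCohomology.functor k G 2).map f).hom).symm)
  exact (H2π_eq_zero_iff_exists A _).1 h2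

/-- Converse of `exists_cobound_of_map_injective`. -/
theorem map_injective_of_forall {A B : Rep.{u} k G} (f : A ⟶ B)
    (h : ∀ τ : G × G → A,
      (∀ g h j : G, τ (g * h, j) + τ (g, h) = A.ρ g (τ (h, j)) + τ (g, h * j)) →
      (∃ b : G → B, ∀ g h : G, f.hom (τ (g, h)) = B.ρ g (b h) - b (g * h) + b g) →
      ∃ a : G → A, ∀ g h : G, τ (g, h) = A.ρ g (a h) - a (g * h) + a g) :
    Function.Injective ((groupCohomology.functor k G 2).map f).hom := by
  rw [injective_iff_map_eq_zero]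
  intro x
  refine H2_induction_on (C := fun x =>
    ((groupCohomology.functor k G 2).map f).hom x = 0 → x = 0) x fun c hc => ?_
  have hc' : (groupCohomology.map (MonoidHom.id G) f 2).hom ((H2π A).hom c) = 0 := hc
  rw [H2π_comp_map_apply, H2π_eq_zero_iff_exists] at hc'
  obtain ⟨b, hb⟩ := hc'
  exact (H2π_eq_zero_iff_exists A c).2 (h c (cocycle₂_apply A c) ⟨b, fun g h => hb g h⟩)

/-- **Injectivity on `H¹`, cocycle form.** -/
theorem exists_cobound_one_of_map_injective {A B : Rep.{u} k G} (f : A ⟶ B)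
    (hf : Function.Injective ((groupCohomology.functor k G 1).map f).hom)
    (c : G → A) (hc : ∀ g h : G, c (g * h) = A.ρ g (c h) + c g)
    (b : B) (hb : ∀ g : G, f.hom (c g) = B.ρ g b - b) :
    ∃ a : A, ∀ g : G, c g = A.ρ g a - a := by
  have h1 : ((groupCohomology.functor k G 1).map f).hom ((H1π A).hom (mk₁ A c hc)) = 0 := by
    show (groupCohomology.map (MonoidHom.id G) f 1).hom ((H1π A).hom (mk₁ A c hc)) = 0
    rw [H1π_comp_map_apply, H1π_eq_zero_iff_exists]
    exact ⟨b, fun g => hb g⟩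
  have h2 : (H1π A).hom (mk₁ A c hc) = 0 :=
    hf (h1.trans (map_zero ((groupCohomology.functor k G 1).map f).hom).symm)
  exact (H1π_eq_zero_iff_exists A _).1 h2

/-- Converse of `exists_cobound_one_of_map_injective`. -/
theorem map_one_injective_of_forall {A B : Rep.{u} k G} (f : A ⟶ B)
    (h : ∀ c : G → A, (∀ g h : G, c (g * h) = A.ρ g (c h) + c g) →
      (∃ b : B, ∀ g : G, f.hom (c g) = B.ρ g b - b) → ∃ a : A, ∀ g : G, c g = A.ρ g a - a) :
    Function.Injective ((groupCohomology.functor k G 1).map f).hom := by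
  rw [injective_iff_map_eq_zero]
  intro x
  refine H1_induction_on (C := fun x =>
    ((groupCohomology.functor k G 1).map f).hom x = 0 → x = 0) x fun c hc => ?_
  have hc' : (groupCohomology.map (MonoidHom.id G) f 1).hom ((H1π A).hom c) = 0 := hc
  rw [H1π_comp_map_apply, H1π_eq_zero_iff_exists] at hc'
  obtain ⟨b, hb⟩ := hc'
  exact (H1π_eq_zero_iff_exists A c).2 (h c (cocycle₁_apply A c) ⟨b, fun g => hb g⟩)

/-- "`[σ]` generates `H²(G, A)`" in cocycle form. -/
theorem exists_zsmul_add_cobound (A : Rep.{u} k G) (σ : cocycles₂ A)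
    (h : ∀ y : groupCohomology.H2 A, ∃ n : ℤ, y = n • (H2π A).hom σ)
    (τ : G × G → A)
    (hτ : ∀ g h j : G, τ (g * h, j) + τ (g, h) = A.ρ g (τ (h, j)) + τ (g, h * j)) :
    ∃ (n : ℤ) (b : G → A), ∀ g h : G,
      τ (g, h) = n • σ (g, h) + (A.ρ g (b h) - b (g * h) + b g) := by
  obtain ⟨n, hn⟩ := h ((H2π A).hom (mk₂ A τ hτ))
  have h1 : (H2π A).hom (mk₂ A τ hτ - n • σ) = 0 := by
    rw [map_sub, map_zsmul, hn, sub_self]
  obtain ⟨b, hb⟩ := (H2π_eq_zero_iff_exists A _).1 h1
  refine ⟨n, b, fun g h => ?_⟩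
  have h2 := hb g h
  have h3 : (mk₂ A τ hτ - n • σ) (g, h) = τ (g, h) - n • σ (g, h) := rfl
  rw [h3] at h2
  rw [← h2]
  abel

/-- `n • [σ] = 0` in cocycle form. -/
theorem zsmul_H2π_eq_zero_iff (A : Rep.{u} k G) (σ : cocycles₂ A) (n : ℤ) :
    n • (H2π A).hom σ = 0 ↔
      ∃ b : G → A, ∀ g h : G, n • σ (g, h) = A.ρ g (b h) - b (g * h) + b g := by
  rw [← map_zsmul, H2π_eq_zero_iff_exists]
  rfl

/-- **Transport of `H²`-injectivity** (cocycle form) along an equivariant additive bijection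
`φ : A ≃ B'`: if `f : A → C'` is injective on `H²` (cocycle form) and `ι ∘ j ∘ φ = f`, then
`j : B' → C` is injective on `H²` (cocycle form). No injectivity of `ι` is needed. -/
theorem cobound_transport {P : Type*} [Group P] {A B' C C' : Type*} [AddCommGroup A]
    [AddCommGroup B'] [AddCommGroup C] [AddCommGroup C']
    (ρA : P → A →+ A) (ρB : P → B' →+ B') (ρC : P → C →+ C) (ρC' : P → C' →+ C')
    (f : A →+ C') (φ : A →+ B') (j : B' →+ C) (ι : C →+ C')
    (hφ : Function.Bijective φ) (hφρ : ∀ g a, φ (ρA g a) = ρB g (φ a))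
    (hι : ∀ g c, ι (ρC g c) = ρC' g (ι c)) (hcomp : ∀ a, ι (j (φ a)) = f a)
    (hf : ∀ u : P × P → A,
      (∀ g h l : P, u (g * h, l) + u (g, h) = ρA g (u (h, l)) + u (g, h * l)) →
      (∃ b : P → C', ∀ g h : P, f (u (g, h)) = ρC' g (b h) - b (g * h) + b g) →
      ∃ a : P → A, ∀ g h : P, u (g, h) = ρA g (a h) - a (g * h) + a g)
    (τ : P × P → B')
    (hτ : ∀ g h l : P, τ (g * h, l) + τ (g, h) = ρB g (τ (h, l)) + τ (g, h * l))
    (b : P → C) (hb : ∀ g h : P, j (τ (g, h)) = ρC g (b h) - b (g * h) + b g) :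
    ∃ a : P → B', ∀ g h : P, τ (g, h) = ρB g (a h) - a (g * h) + a g := by
  obtain ⟨ψ, hψ1, hψ2⟩ := Function.bijective_iff_has_inverse.1 hφ
  -- `hψ1 : LeftInverse ψ φ`, `hψ2 : RightInverse ψ φ`
  have hψadd : ∀ x y, ψ (x + y) = ψ x + ψ y := fun x y => hφ.1 (by
    rw [map_add, hψ2 x, hψ2 y, hψ2 (x + y)])
  have hψρ : ∀ g x, ψ (ρB g x) = ρA g (ψ x) := fun g x => hφ.1 (by
    rw [hφρ, hψ2 x, hψ2 (ρB g x)])
  obtain ⟨a, ha⟩ := hf (fun x => ψ (τ x))
    (fun g h l => by
      show ψ (τ (g * h, l)) + ψ (τ (g, h)) = ρA g (ψ (τ (h, l))) + ψ (τ (g, h * l))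
      rw [← hψadd, hτ, hψadd, hψρ])
    ⟨fun g => ι (b g), fun g h => by
      show f (ψ (τ (g, h))) = _
      rw [← hcomp, hψ2, hb, map_add, map_sub, hι]⟩
  refine ⟨fun g => φ (a g), fun g h => ?_⟩
  have h1 : φ (ψ (τ (g, h))) = φ (ρA g (a h) - a (g * h) + a g) := congrArg φ (ha g h)
  rw [hψ2, map_add, map_sub, hφρ] at h1
  exact h1

end Fermat.Agent.CFT.H2Dict
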