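import Fermat.Agent.CFT.Coh.TateLow

/-!
# Coinduced modules are cohomologically trivial; dimension shifting

* `funRep k H B`: the representation of `H` on all functions `H → B` by right translation
  (`= Coind_1^H B`).
* `isZero_tateCohomology_funRep`: its Tate cohomology vanishes in **all** degrees `n : ℤ`
  (`n ≥ 1`: Shapiro for cohomology; `n ≤ -2`: Shapiro for homology + `Ind ≅ Coind`;
  `n = 0, -1`: by hand via `Coh/TateLow`).
* `resFunRepIso`: for an injective `f : H →* G`, `Res_f (funRep k G V) ≅ funRep k H (G ⧸ f(H) → V)`;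
  hence `isZero_tateCohomology_res_funRep`: `funRep k G V` is cohomologically trivial.
* `shiftIncl A : A ⟶ funRep k G A.V` (mono), `shiftProj A : funRep k G A.V ⟶ A` (epi).
* `shiftStmt_holds`: the dimension-shifting statement consumed by the `Triv` layer.
-/

set_option autoImplicit false

namespace Fermat.Agent.CFT.TateInduced

open CategoryTheory groupCohomology

section funRep

variable (k : Type) [CommRing k] (H : Type) [Group H] (B : Type) [AddCommGroup B] [Module k B]

/-- Right translation on functions `H → B`: `(h • Φ) y = Φ (y * h)`. -/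
def funRepr : Representation k H (H → B) where
  toFun h := LinearMap.funLeft k B (· * h)
  map_one' := by ext Φ y; simp
  map_mul' h₁ h₂ := by ext Φ y; simp [mul_assoc]

@[simp] lemma funRepr_apply (h : H) (Φ : H → B) (y : H) : funRepr k H B h Φ y = Φ (y * h) := rfl

/-- The `H`-representation of all functions `H → B` with right translation (coinduced from the
trivial subgroup). -/
noncomputable abbrev funRep : Rep.{0} k H := Rep.of (funRepr k H B)

section lowDegrees

variable [Fintype H]

open Classical in
theorem funRepr_norm_apply (Φ : H → B) (y : H) :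
    (funRepr k H B).norm Φ y = ∑ z : H, Φ z := by
  rw [Representation.norm, LinearMap.sum_apply, Finset.sum_apply]
  simp only [funRepr_apply]
  exact Fintype.sum_bijective (y * ·) (Group.mulLeft_bijective y) _ _ (fun _ => rfl)

open Classical in
theorem isZero_tate_zero_funRep : Limits.IsZero (tateCohomology (funRep k H B) 0) := by
  rw [TateLow.isZero_tateCohomology_zero_iff]
  intro Φ hΦ
  refine ⟨Pi.single (1 : H) (Φ 1), ?_⟩
  funext y
  have h1 : (funRepr k H B).norm (Pi.single (1 : H) (Φ 1)) y = ∑ z : H, (Pi.single (1 : H) (Φ 1) : H → B) z :=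
    funRepr_norm_apply k H B _ y
  have h2 : Φ y = Φ 1 := by
    have := congrFun (hΦ y) 1
    simpa using this
  show (funRepr k H B).norm (Pi.single (1 : H) (Φ 1)) y = Φ y
  rw [h1, h2]
  simp [Pi.single_apply]

open Classical in
theorem isZero_tate_negOne_funRep : Limits.IsZero (tateCohomology (funRep k H B) (-1)) := by
  rw [TateLow.isZero_tateCohomology_negOne_iff]
  intro Φ hΦ
  have hsum : ∑ z : H, Φ z = 0 := by
    have h1 := funRepr_norm_apply k H B Φ 1
    have h2 : (funRepr k H B).norm Φ = 0 := hΦ
    rw [h2] at h1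
    exact h1.symm
  have key : Φ = ∑ z : H, (funRepr k H B z⁻¹ (Pi.single (1 : H) (Φ z)) - Pi.single (1 : H) (Φ z)) := by
    funext y
    rw [Finset.sum_apply]
    simp only [Pi.sub_apply, funRepr_apply, Pi.single_apply, Finset.sum_sub_distrib]
    have e1 : ∑ z : H, (if y * z⁻¹ = 1 then Φ z else 0) = Φ y := by
      rw [Finset.sum_eq_single y]
      · simp
      · intro z _ hz
        rw [if_neg]
        intro h
        exact hz (by rw [mul_inv_eq_one] at h; exact h.symm)
      · simp
    have e2 : ∑ z : H, (if y = 1 then Φ z else 0) = 0 := by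
      split_ifs
      · exact hsum
      · simp
    rw [e1, e2, sub_zero]
  show Φ ∈ Representation.Coinvariants.ker (funRepr k H B)
  rw [key]
  exact Submodule.sum_mem _ fun z _ => Representation.Coinvariants.sub_mem_ker _ _

end lowDegrees

section shapiro

/-- `funRep` is coinduced from the trivial subgroup. -/
noncomputable def funReprEquivCoind :
    (funRepr k H B).Equiv (Representation.coind (⊥ : Subgroup H).subtype
      (Representation.trivial k (⊥ : Subgroup H) B)) :=
  Representation.Equiv.mk
    { toFun := fun Φ => ⟨Φ, fun g h => by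
        have hg : (g : H) = 1 := Subgroup.mem_bot.1 g.2
        simp [hg]⟩
      map_add' := fun _ _ => rfl
      map_smul' := fun _ _ => rfl
      invFun := fun Ψ => Ψ.1
      left_inv := fun _ => rfl
      right_inv := fun _ => rfl }
    (fun g => by ext Φ y; rfl)

/-- `funRep k H B ≅ Coind_1^H B`. -/
noncomputable def funRepIsoCoind :
    funRep k H B ≅ Rep.coind (⊥ : Subgroup H).subtype (Rep.trivial k (⊥ : Subgroup H) B) :=
  Rep.mkIso (funReprEquivCoind k H B)

theorem isZero_groupCohomology_succ_funRep (m : ℕ) :
    Limits.IsZero (groupCohomology (funRep k H B) (m + 1)) :=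
  (isZero_groupCohomology_succ_of_subsingleton (Rep.trivial k (⊥ : Subgroup H) B) m).of_iso
    ((groupCohomology.functor k H (m + 1)).mapIso (funRepIsoCoind k H B) ≪≫
      groupCohomology.coindIso (Rep.trivial k (⊥ : Subgroup H) B) (m + 1))

open Classical in
theorem isZero_groupHomology_succ_funRep [Finite H] (m : ℕ) :
    Limits.IsZero (groupHomology (funRep k H B) (m + 1)) :=
  (isZero_groupHomology_succ_of_subsingleton
      (Rep.trivial k (⊥ : Subgroup H) B) m).of_iso
    ((groupHomology.functor k H (m + 1)).mapIso (funRepIsoCoind k H B ≪≫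
        (Rep.indCoindIso (Rep.trivial k (⊥ : Subgroup H) B)).symm) ≪≫
      groupHomology.indIso (⊥ : Subgroup H) (Rep.trivial k (⊥ : Subgroup H) B) (m + 1))

end shapiro

/-- **Coinduced modules are Tate-acyclic in all degrees.** -/
theorem isZero_tateCohomology_funRep [Fintype H] (n : ℤ) :
    Limits.IsZero (tateCohomology (funRep k H B) n) := by
  rcases n with (_ | m) | (_ | m)
  · exact isZero_tate_zero_funRep k H B
  · exact (isZero_groupCohomology_succ_funRep k H B m).of_iso
      ((TateCohomology.isoGroupCohomology (R := k) (G := H) (m + 1)).app (funRep k H B))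
  · exact isZero_tate_negOne_funRep k H B
  · exact (isZero_groupHomology_succ_funRep k H B m).of_iso
      ((TateCohomology.isoGroupHomology (R := k) (G := H) (Int.negSucc (m + 1)) (m + 1)
        (by rfl)).app (funRep k H B))

end funRep

section restriction

variable (k : Type) [CommRing k] {G H : Type} [Group G] [Group H] (V : Type) [AddCommGroup V]
  [Module k V] (f : H →* G)

/-- `(h, q) ↦ q.out * f h` -/
noncomputable def transMap (x : H × (G ⧸ f.range)) : G := x.2.out * f x.1

theorem transMap_bijective (hf : Function.Injective f) : Function.Bijective (transMap f) := by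
  constructor
  · rintro ⟨h, q⟩ ⟨h', q'⟩ hx
    have hx' : q.out * f h = q'.out * f h' := hx
    have h1 : (QuotientGroup.mk (q.out * f h) : G ⧸ f.range) = q := by
      rw [QuotientGroup.mk_mul_of_mem _ (⟨h, rfl⟩ : f h ∈ f.range), QuotientGroup.out_eq']
    have h2 : (QuotientGroup.mk (q'.out * f h') : G ⧸ f.range) = q' := by
      rw [QuotientGroup.mk_mul_of_mem _ (⟨h', rfl⟩ : f h' ∈ f.range), QuotientGroup.out_eq']
    have hq : q = q' := by rw [← h1, ← h2, hx']
    subst hq
    have : f h = f h' := mul_left_cancel hx'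
    rw [hf this]
  · intro g
    have h1 : ((QuotientGroup.mk g : G ⧸ f.range).out)⁻¹ * g ∈ f.range := by
      rw [← QuotientGroup.eq, QuotientGroup.out_eq']
    obtain ⟨h, hh⟩ := h1
    refine ⟨(h, QuotientGroup.mk g), ?_⟩
    show (QuotientGroup.mk g : G ⧸ f.range).out * f h = g
    rw [hh, mul_inv_cancel_left]

/-- The bijection `H × (G ⧸ f(H)) ≃ G`. -/
noncomputable def transEquiv (hf : Function.Injective f) : H × (G ⧸ f.range) ≃ G :=
  Equiv.ofBijective (transMap f) (transMap_bijective f hf)

theorem transEquiv_apply (hf : Function.Injective f) (h : H) (q : G ⧸ f.range) :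
    transEquiv f hf (h, q) = q.out * f h := rfl

/-- Restriction of a coinduced module along an injective homomorphism is coinduced. -/
noncomputable def resFunReprEquiv (hf : Function.Injective f) :
    Representation.Equiv ((funRepr k G V).comp f : Representation k H (G → V))
      (funRepr k H ((G ⧸ f.range) → V)) :=
  Representation.Equiv.mk
    ((LinearEquiv.funCongrLeft k V (transEquiv f hf)).trans
      (LinearEquiv.curry k V H (G ⧸ f.range)))
    (fun h' => by
      ext F h q
      show F (transEquiv f hf (h, q) * f h') = F (transEquiv f hf (h * h', q))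
      rw [transEquiv_apply, transEquiv_apply, map_mul, mul_assoc])

/-- `Res_f (funRep k G V) ≅ funRep k H (G ⧸ f(H) → V)` for injective `f : H →* G`. -/
noncomputable def resFunRepIso (hf : Function.Injective f) :
    Rep.res f (funRep k G V) ≅ funRep k H ((G ⧸ f.range) → V) :=
  Rep.mkIso (resFunReprEquiv k V f hf)

/-- `funRep k G V` is cohomologically trivial: all Tate groups of all its restrictions along
injective homomorphisms from finite groups vanish. -/
theorem isZero_tateCohomology_res_funRep [Fintype H] (hf : Function.Injective f) (n : ℤ) :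
    Limits.IsZero (tateCohomology (Rep.res f (funRep k G V)) n) :=
  (isZero_tateCohomology_funRep k H ((G ⧸ f.range) → V) n).of_iso
    ((tateCohomologyFunctor n).mapIso (resFunRepIso k V f hf))

end restriction

section shift

set_option linter.unusedSectionVars false

variable {k : Type} [CommRing k] {G : Type} [Group G] [Fintype G] (A : Rep.{0} k G)

/-- The embedding `A ⟶ Fun(G, A)`, `a ↦ (x ↦ x • a)`. -/
noncomputable def shiftIncl : A ⟶ funRep k G A.V :=
  Rep.ofHom (ρ := A.ρ) (σ := funRepr k G A.V)
    ⟨LinearMap.pi fun x => (A.ρ x : A.V →ₗ[k] A.V), fun g => by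
      ext a x
      show A.ρ x (A.ρ g a) = A.ρ (x * g) a
      rw [map_mul, Module.End.mul_apply]⟩

/-- The projection `Fun(G, A) ⟶ A`, `F ↦ ∑ x, x⁻¹ • F x`. -/
noncomputable def shiftProj : funRep k G A.V ⟶ A :=
  Rep.ofHom (ρ := funRepr k G A.V) (σ := A.ρ)
    ⟨∑ x : G, (A.ρ x⁻¹ : A.V →ₗ[k] A.V) ∘ₗ LinearMap.proj x, fun g => by
      ext F
      show (∑ x : G, (A.ρ x⁻¹ : A.V →ₗ[k] A.V) ∘ₗ LinearMap.proj x) (funRepr k G A.V g F) =
        A.ρ g ((∑ x : G, (A.ρ x⁻¹ : A.V →ₗ[k] A.V) ∘ₗ LinearMap.proj x) F)
      simp only [LinearMap.sum_apply, LinearMap.comp_apply, LinearMap.proj_apply, funRepr_apply,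
        map_sum]
      refine Fintype.sum_equiv (Equiv.mulRight g) _ _ fun x => ?_
      show A.ρ x⁻¹ (F (x * g)) = A.ρ g (A.ρ (x * g)⁻¹ (F (x * g)))
      rw [← Module.End.mul_apply, ← map_mul, mul_inv_rev, mul_inv_cancel_left]⟩

theorem shiftIncl_apply (a : A.V) (x : G) : (shiftIncl A).hom a x = A.ρ x a := rfl

theorem shiftProj_apply (F : G → A.V) : (shiftProj A).hom F = ∑ x : G, A.ρ x⁻¹ (F x) := by
  show (∑ x : G, (A.ρ x⁻¹ : A.V →ₗ[k] A.V) ∘ₗ LinearMap.proj x) F = _
  simp [LinearMap.sum_apply]

instance : Mono (shiftIncl A) := by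
  rw [Rep.mono_iff_injective]
  intro a b hab
  have h1 := congrFun hab 1
  rw [shiftIncl_apply, shiftIncl_apply, map_one, Module.End.one_apply, Module.End.one_apply] at h1
  exact h1

open Classical in
instance : Epi (shiftProj A) := by
  rw [Rep.epi_iff_surjective]
  intro a
  refine ⟨Pi.single (1 : G) a, ?_⟩
  rw [shiftProj_apply, Finset.sum_eq_single (1 : G)]
  · simp
  · intro x _ hx
    rw [Pi.single_eq_of_ne hx, map_zero]
  · simp

end shift

/-- **Dimension shifting**: every representation of a finite group embeds into, and is a quotient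
of, a cohomologically trivial module (killed by `m` if `A` is). -/
theorem shiftStmt_holds' (k : Type) [CommRing k] :
    ∀ (G : Type) [Group G] [Fintype G] (A : Rep.{0} k G),
      ∃ (I : Rep.{0} k G) (i : A ⟶ I) (π : I ⟶ A), Mono i ∧ Epi π ∧
        (∀ (H : Type) [Group H] [Fintype H] (f : H →* G), Function.Injective f →
          ∀ n : ℤ, Limits.IsZero (tateCohomology (Rep.res f I) n)) ∧
        ∀ m : ℕ, (∀ a : A, m • a = 0) → ∀ x : I, m • x = 0 := by
  intro G _ _ A
  refine ⟨funRep k G A.V, shiftIncl A, shiftProj A, inferInstance, inferInstance,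
    fun H _ _ f hf n => isZero_tateCohomology_res_funRep k A.V f hf n, fun m hm x => ?_⟩
  funext y
  exact hm (x y)

/-- The body of helper80's `ShiftStmt` (`k = ℤ`). -/
theorem shiftStmt_holds :
    ∀ (G : Type) [Group G] [Fintype G] (A : Rep ℤ G),
      ∃ (I : Rep ℤ G) (i : A ⟶ I) (π : I ⟶ A), Mono i ∧ Epi π ∧
        (∀ (H : Type) [Group H] [Fintype H] (f : H →* G), Function.Injective f →
          ∀ n : ℤ, Limits.IsZero (tateCohomology (Rep.res f I) n)) ∧
        ∀ m : ℕ, (∀ a : A, m • a = 0) → ∀ x : I, m • x = 0 :=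
  shiftStmt_holds' ℤ

end Fermat.Agent.CFT.TateInduced
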