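import Fermat.Agent.CFT.Coh.Defs

/-!
# Tate cohomology in degrees `0` and `-1`, explicitly

For a finite group `G` and `A : Rep k G`, Mathlib's `tateCohomology A n` is the homology of the
Tate complex.  We identify the two middle groups with the explicit quotients of `Coh/Defs`:

* `tateZeroIso A : tateCohomology A 0 ≅ ModuleCat.of k (TateZero A)` (`= A^G / N A`);
* `tateNegOneIso A : tateCohomology A (-1) ≅ ModuleCat.of k (TateNegOne A)` (`= ker N / I_G A`);
* `tateZeroMk`, `tateNegOneMk`: the class maps, surjective with the expected kernels;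
* `isZero_tateCohomology_zero_iff`, `isZero_tateCohomology_negOne_iff`: vanishing criteria;
* `card_tateCohomology_zero`, `card_tateCohomology_negOne`.
-/

set_option autoImplicit false

namespace Fermat.Agent.CFT.TateLow

open CategoryTheory groupCohomology groupHomology Fermat.Agent.CFT.Coh

variable {k G : Type} [CommRing k] [Group G] [Fintype G] (A : Rep.{0} k G)

/-- `A --N--> A --d₀₁--> (G → A)` -/
noncomputable def scZero : ShortComplex (ModuleCat k) :=
  ShortComplex.mk A.norm.toModuleCatHom (d₀₁ A) (Rep.norm_comp_d_eq_zero A)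

/-- `(G →₀ A) --d₁₀--> A --N--> A` -/
noncomputable def scNegOne : ShortComplex (ModuleCat k) :=
  ShortComplex.mk (d₁₀ A) A.norm.toModuleCatHom (Rep.comp_eq_zero A)

/-- The part of the Tate complex around degree `0` is `A --N--> A --d₀₁--> (G → A)`. -/
noncomputable def tateScZeroIso : (tateComplex A).sc' (-1) 0 1 ≅ scZero A :=
  ShortComplex.isoMk (chainsIso₀ A) (cochainsIso₀ A) (cochainsIso₁ A)
    (by
      show (chainsIso₀ A).hom ≫ A.norm.toModuleCatHom = A.tateNorm ≫ (cochainsIso₀ A).hom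
      simp [Rep.tateNorm])
    (by
      show (cochainsIso₀ A).hom ≫ d₀₁ A = (inhomogeneousCochains A).d 0 1 ≫ (cochainsIso₁ A).hom
      exact comp_d₀₁_eq A)

/-- The part of the Tate complex around degree `-1` is `(G →₀ A) --d₁₀--> A --N--> A`. -/
noncomputable def tateScNegOneIso : (tateComplex A).sc' (-2) (-1) 0 ≅ scNegOne A :=
  ShortComplex.isoMk (chainsIso₁ A) (chainsIso₀ A) (cochainsIso₀ A)
    (by
      show (chainsIso₁ A).hom ≫ d₁₀ A = (inhomogeneousChains A).d 1 0 ≫ (chainsIso₀ A).hom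
      exact comp_d₁₀_eq A)
    (by
      show (chainsIso₀ A).hom ≫ A.norm.toModuleCatHom = A.tateNorm ≫ (cochainsIso₀ A).hom
      simp [Rep.tateNorm])

/-- `ker d₀₁ ⧸ N A ≃ A^G ⧸ N A` -/
noncomputable def homologyScZeroEquiv :
    (LinearMap.ker (scZero A).g.hom ⧸ LinearMap.range (scZero A).moduleCatToCycles) ≃ₗ[k]
      TateZero A :=
  Submodule.Quotient.equiv _ _ (LinearEquiv.ofEq _ _ (d₀₁_ker_eq_invariants A)) (by
    ext ⟨x, hx⟩
    constructor
    · rintro ⟨y, ⟨z, rfl⟩, hy⟩
      have : ((scZero A).moduleCatToCycles z).1 = x := congrArg Subtype.val hy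
      exact ⟨z, this⟩
    · rintro ⟨z, hz⟩
      exact ⟨(scZero A).moduleCatToCycles z, ⟨z, rfl⟩, Subtype.ext hz⟩)

/-- `ker N ⧸ im d₁₀ ≃ ker N ⧸ I_G A` -/
noncomputable def homologyScNegOneEquiv :
    (LinearMap.ker (scNegOne A).g.hom ⧸ LinearMap.range (scNegOne A).moduleCatToCycles) ≃ₗ[k]
      TateNegOne A :=
  Submodule.Quotient.equiv _ _ (LinearEquiv.refl k _) (by
    ext ⟨x, hx⟩
    have h := range_d₁₀_eq_coinvariantsKer A
    constructor
    · rintro ⟨y, ⟨z, rfl⟩, hy⟩
      have h1 : ((scNegOne A).moduleCatToCycles z).1 = x := congrArg Subtype.val hy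
      show x ∈ Representation.Coinvariants.ker A.ρ
      rw [← h, ← h1]
      exact ⟨z, rfl⟩
    · intro hx'
      have hx'' : x ∈ Representation.Coinvariants.ker A.ρ := hx'
      rw [← h] at hx''
      obtain ⟨z, hz⟩ := hx''
      exact ⟨(scNegOne A).moduleCatToCycles z, ⟨z, rfl⟩, Subtype.ext hz⟩)

/-- **`Ĥ⁰(G, A) ≅ A^G / N A`** for Mathlib's Tate cohomology. -/
noncomputable def tateZeroIso : tateCohomology A 0 ≅ ModuleCat.of k (TateZero A) :=
  (tateComplex A).homologyIsoSc' (-1) 0 1 (by simp) (by simp) ≪≫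
    ShortComplex.homologyMapIso (tateScZeroIso A) ≪≫ (scZero A).moduleCatHomologyIso ≪≫
    (homologyScZeroEquiv A).toModuleIso

/-- **`Ĥ⁻¹(G, A) ≅ ker N / I_G A`** for Mathlib's Tate cohomology. -/
noncomputable def tateNegOneIso : tateCohomology A (-1) ≅ ModuleCat.of k (TateNegOne A) :=
  (tateComplex A).homologyIsoSc' (-2) (-1) 0 (by simp) (by simp) ≪≫
    ShortComplex.homologyMapIso (tateScNegOneIso A) ≪≫ (scNegOne A).moduleCatHomologyIso ≪≫
    (homologyScNegOneEquiv A).toModuleIso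

/-- The class of an invariant in `Ĥ⁰`. -/
noncomputable def tateZeroMk : A.ρ.invariants →ₗ[k] tateCohomology A 0 :=
  (tateZeroIso A).toLinearEquiv.symm.toLinearMap ∘ₗ Submodule.mkQ _

/-- The class of an element of norm `0` in `Ĥ⁻¹`. -/
noncomputable def tateNegOneMk : LinearMap.ker (A.ρ.norm : A.V →ₗ[k] A.V) →ₗ[k] tateCohomology A (-1) :=
  (tateNegOneIso A).toLinearEquiv.symm.toLinearMap ∘ₗ Submodule.mkQ _

theorem tateZeroMk_surjective : Function.Surjective (tateZeroMk A) := by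
  intro x
  obtain ⟨a, ha⟩ := Submodule.mkQ_surjective _ ((tateZeroIso A).toLinearEquiv x)
  refine ⟨a, ?_⟩
  show (tateZeroIso A).toLinearEquiv.symm (Submodule.mkQ _ a) = x
  rw [ha, LinearEquiv.symm_apply_apply]

theorem tateZeroMk_eq_zero_iff (a : A.ρ.invariants) :
    tateZeroMk A a = 0 ↔ ∃ b : A.V, A.ρ.norm b = a := by
  show (tateZeroIso A).toLinearEquiv.symm (Submodule.mkQ _ a) = 0 ↔ _
  rw [LinearEquiv.map_eq_zero_iff, Submodule.mkQ_apply, Submodule.Quotient.mk_eq_zero]
  rfl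

theorem tateNegOneMk_surjective : Function.Surjective (tateNegOneMk A) := by
  intro x
  obtain ⟨a, ha⟩ := Submodule.mkQ_surjective _ ((tateNegOneIso A).toLinearEquiv x)
  refine ⟨a, ?_⟩
  show (tateNegOneIso A).toLinearEquiv.symm (Submodule.mkQ _ a) = x
  rw [ha, LinearEquiv.symm_apply_apply]

theorem tateNegOneMk_eq_zero_iff (a : LinearMap.ker (A.ρ.norm : A.V →ₗ[k] A.V)) :
    tateNegOneMk A a = 0 ↔ (a : A.V) ∈ Representation.Coinvariants.ker A.ρ := by
  show (tateNegOneIso A).toLinearEquiv.symm (Submodule.mkQ _ a) = 0 ↔ _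
  rw [LinearEquiv.map_eq_zero_iff, Submodule.mkQ_apply, Submodule.Quotient.mk_eq_zero]
  rfl

/-- `Ĥ⁰(G, A) = 0` iff every invariant is a norm. -/
theorem isZero_tateCohomology_zero_iff :
    Limits.IsZero (tateCohomology A 0) ↔ ∀ a : A.V, a ∈ A.ρ.invariants → ∃ b : A.V, A.ρ.norm b = a := by
  rw [ModuleCat.isZero_iff_subsingleton]
  constructor
  · intro h a ha
    exact (tateZeroMk_eq_zero_iff A ⟨a, ha⟩).1 (Subsingleton.elim _ _)
  · intro h
    refine ⟨fun x y => ?_⟩
    obtain ⟨a, rfl⟩ := tateZeroMk_surjective A x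
    obtain ⟨b, rfl⟩ := tateZeroMk_surjective A y
    rw [(tateZeroMk_eq_zero_iff A a).2 (h a a.2), (tateZeroMk_eq_zero_iff A b).2 (h b b.2)]

/-- `Ĥ⁻¹(G, A) = 0` iff every element of norm `0` lies in `I_G A`. -/
theorem isZero_tateCohomology_negOne_iff :
    Limits.IsZero (tateCohomology A (-1)) ↔
      ∀ a : A.V, A.ρ.norm a = 0 → a ∈ Representation.Coinvariants.ker A.ρ := by
  rw [ModuleCat.isZero_iff_subsingleton]
  constructor
  · intro h a ha
    exact (tateNegOneMk_eq_zero_iff A ⟨a, ha⟩).1 (Subsingleton.elim _ _)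
  · intro h
    refine ⟨fun x y => ?_⟩
    obtain ⟨a, rfl⟩ := tateNegOneMk_surjective A x
    obtain ⟨b, rfl⟩ := tateNegOneMk_surjective A y
    rw [(tateNegOneMk_eq_zero_iff A a).2 (h a a.2), (tateNegOneMk_eq_zero_iff A b).2 (h b b.2)]

theorem card_tateCohomology_zero : Nat.card (tateCohomology A 0) = Nat.card (TateZero A) :=
  Nat.card_congr (tateZeroIso A).toLinearEquiv.toEquiv

theorem card_tateCohomology_negOne : Nat.card (tateCohomology A (-1)) = Nat.card (TateNegOne A) :=
  Nat.card_congr (tateNegOneIso A).toLinearEquiv.toEquiv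

end Fermat.Agent.CFT.TateLow
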